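import Mathlib
import Fermat.Prelude.Def_FLTPrelim_Modularity

/-!
# The four non-cuspidal rational points of `X₀(15)` are not semistable (helper file for S51)
-/

set_option autoImplicit false

namespace Fermat.Agent.S51

/-- If `a * c₄ ^ 3 = b * Δ` with `5 ∤ a`, `5 ∣ b`, `125 ∤ b`, the model is not semistable. -/
lemma not_semistable_of_five {W : WeierstrassCurve ℤ} (hW : W.IsSemistableModel)
    (a b : ℤ) (ha : ¬ (5 : ℤ) ∣ a) (hb : (5 : ℤ) ∣ b) (hb' : ¬ (125 : ℤ) ∣ b)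
    (h : a * W.c₄ ^ 3 = b * W.Δ) : False := by
  have h5 : Prime (5 : ℤ) := by norm_num
  -- 5 ∣ c₄
  have hc4 : (5 : ℤ) ∣ W.c₄ := by
    have h1 : (5 : ℤ) ∣ a * W.c₄ ^ 3 := by rw [h]; exact Dvd.dvd.mul_right hb _
    rcases h5.dvd_or_dvd h1 with h2 | h2
    · exact absurd h2 ha
    · exact h5.dvd_of_dvd_pow h2
  -- hence 5 ∣ Δ
  have hΔ : (5 : ℤ) ∣ W.Δ := by
    obtain ⟨c, hc⟩ := hc4
    have h1 : (125 : ℤ) ∣ b * W.Δ := by
      rw [← h, hc]
      exact ⟨a * c ^ 3, by ring⟩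
    by_contra hn
    -- 5 ∤ Δ, so 125 ∣ b
    have hcop : IsCoprime ((5 : ℤ) ^ 3) W.Δ :=
      IsCoprime.pow_left ((Prime.coprime_iff_not_dvd h5).mpr hn)
    have : ((5 : ℤ) ^ 3) ∣ b := hcop.dvd_of_dvd_mul_right (by simpa using h1)
    exact hb' (by simpa using this)
  exact hW 5 (by norm_num) (by exact_mod_cast hΔ) (by exact_mod_cast hc4)

/-- None of the four rational non-cuspidal points of `X₀(15)` comes from a semistable model. -/
theorem not_semistable_of_s {W : WeierstrassCurve ℤ} (hW : W.IsSemistableModel)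
    (s : ℚ) (hs : s = -10 ∨ s = -40 ∨ s = -25 / 2 ∨ s = -25 / 8)
    (h : (W.c₄ : ℚ) ^ 3 * s = (s ^ 2 + 10 * s + 5) ^ 3 * (W.Δ : ℚ)) : False := by
  rcases hs with rfl | rfl | rfl | rfl
  · refine not_semistable_of_five hW (-2) 25 (by norm_num) (by norm_num) (by norm_num) ?_
    have : (((-2 : ℤ) * W.c₄ ^ 3 : ℤ) : ℚ) = ((25 * W.Δ : ℤ) : ℚ) := by
      push_cast; linear_combination (1 / 5 : ℚ) * h
    exact_mod_cast this
  · refine not_semistable_of_five hW (-8) (25 * 241 ^ 3) (by norm_num) (by norm_num)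
      (by norm_num) ?_
    have : (((-8 : ℤ) * W.c₄ ^ 3 : ℤ) : ℚ) = ((25 * 241 ^ 3 * W.Δ : ℤ) : ℚ) := by
      push_cast; linear_combination (1 / 5 : ℚ) * h
    exact_mod_cast this
  · refine not_semistable_of_five hW (-32) (5 * 29 ^ 3) (by norm_num) (by norm_num)
      (by norm_num) ?_
    have : (((-32 : ℤ) * W.c₄ ^ 3 : ℤ) : ℚ) = ((5 * 29 ^ 3 * W.Δ : ℤ) : ℚ) := by
      push_cast; linear_combination (64 / 25 : ℚ) * h
    exact_mod_cast this
  · refine not_semistable_of_five hW 32768 (5 * 211 ^ 3) (by norm_num) (by norm_num)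
      (by norm_num) ?_
    have : (((32768 : ℤ) * W.c₄ ^ 3 : ℤ) : ℚ) = ((5 * 211 ^ 3 * W.Δ : ℤ) : ℚ) := by
      push_cast; linear_combination (-262144 / 25 : ℚ) * h
    exact_mod_cast this

end Fermat.Agent.S51
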