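import Mathlib

/-!
# Rational points of `X₀(15)` in the `(s,t)`-model (helper file for S51)

The plane curve `(t+27)(t+3)^3 s = (s^2+10s+5)^3 t` is a (singular) model of `X₀(15)`.
We map it birationally to `y^2 = x(x+9)(x-16)` and read off the rational points from the
rational points of that elliptic curve (taken as a hypothesis here).
-/

set_option autoImplicit false

namespace Fermat.Agent.S51

/-- mod 7 obstruction: a homogeneous form with only the trivial zero mod 7 has no coprime zero. -/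
lemma x015_coprime_mod_seven {a b : ℤ} (hab : IsCoprime a b)
    (h7 : ((a : ZMod 7) = 0 ∧ (b : ZMod 7) = 0)) : False := by
  obtain ⟨ha, hb⟩ := h7
  rw [ZMod.intCast_zmod_eq_zero_iff_dvd] at ha hb
  have h1 : ((7 : ℕ) : ℤ) ∣ 1 := by
    obtain ⟨u, v, huv⟩ := hab
    rw [← huv]
    exact dvd_add (Dvd.dvd.mul_left ha u) (Dvd.dvd.mul_left hb v)
  have : ((7 : ℕ) : ℤ) ≤ 1 := Int.le_of_dvd one_pos h1
  norm_num at this

lemma x015_P8_ne_zero (s : ℚ) :
    s ^ 8 + 36 * s ^ 7 + 548 * s ^ 6 + 4204 * s ^ 5 + 15462 * s ^ 4 + 21308 * s ^ 3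
      - 1660 * s ^ 2 - 3660 * s + 625 ≠ 0 := by
  intro h
  have hb : (s.den : ℚ) ≠ 0 := by exact_mod_cast s.den_nz
  have hs : s = (s.num : ℚ) / (s.den : ℚ) := (Rat.num_div_den s).symm
  set a : ℤ := s.num with ha
  set b : ℤ := (s.den : ℤ) with hbdef
  have hbq : ((b : ℤ) : ℚ) ≠ 0 := by simpa [hbdef] using hb
  have hs' : s = (a : ℚ) / (b : ℚ) := by simpa [hbdef] using hs
  have hcop : IsCoprime a b := by
    rw [Int.isCoprime_iff_gcd_eq_one]
    simp [Int.gcd, ha, hbdef, s.reduced]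
  rw [hs'] at h
  field_simp at h
  have hZ : a ^ 8 + 36 * a ^ 7 * b + 548 * a ^ 6 * b ^ 2 + 4204 * a ^ 5 * b ^ 3
      + 15462 * a ^ 4 * b ^ 4 + 21308 * a ^ 3 * b ^ 5 - 1660 * a ^ 2 * b ^ 6
      - 3660 * a * b ^ 7 + 625 * b ^ 8 = 0 := by
    have : ((a ^ 8 + 36 * a ^ 7 * b + 548 * a ^ 6 * b ^ 2 + 4204 * a ^ 5 * b ^ 3
      + 15462 * a ^ 4 * b ^ 4 + 21308 * a ^ 3 * b ^ 5 - 1660 * a ^ 2 * b ^ 6
      - 3660 * a * b ^ 7 + 625 * b ^ 8 : ℤ) : ℚ) = 0 := by
      push_cast
      linear_combination h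
    exact_mod_cast this
  have h7 := congrArg (Int.cast : ℤ → ZMod 7) hZ
  push_cast at h7
  have key : ∀ x y : ZMod 7, x ^ 8 + 36 * x ^ 7 * y + 548 * x ^ 6 * y ^ 2 + 4204 * x ^ 5 * y ^ 3
      + 15462 * x ^ 4 * y ^ 4 + 21308 * x ^ 3 * y ^ 5 - 1660 * x ^ 2 * y ^ 6
      - 3660 * x * y ^ 7 + 625 * y ^ 8 = 0 → x = 0 ∧ y = 0 := by decide
  exact x015_coprime_mod_seven hcop (key _ _ h7)

lemma x015_Q4_ne_zero (t : ℚ) :
    8 * t ^ 4 + 288 * t ^ 3 + 2160 * t ^ 2 + 4717 * t + 5832 ≠ 0 := by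
  intro h
  have hb : (t.den : ℚ) ≠ 0 := by exact_mod_cast t.den_nz
  have hs : t = (t.num : ℚ) / (t.den : ℚ) := (Rat.num_div_den t).symm
  set a : ℤ := t.num with ha
  set b : ℤ := (t.den : ℤ) with hbdef
  have hbq : ((b : ℤ) : ℚ) ≠ 0 := by simpa [hbdef] using hb
  have hs' : t = (a : ℚ) / (b : ℚ) := by simpa [hbdef] using hs
  have hcop : IsCoprime a b := by
    rw [Int.isCoprime_iff_gcd_eq_one]
    simp [Int.gcd, ha, hbdef, t.reduced]
  rw [hs'] at h
  field_simp at h
  have hZ : 8 * a ^ 4 + 288 * a ^ 3 * b + 2160 * a ^ 2 * b ^ 2 + 4717 * a * b ^ 3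
      + 5832 * b ^ 4 = 0 := by
    have : ((8 * a ^ 4 + 288 * a ^ 3 * b + 2160 * a ^ 2 * b ^ 2 + 4717 * a * b ^ 3
      + 5832 * b ^ 4 : ℤ) : ℚ) = 0 := by
      push_cast
      linear_combination h
    exact_mod_cast this
  have h7 := congrArg (Int.cast : ℤ → ZMod 7) hZ
  push_cast at h7
  have key : ∀ x y : ZMod 7, 8 * x ^ 4 + 288 * x ^ 3 * y + 2160 * x ^ 2 * y ^ 2
      + 4717 * x * y ^ 3 + 5832 * y ^ 4 = 0 → x = 0 ∧ y = 0 := by decide
  exact x015_coprime_mod_seven hcop (key _ _ h7)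

/-- numerator of the `x`-coordinate on `y^2 = x(x+9)(x-16)` as a function of `(s,t)`. -/
def x015N (s t : ℚ) : ℚ :=
  16 * s ^ 2 * t + 4 * s * t ^ 2 + 136 * s * t - 108 * s + 4 * t ^ 2 + 56 * t - 108

/-- denominator of the `x`-coordinate on `y^2 = x(x+9)(x-16)` as a function of `(s,t)`. -/
def x015M (s t : ℚ) : ℚ :=
  3 * s ^ 3 + s ^ 2 * t + 42 * s ^ 2 + 4 * s * t + 117 * s - t ^ 2 - 19 * t - 3

lemma x015_main (s t : ℚ)
    (h : (t + 27) * (t + 3) ^ 3 * s = (s ^ 2 + 10 * s + 5) ^ 3 * t) :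
    (x015N s t ^ 2 - 7 * x015N s t * x015M s t - 144 * x015M s t ^ 2)
        * (x015N s t - 4 * x015M s t) ^ 2
      = x015N s t * x015M s t * (3 * x015N s t + (8 * s + 52) * x015M s t) ^ 2 := by
  unfold x015N x015M
  linear_combination (27648 * s ^ 7 + 34560 * s ^ 6 * t + 926208 * s ^ 6 + 16128 * s ^ 5 * t ^ 2 + 940032 * s ^ 5 * t + 11895552 * s ^ 5 + 3328 * s ^ 4 * t ^ 3 + 336384 * s ^ 4 * t ^ 2 + 9082368 * s ^ 4 * t + 72175104 * s ^ 4 + 256 * s ^ 3 * t ^ 4 + 48128 * s ^ 3 * t ^ 3 + 2202624 * s ^ 3 * t ^ 2 + 35251200 * s ^ 3 * t + 200620800 * s ^ 3 + 2048 * s ^ 2 * t ^ 4 + 171520 * s ^ 2 * t ^ 3 + 4091904 * s ^ 2 * t ^ 2 + 34594560 * s ^ 2 * t + 177596928 * s ^ 2 + 2048 * s * t ^ 4 + 43008 * s * t ^ 3 - 2260224 * s * t ^ 2 - 47278080 * s * t - 87664896 * s + 2560 * t ^ 4 + 93440 * t ^ 3 + 1128960 * t ^ 2 + 5667840 * t + 10229760) * h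

lemma x015_bez (s t : ℚ) :
    (4 * s ^ 5 + 64 * s ^ 4 - 4 * s ^ 3 * t + 324 * s ^ 3 - 36 * s ^ 2 * t + 236 * s ^ 2
        - 76 * s * t - 1176 * s + 20 * t + 260) * x015N s t
      + (-16 * s ^ 5 - 16 * s ^ 4 * t - 352 * s ^ 4 - 160 * s ^ 3 * t - 3072 * s ^ 3
        - 448 * s ^ 2 * t - 8096 * s ^ 2 - 224 * s * t - 624 * s + 80 * t + 640) * x015M s t
      = -48 * (s ^ 8 + 36 * s ^ 7 + 548 * s ^ 6 + 4204 * s ^ 5 + 15462 * s ^ 4 + 21308 * s ^ 3
          - 1660 * s ^ 2 - 3660 * s + 625) := by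
  unfold x015N x015M; ring

/-- The rational points of `X₀(15)` in the `(s,t)`-model, given the rational points of
`y^2 = x(x+9)(x-16)`. -/
theorem x0_15_rational_points_of
    (hE : ∀ x y : ℚ, y ^ 2 = x * (x + 9) * (x - 16) →
      x = 0 ∨ x = -9 ∨ x = 16 ∨ x = 36 ∨ x = -4)
    (s t : ℚ) (hs : s ≠ 0) (_ht : t ≠ 0)
    (h : (t + 27) * (t + 3) ^ 3 * s = (s ^ 2 + 10 * s + 5) ^ 3 * t) :
    s = -10 ∨ s = -40 ∨ s = -25 / 2 ∨ s = -25 / 8 := by
  have main := x015_main s t h
  have bez := x015_bez s t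
  generalize x015N s t = N at main bez
  generalize x015M s t = M at main bez
  by_cases hM0 : M = 0
  · -- degenerate case: then also N = 0, contradiction with the resultant
    exfalso
    have hN0 : N = 0 := by
      have : N ^ 4 = 0 := by
        have := main
        rw [hM0] at this
        linear_combination this
      exact pow_eq_zero_iff (by norm_num) |>.mp this
    rw [hM0, hN0] at bez
    have := x015_P8_ne_zero s
    apply this
    linarith
  · set x : ℚ := N / M with hx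
    have hNx : N = x * M := by rw [hx]; field_simp
    have main' : (x ^ 2 - 7 * x - 144) * (x - 4) ^ 2 = x * (3 * x + 8 * s + 52) ^ 2 := by
      have hM4 : M ^ 4 ≠ 0 := pow_ne_zero 4 hM0
      apply mul_left_cancel₀ hM4
      rw [hNx] at main
      linear_combination main
    by_cases hx4 : x = 4
    · exfalso
      rw [hx4] at main'
      have hs8 : s = -8 := by
        have : (8 * s + 64) ^ 2 = 0 := by linear_combination (-1 / 4 : ℚ) * main'
        have := pow_eq_zero_iff (n := 2) (by norm_num) |>.mp this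
        linarith
      rw [hs8] at h
      apply x015_Q4_ne_zero t
      linear_combination (-1 : ℚ) * h
    · have hx4' : x - 4 ≠ 0 := sub_ne_zero.mpr hx4
      set y : ℚ := x * (3 * x + 8 * s + 52) / (x - 4) with hy
      have hcurve : y ^ 2 = x * (x + 9) * (x - 16) := by
        rw [hy, div_pow, div_eq_iff (pow_ne_zero 2 hx4')]
        linear_combination (-x) * main'
      rcases hE x y hcurve with h0 | h9 | h16 | h36 | h4
      · exfalso
        rw [h0] at main'
        norm_num at main'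
      · right; right; right
        rw [h9] at main'
        have : (8 * s + 25) ^ 2 = 0 := by linear_combination (1 / 9 : ℚ) * main'
        have := pow_eq_zero_iff (n := 2) (by norm_num) |>.mp this
        linarith
      · right; right; left
        rw [h16] at main'
        have : (8 * s + 100) ^ 2 = 0 := by linear_combination (-1 / 16 : ℚ) * main'
        have := pow_eq_zero_iff (n := 2) (by norm_num) |>.mp this
        linarith
      · right; left
        rw [h36] at main'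
        have : s * (s + 40) = 0 := by linear_combination (-1 / 2304 : ℚ) * main'
        rcases mul_eq_zero.mp this with h1 | h1
        · exact absurd h1 hs
        · linarith
      · left
        rw [h4] at main'
        have : s * (s + 10) = 0 := by linear_combination (1 / 256 : ℚ) * main'
        rcases mul_eq_zero.mp this with h1 | h1
        · exact absurd h1 hs
        · linarith

end Fermat.Agent.S51
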