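import Fermat.Agent.S51.Three
import Fermat.Agent.S51.X015
import Fermat.Agent.S51.Semistable

/-!
# Assembly of S51 from its four inputs

`3`-side (landed), `5`-side and descent (hypotheses here), `X₀(15)` bridge and
semistability contradiction (landed).
-/

set_option autoImplicit false

open WeierstrassCurve

namespace Fermat.Agent.S51

theorem assembly
    (hDescent : ∀ x y : ℚ, y ^ 2 = x * (x + 9) * (x - 16) →
      x = 0 ∨ x = -9 ∨ x = 16 ∨ x = 36 ∨ x = -4)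
    (hFive : ∀ W : WeierstrassCurve ℤ, W.Δ ≠ 0 → ¬ W.ModRepIsIrreducible 5 →
      ∃ s : ℚ, s ≠ 0 ∧ (W.c₄ : ℚ) ^ 3 * s = (s ^ 2 + 10 * s + 5) ^ 3 * (W.Δ : ℚ))
    (W : WeierstrassCurve ℤ) (hΔ : W.Δ ≠ 0) (hW : W.IsSemistableModel) :
    W.ModRepIsIrreducible 3 ∨ W.ModRepIsIrreducible 5 := by
  by_contra hcon
  rw [not_or] at hcon
  obtain ⟨h3, h5⟩ := hcon
  obtain ⟨t, ht, hteq⟩ := exists_t_of_not_irr_three W hΔ h3
  obtain ⟨s, hs, hseq⟩ := hFive W hΔ h5
  have hΔq : (W.Δ : ℚ) ≠ 0 := by exact_mod_cast hΔ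
  have hF : (t + 27) * (t + 3) ^ 3 * s = (s ^ 2 + 10 * s + 5) ^ 3 * t := by
    apply mul_left_cancel₀ hΔq
    linear_combination (-s) * hteq + t * hseq
  exact not_semistable_of_s hW s (x0_15_rational_points_of hDescent s t hs ht hF) hseq

end Fermat.Agent.S51
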