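import Mathlib

/-!
# Rational points of `y^2 = x (x + 9) (x - 16)`

Pure Diophantine descent (no group law).  Main result `E0_points`.
-/

namespace Fermat.Agent.S51.Descent

/-- Integer solutions of the pair of concordant equations
`b^2 = a^2 + 9 e^2`, `a^2 = c^2 + 16 e^2` with all entries positive. -/
def Sol (a b c e : ℤ) : Prop :=
  0 < a ∧ 0 < b ∧ 0 < c ∧ 0 < e ∧ b ^ 2 = a ^ 2 + 9 * e ^ 2 ∧ a ^ 2 = c ^ 2 + 16 * e ^ 2

theorem Sol.four_e_lt {a b c e : ℤ} (h : Sol a b c e) : 4 * e < a := by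
  obtain ⟨ha, hb, hc, he, h1, h2⟩ := h
  nlinarith

theorem Sol.c_lt {a b c e : ℤ} (h : Sol a b c e) : c < a := by
  obtain ⟨ha, hb, hc, he, h1, h2⟩ := h
  nlinarith

theorem Sol.a_lt {a b c e : ℤ} (h : Sol a b c e) : a < b := by
  obtain ⟨ha, hb, hc, he, h1, h2⟩ := h
  nlinarith

theorem Sol.four_b_lt {a b c e : ℤ} (h : Sol a b c e) : 4 * b < 5 * a := by
  have h4 := h.four_e_lt
  obtain ⟨ha, hb, hc, he, h1, h2⟩ := h
  nlinarith

/-- The translation by the `2`-torsion point `(16, 0)`. -/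
theorem Sol.tau {a b c e : ℤ} (h : Sol a b c e) : Sol (4 * b) (5 * a) (20 * e) c := by
  obtain ⟨ha, hb, hc, he, h1, h2⟩ := h
  refine ⟨by positivity, by positivity, by positivity, hc, ?_, ?_⟩
  · nlinarith
  · nlinarith

/-- Dividing a solution by the gcd of `s` and `e`. -/
theorem Sol.normalize {s t r e : ℤ} (h : Sol s t r e) :
    ∃ a b c e' g : ℤ, Sol a b c e' ∧ IsCoprime a e' ∧ 0 < g ∧ s = g * a ∧ e = g * e' := by
  obtain ⟨hs, ht, hr, he, h1, h2⟩ := h
  set g : ℤ := (Int.gcd s e : ℤ) with hg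
  have hgpos : 0 < g := by
    have : 0 < Int.gcd s e := Int.gcd_pos_of_ne_zero_left _ hs.ne'
    rw [hg]
    exact_mod_cast this
  obtain ⟨a, ha⟩ : g ∣ s := Int.gcd_dvd_left s e
  obtain ⟨e', he'⟩ : g ∣ e := Int.gcd_dvd_right s e
  have hco : IsCoprime a e' := by
    rw [Int.isCoprime_iff_gcd_eq_one]
    have h3 : Int.gcd s e = Int.gcd s e * Int.gcd a e' := by
      conv_lhs => rw [ha, he']
      rw [Int.gcd_mul_left, hg, Int.natAbs_natCast]
    have h4 : 0 < Int.gcd s e := Int.gcd_pos_of_ne_zero_left _ hs.ne'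
    nlinarith [Nat.eq_of_mul_eq_mul_left h4 (by rw [mul_one]; exact h3.symm : Int.gcd s e * Int.gcd a e' = Int.gcd s e * 1)]
  have hgt : g ∣ t := by
    have : g ^ 2 ∣ t ^ 2 := by
      rw [h1, ha, he']
      exact ⟨a ^ 2 + 9 * e' ^ 2, by ring⟩
    exact (Int.pow_dvd_pow_iff (by norm_num)).mp this
  have hgr : g ∣ r := by
    have : g ^ 2 ∣ r ^ 2 := by
      have : r ^ 2 = s ^ 2 - 16 * e ^ 2 := by linarith
      rw [this, ha, he']
      exact ⟨a ^ 2 - 16 * e' ^ 2, by ring⟩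
    exact (Int.pow_dvd_pow_iff (by norm_num)).mp this
  obtain ⟨b, hb⟩ := hgt
  obtain ⟨c, hc⟩ := hgr
  have hapos : 0 < a := by
    rcases lt_or_ge 0 a with hcon | hcon
    · exact hcon
    · have : g * a ≤ 0 := mul_nonpos_of_nonneg_of_nonpos hgpos.le hcon
      linarith
  have hbpos : 0 < b := by
    rcases lt_or_ge 0 b with hcon | hcon
    · exact hcon
    · have : g * b ≤ 0 := mul_nonpos_of_nonneg_of_nonpos hgpos.le hcon
      linarith
  have hcpos : 0 < c := by
    rcases lt_or_ge 0 c with hcon | hcon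
    · exact hcon
    · have : g * c ≤ 0 := mul_nonpos_of_nonneg_of_nonpos hgpos.le hcon
      linarith
  have he'pos : 0 < e' := by
    rcases lt_or_ge 0 e' with hcon | hcon
    · exact hcon
    · have : g * e' ≤ 0 := mul_nonpos_of_nonneg_of_nonpos hgpos.le hcon
      linarith
  have hg2 : (g ^ 2) ≠ 0 := by positivity
  refine ⟨a, b, c, e', g, ⟨hapos, hbpos, hcpos, he'pos, ?_, ?_⟩, hco, hgpos, ha, he'⟩
  · apply mul_left_cancel₀ hg2
    rw [hb, ha, he'] at h1
    linear_combination h1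
  · apply mul_left_cancel₀ hg2
    rw [hc, ha, he'] at h2
    linear_combination h2


theorem zmod3_aux : ∀ x y : ZMod 3, (0 : ZMod 3) = x ^ 2 + 16 * y ^ 2 → y = 0 := by decide

theorem Sol.three_not_dvd {a b c e : ℤ} (h : Sol a b c e) (hco : IsCoprime a e) : ¬ (3 : ℤ) ∣ a := by
  intro h3
  obtain ⟨ha, hb, hc, he, h1, h2⟩ := h
  have ha0 : ((a : ℤ) : ZMod 3) = 0 := (ZMod.intCast_zmod_eq_zero_iff_dvd a 3).mpr h3
  have := congrArg (Int.cast : ℤ → ZMod 3) h2
  push_cast at this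
  rw [ha0] at this
  have he0 : ((e : ℤ) : ZMod 3) = 0 := zmod3_aux _ _ (by simpa using this)
  have h3e : (3 : ℤ) ∣ e := (ZMod.intCast_zmod_eq_zero_iff_dvd e 3).mp he0
  have : IsUnit (3 : ℤ) := hco.isUnit_of_dvd' h3 h3e
  rw [Int.isUnit_iff] at this
  omega

theorem Sol.coprime_c_e {a b c e : ℤ} (h : Sol a b c e) (hco : IsCoprime a e) : IsCoprime c e := by
  obtain ⟨ha, hb, hc, he, h1, h2⟩ := h
  have h3 : IsCoprime (a ^ 2) e := hco.pow_left
  have h4 : IsCoprime (a ^ 2 + e * (-16 * e)) e := h3.add_mul_left_left _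
  have h5 : a ^ 2 + e * (-16 * e) = c ^ 2 := by linarith
  rw [h5] at h4
  exact (IsCoprime.pow_left_iff (by norm_num)).mp h4

theorem Sol.coprime_b_e {a b c e : ℤ} (h : Sol a b c e) (hco : IsCoprime a e) : IsCoprime b e := by
  obtain ⟨ha, hb, hc, he, h1, h2⟩ := h
  have h3 : IsCoprime (a ^ 2) e := hco.pow_left
  have h4 : IsCoprime (a ^ 2 + e * (9 * e)) e := h3.add_mul_left_left _
  have h5 : a ^ 2 + e * (9 * e) = b ^ 2 := by linarith
  rw [h5] at h4
  exact (IsCoprime.pow_left_iff (by norm_num)).mp h4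

theorem Sol.five_not_dvd_c {a b c e : ℤ} (h : Sol a b c e) (h5 : ¬ (5 : ℤ) ∣ b) : ¬ (5 : ℤ) ∣ c := by
  intro hc5
  obtain ⟨ha, hb, hc, he, h1, h2⟩ := h
  apply h5
  have h3 : (5 : ℤ) ∣ b ^ 2 := by
    have : b ^ 2 = c ^ 2 + 25 * e ^ 2 := by linarith
    rw [this]
    exact dvd_add (dvd_pow hc5 (by norm_num)) ⟨5 * e ^ 2, by ring⟩
  exact Int.Prime.dvd_pow' (by norm_num) h3

theorem isCoprime_prime_of_not_dvd {p : ℕ} (hp : p.Prime) {x : ℤ} (h : ¬ (p : ℤ) ∣ x) :
    IsCoprime x (p : ℤ) := by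
  rw [Int.isCoprime_iff_gcd_eq_one]
  have : Nat.Coprime x.natAbs p := by
    rw [Nat.coprime_comm]
    exact (Nat.Prime.coprime_iff_not_dvd hp).mpr (fun hd => h (Int.natCast_dvd.mpr hd))
  simpa [Int.gcd] using this

theorem odd_of_sq_odd {x : ℤ} (h : x ^ 2 % 2 = 1) : x % 2 = 1 := by
  rcases Int.emod_two_eq_zero_or_one x with h0 | h0
  · exfalso
    have : x ^ 2 % 2 = 0 := by
      rw [pow_two, Int.mul_emod, h0]; rfl
    omega
  · exact h0


/-- Halving, case `e` even: all of `a, b, c` are odd. -/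
theorem Sol.squares_even {a b c e : ℤ} (h : Sol a b c e) (hco : IsCoprime a e)
    (h5 : ¬ (5 : ℤ) ∣ b) (he2 : e % 2 = 0) :
    ∃ x y z : ℤ, (a + b) * (a + c) = x ^ 2 ∧ (a + b) * (b + c) = y ^ 2 ∧
      (a + c) * (b + c) = z ^ 2 := by
  have h3a := h.three_not_dvd hco
  have hce := h.coprime_c_e hco
  have h5c := h.five_not_dvd_c h5
  obtain ⟨ha, hb, hc, he, h1, h2⟩ := h
  have h2e : (2 : ℤ) ∣ e := Int.dvd_of_emod_eq_zero he2
  -- a is odd
  have ha2 : a % 2 = 1 := by
    rcases Int.emod_two_eq_zero_or_one a with h0 | h0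
    · exfalso
      have : IsUnit (2 : ℤ) := hco.isUnit_of_dvd' (Int.dvd_of_emod_eq_zero h0) h2e
      rw [Int.isUnit_iff] at this
      omega
    · exact h0
  have hc2 : c % 2 = 1 := by
    apply odd_of_sq_odd
    obtain ⟨k, hk⟩ := h2e
    have hc' : c ^ 2 = a ^ 2 - 16 * e ^ 2 := by linarith
    have ha' : a ^ 2 % 2 = 1 := by
      rw [pow_two, Int.mul_emod, ha2]; rfl
    rw [hc']
    omega
  -- first triple
  have T1 : PythagoreanTriple a (3 * e) b := by
    unfold PythagoreanTriple; linarith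
  have g1 : Int.gcd a (3 * e) = 1 := by
    rw [← Int.isCoprime_iff_gcd_eq_one]
    exact IsCoprime.mul_right (isCoprime_prime_of_not_dvd Nat.prime_three h3a) hco
  obtain ⟨m1, n1, hm1, hn1, hb1, -, -, -⟩ := T1.coprime_classification' g1 ha2 hb
  -- second triple
  have T2 : PythagoreanTriple c (4 * e) a := by
    unfold PythagoreanTriple; linarith
  have hc4 : IsCoprime c 4 := by
    have hc22 : IsCoprime c 2 :=
      isCoprime_prime_of_not_dvd Nat.prime_two (fun hd => by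
        have := Int.emod_eq_zero_of_dvd hd
        omega)
    have : IsCoprime c (2 * 2) := IsCoprime.mul_right hc22 hc22
    simpa using this
  have g2 : Int.gcd c (4 * e) = 1 := by
    rw [← Int.isCoprime_iff_gcd_eq_one]
    exact IsCoprime.mul_right hc4 hce
  obtain ⟨m2, n2, hm2, hn2, hb2, -, -, -⟩ := T2.coprime_classification' g2 hc2 ha
  -- third triple
  have T3 : PythagoreanTriple c (5 * e) b := by
    unfold PythagoreanTriple; linarith
  have g3 : Int.gcd c (5 * e) = 1 := by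
    rw [← Int.isCoprime_iff_gcd_eq_one]
    exact IsCoprime.mul_right (isCoprime_prime_of_not_dvd (by norm_num : Nat.Prime 5) h5c) hce
  obtain ⟨m3, n3, hm3, hn3, hb3, -, -, -⟩ := T3.coprime_classification' g3 hc2 hb
  have e1 : a + b = 2 * m1 ^ 2 := by rw [hm1, hb1]; ring
  have e2 : a + c = 2 * m2 ^ 2 := by rw [hm2, hb2]; ring
  have e3 : b + c = 2 * m3 ^ 2 := by rw [hm3, hb3]; ring
  refine ⟨2 * m1 * m2, 2 * m1 * m3, 2 * m2 * m3, ?_, ?_, ?_⟩
  · rw [e1, e2]; ring
  · rw [e1, e3]; ring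
  · rw [e2, e3]; ring


/-- Halving, case `e` odd: `b` is odd, `a` and `c` are divisible by `4`. -/
theorem Sol.squares_odd {a b c e : ℤ} (h : Sol a b c e) (hco : IsCoprime a e)
    (h5 : ¬ (5 : ℤ) ∣ b) (he2 : e % 2 = 1) :
    ∃ x y z : ℤ, (a + b) * (a + c) = x ^ 2 ∧ (a + b) * (b + c) = y ^ 2 ∧
      (a + c) * (b + c) = z ^ 2 := by
  have h3a := h.three_not_dvd hco
  have hce := h.coprime_c_e hco
  have h5c := h.five_not_dvd_c h5
  obtain ⟨ha, hb, hc, he, h1, h2⟩ := h
  have he4 : e ^ 2 % 4 = 1 := Int.sq_mod_four_eq_one_of_odd (Int.odd_iff.mpr he2)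
  -- a is even
  have ha2 : a % 2 = 0 := by
    rcases Int.emod_two_eq_zero_or_one a with h0 | h0
    · exact h0
    · exfalso
      have ha4 : a ^ 2 % 4 = 1 := Int.sq_mod_four_eq_one_of_odd (Int.odd_iff.mpr h0)
      have hb4 := Int.sq_ne_two_mod_four b
      rw [← pow_two, h1] at hb4
      omega
  have h3e : (3 * e) % 2 = 1 := by omega
  have h5e : (5 * e) % 2 = 1 := by omega
  -- first triple
  have T1 : PythagoreanTriple (3 * e) a b := by
    unfold PythagoreanTriple; linarith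
  have g1 : Int.gcd (3 * e) a = 1 := by
    rw [← Int.isCoprime_iff_gcd_eq_one]
    exact (IsCoprime.mul_right (isCoprime_prime_of_not_dvd Nat.prime_three h3a) hco).symm
  obtain ⟨m1, n1, hm1, hn1, hb1, -, hpar1, -⟩ := T1.coprime_classification' g1 h3e hb
  -- third triple
  have T3 : PythagoreanTriple (5 * e) c b := by
    unfold PythagoreanTriple; linarith
  have g3 : Int.gcd (5 * e) c = 1 := by
    rw [← Int.isCoprime_iff_gcd_eq_one]
    exact (IsCoprime.mul_right
      (isCoprime_prime_of_not_dvd (by norm_num : Nat.Prime 5) h5c) hce).symm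
  obtain ⟨m3, n3, hm3, hn3, hb3, -, -, -⟩ := T3.coprime_classification' g3 h5e hb
  -- 4 divides a and c
  have ha4 : (4 : ℤ) ∣ a := by
    rw [hn1]
    rcases hpar1 with ⟨hm, -⟩ | ⟨-, hn⟩
    · obtain ⟨k, hk⟩ := Int.dvd_of_emod_eq_zero hm
      exact ⟨k * n1, by rw [hk]; ring⟩
    · obtain ⟨k, hk⟩ := Int.dvd_of_emod_eq_zero hn
      exact ⟨m1 * k, by rw [hk]; ring⟩
  have hc4 : (4 : ℤ) ∣ c := by
    have : (4 : ℤ) ^ 2 ∣ c ^ 2 := by
      obtain ⟨k, hk⟩ := ha4
      have hc' : c ^ 2 = a ^ 2 - 16 * e ^ 2 := by linarith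
      rw [hc', hk]
      exact ⟨k ^ 2 - e ^ 2, by ring⟩
    exact (Int.pow_dvd_pow_iff (by norm_num)).mp this
  obtain ⟨a0, ha0⟩ := ha4
  obtain ⟨c0, hc0⟩ := hc4
  have ha0pos : 0 < a0 := by omega
  -- second triple
  have T2 : PythagoreanTriple e c0 a0 := by
    unfold PythagoreanTriple
    rw [ha0, hc0] at h2
    nlinarith
  have g2 : Int.gcd e c0 = 1 := by
    rw [← Int.isCoprime_iff_gcd_eq_one]
    rw [hc0] at hce
    exact (IsCoprime.of_mul_left_right hce).symm
  obtain ⟨m2, n2, hm2, hn2, hb2, -, -, -⟩ := T2.coprime_classification' g2 he2 ha0pos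
  have e1 : a + b = (m1 + n1) ^ 2 := by rw [hn1, hb1]; ring
  have e2 : a + c = 4 * (m2 + n2) ^ 2 := by rw [ha0, hc0, hn2, hb2]; ring
  have e3 : b + c = (m3 + n3) ^ 2 := by rw [hn3, hb3]; ring
  refine ⟨(m1 + n1) * (2 * (m2 + n2)), (m1 + n1) * (m3 + n3), 2 * (m2 + n2) * (m3 + n3),
    ?_, ?_, ?_⟩
  · rw [e1, e2]; ring
  · rw [e1, e3]; ring
  · rw [e2, e3]; ring

/-- Halving: a solution with `5 ∤ b` produces a new solution `(s, t, r, e)` with
`s ^ 2 = (a + b) (a + c)`. -/
theorem Sol.halve {a b c e : ℤ} (h : Sol a b c e) (hco : IsCoprime a e)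
    (h5 : ¬ (5 : ℤ) ∣ b) :
    ∃ s t r : ℤ, Sol s t r e ∧ s ^ 2 = (a + b) * (a + c) := by
  obtain ⟨x, y, z, hx, hy, hz⟩ : ∃ x y z : ℤ, (a + b) * (a + c) = x ^ 2 ∧
      (a + b) * (b + c) = y ^ 2 ∧ (a + c) * (b + c) = z ^ 2 := by
    rcases Int.emod_two_eq_zero_or_one e with h0 | h0
    · exact h.squares_even hco h5 h0
    · exact h.squares_odd hco h5 h0
  obtain ⟨ha, hb, hc, he, h1, h2⟩ := h
  have hxpos : 0 < (a + b) * (a + c) := by positivity
  have hypos : 0 < (a + b) * (b + c) := by positivity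
  have hzpos : 0 < (a + c) * (b + c) := by positivity
  have hx0 : x ≠ 0 := by
    rintro rfl
    simp at hx
    omega
  have hy0 : y ≠ 0 := by
    rintro rfl
    simp at hy
    omega
  have hz0 : z ≠ 0 := by
    rintro rfl
    simp at hz
    omega
  refine ⟨|x|, |y|, |z|, ⟨abs_pos.mpr hx0, abs_pos.mpr hy0, abs_pos.mpr hz0, he, ?_, ?_⟩, ?_⟩
  · rw [sq_abs, sq_abs, ← hx, ← hy]
    nlinarith
  · rw [sq_abs, sq_abs, ← hx, ← hz]
    nlinarith
  · rw [sq_abs, ← hx]


/-- There is no small solution. -/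
theorem Sol.ge18 {a b c e : ℤ} (h : Sol a b c e) : 18 ≤ a := by
  by_contra hlt
  have h4 := h.four_e_lt
  have hab := h.a_lt
  have hb4 := h.four_b_lt
  obtain ⟨ha, hb, hc, he, h1, h2⟩ := h
  have ha17 : a ≤ 17 := by omega
  have he4 : e ≤ 4 := by omega
  have hb21 : b ≤ 21 := by omega
  interval_cases a <;> interval_cases e <;> interval_cases b <;> omega

theorem no_sol_aux : ∀ (n : ℕ) (a b c e : ℤ), a.toNat = n → Sol a b c e → IsCoprime a e → False := by
  intro n
  induction n using Nat.strong_induction_on with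
  | _ n ih =>
    intro a b c e han hS hco
    have ha := hS.1
    by_cases h5 : (5 : ℤ) ∣ b
    · -- translate by the 2-torsion point
      have h5c : (5 : ℤ) ∣ c := by
        have h3 : (5 : ℤ) ∣ c ^ 2 := by
          have : c ^ 2 = b ^ 2 - 25 * e ^ 2 := by
            have := hS.2.2.2.2.1
            have := hS.2.2.2.2.2
            linarith
          rw [this]
          exact dvd_sub (dvd_pow h5 (by norm_num)) ⟨5 * e ^ 2, by ring⟩
        exact Int.Prime.dvd_pow' (by norm_num) h3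
      obtain ⟨a', b', c', e', g, hS', hco', hg, hs, he⟩ := hS.tau.normalize
      have h5g : (5 : ℤ) ∣ g := by
        by_contra hng
        have hd1 : (5 : ℤ) ∣ g * a' := by rw [← hs]; exact dvd_mul_of_dvd_right h5 4
        have hd2 : (5 : ℤ) ∣ g * e' := by rw [← he]; exact h5c
        have h1 : (5 : ℤ) ∣ a' :=
          (Int.Prime.dvd_mul' (by norm_num : Nat.Prime 5) hd1).resolve_left hng
        have h2 : (5 : ℤ) ∣ e' :=
          (Int.Prime.dvd_mul' (by norm_num : Nat.Prime 5) hd2).resolve_left hng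
        have : IsUnit (5 : ℤ) := hco'.isUnit_of_dvd' h1 h2
        rw [Int.isUnit_iff] at this
        omega
      have ha'pos := hS'.1
      have hlt : a' < a := by
        have h4b := hS.four_b_lt
        obtain ⟨k, hk⟩ := h5g
        have hkpos : 0 < k := by
          rcases lt_or_ge 0 k with hk0 | hk0
          · exact hk0
          · exfalso; nlinarith
        have : a' ≤ k * a' := by nlinarith
        nlinarith
      exact ih a'.toNat (by omega) a' b' c' e' rfl hS' hco'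
    · -- halve
      obtain ⟨s, t, r, hS1, hs⟩ := hS.halve hco h5
      obtain ⟨a', b', c', e', g, hS', hco', hg, hsg, heg⟩ := hS1.normalize
      have h18 := hS.ge18
      have hca := hS.c_lt
      have hab := hS.a_lt
      have ha'pos := hS'.1
      obtain ⟨_, hb, hc, he, h1, h2⟩ := hS
      have key : a' ^ 2 * (b - a) = e' ^ 2 * (9 * (a + c)) := by
        have hg2 : (g ^ 2) ≠ 0 := by positivity
        apply mul_left_cancel₀ hg2
        have : s ^ 2 * (b - a) = 9 * e ^ 2 * (a + c) := by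
          rw [hs]; nlinarith
        rw [hsg, heg] at this
        linear_combination this
      have hdvd : a' ^ 2 ∣ 9 * (a + c) :=
        (IsCoprime.pow (m := 2) (n := 2) hco').dvd_of_dvd_mul_left ⟨b - a, by linarith⟩
      have hle : a' ^ 2 ≤ 9 * (a + c) := Int.le_of_dvd (by positivity) hdvd
      have hlt : a' < a := by nlinarith
      exact ih a'.toNat (by omega) a' b' c' e' rfl hS' hco'

theorem no_sol {a b c e : ℤ} (h : Sol a b c e) (hco : IsCoprime a e) : False :=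
  no_sol_aux a.toNat a b c e rfl h hco


/-- A rational number whose square is an integer is an integer. -/
theorem rat_den_eq_one_of_sq_eq_int {q : ℚ} {n : ℤ} (h : q ^ 2 = (n : ℚ)) : q.den = 1 := by
  have h1 : (q ^ 2).den = 1 := by rw [h]; exact Rat.den_intCast n
  rw [Rat.den_pow] at h1
  exact (pow_eq_one_iff.mp h1).resolve_right (by norm_num)

/-- The rational form of the main lemma: the only rational point of `E0` in the image of
multiplication by `2` is `(16, 0)`. -/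
theorem main_rat_pos {u v w : ℚ} (hu : 0 < u) (hv : 0 < v) (hw : 0 < w)
    (h1 : v ^ 2 = u ^ 2 + 9) (h2 : u ^ 2 = w ^ 2 + 16) : False := by
  set a : ℤ := u.num with ha
  set e : ℤ := (u.den : ℤ) with he
  have hepos : 0 < e := by rw [he]; exact_mod_cast u.den_pos
  have hapos : 0 < a := by rw [ha]; exact Rat.num_pos.mpr hu
  have hue : u * (e : ℚ) = (a : ℚ) := by
    rw [he, ha]; exact_mod_cast Rat.mul_den_eq_num u
  have hve : (v * (e : ℚ)) ^ 2 = ((a ^ 2 + 9 * e ^ 2 : ℤ) : ℚ) := by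
    push_cast
    rw [← hue]
    rw [mul_pow, h1]; ring
  have hwe : (w * (e : ℚ)) ^ 2 = ((a ^ 2 - 16 * e ^ 2 : ℤ) : ℚ) := by
    push_cast
    rw [← hue]
    rw [mul_pow, mul_pow, h2]; ring
  have hvden := rat_den_eq_one_of_sq_eq_int hve
  have hwden := rat_den_eq_one_of_sq_eq_int hwe
  set b : ℤ := (v * (e : ℚ)).num with hb
  set c : ℤ := (w * (e : ℚ)).num with hc
  have hbq : ((b : ℤ) : ℚ) = v * (e : ℚ) := by
    rw [hb]; exact ((Rat.den_eq_one_iff _).mp hvden)
  have hcq : ((c : ℤ) : ℚ) = w * (e : ℚ) := by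
    rw [hc]; exact ((Rat.den_eq_one_iff _).mp hwden)
  have heq : (0 : ℚ) < (e : ℚ) := by exact_mod_cast hepos
  have hbpos : 0 < b := by
    have : (0 : ℚ) < (b : ℚ) := by rw [hbq]; positivity
    exact_mod_cast this
  have hcpos : 0 < c := by
    have : (0 : ℚ) < (c : ℚ) := by rw [hcq]; positivity
    exact_mod_cast this
  have e1 : b ^ 2 = a ^ 2 + 9 * e ^ 2 := by
    have : ((b ^ 2 : ℤ) : ℚ) = ((a ^ 2 + 9 * e ^ 2 : ℤ) : ℚ) := by
      rw [← hve, ← hbq]; push_cast; ring
    exact_mod_cast this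
  have e2 : a ^ 2 = c ^ 2 + 16 * e ^ 2 := by
    have : ((c ^ 2 : ℤ) : ℚ) = ((a ^ 2 - 16 * e ^ 2 : ℤ) : ℚ) := by
      rw [← hwe, ← hcq]; push_cast; ring
    have h3 : c ^ 2 = a ^ 2 - 16 * e ^ 2 := by exact_mod_cast this
    linarith
  have hco : IsCoprime a e := by
    rw [ha, he]
    exact Rat.isCoprime_num_den u
  exact no_sol ⟨hapos, hbpos, hcpos, hepos, e1, e2⟩ hco

theorem main_rat {u v w : ℚ} (h1 : v ^ 2 = u ^ 2 + 9) (h2 : u ^ 2 = w ^ 2 + 16) : w = 0 := by
  by_contra hw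
  have hw' : 0 < |w| := abs_pos.mpr hw
  have hu : u ≠ 0 := by
    rintro rfl
    nlinarith [sq_nonneg w]
  have hv : v ≠ 0 := by
    rintro rfl
    nlinarith [sq_nonneg u]
  exact main_rat_pos (abs_pos.mpr hu) (abs_pos.mpr hv) hw'
    (by rw [sq_abs, sq_abs]; exact h1) (by rw [sq_abs, sq_abs]; exact h2)

/-- **Rational points of `y^2 = x (x + 9) (x - 16)`** (the curve `15a1`, a model of `X₀(15)`):
the affine rational points have `x ∈ {0, -9, 16, -4, 36}`. -/
theorem E0_points (x y : ℚ) (h : y ^ 2 = x * (x + 9) * (x - 16)) :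
    x = 0 ∨ x = -9 ∨ x = 16 ∨ x = -4 ∨ x = 36 := by
  by_cases hy : y = 0
  · subst hy
    have h0 : x * (x + 9) * (x - 16) = 0 := by
      rw [← h]; ring
    rcases mul_eq_zero.mp h0 with h3 | h3
    · rcases mul_eq_zero.mp h3 with h4 | h4
      · exact Or.inl h4
      · exact Or.inr (Or.inl (by linarith))
    · exact Or.inr (Or.inr (Or.inl (by linarith)))
  · have h2y : (2 * y) ≠ 0 := mul_ne_zero two_ne_zero hy
    have key := main_rat (u := (x ^ 2 + 144) / (2 * y)) (v := (x ^ 2 + 18 * x - 144) / (2 * y))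
      (w := (x ^ 2 - 32 * x - 144) / (2 * y))
      (by
        rw [div_pow, div_pow, div_add' _ _ _ (pow_ne_zero 2 h2y)]
        congr 1
        have : (2 * y) ^ 2 = 4 * (x * (x + 9) * (x - 16)) := by rw [mul_pow, h]; ring
        rw [this]; ring)
      (by
        rw [div_pow, div_pow, div_add' _ _ _ (pow_ne_zero 2 h2y)]
        congr 1
        have : (2 * y) ^ 2 = 4 * (x * (x + 9) * (x - 16)) := by rw [mul_pow, h]; ring
        rw [this]; ring)
    have h3 : x ^ 2 - 32 * x - 144 = 0 := by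
      rcases div_eq_zero_iff.mp key with h4 | h4
      · exact h4
      · exact absurd h4 h2y
    have h4 : (x - 36) * (x + 4) = 0 := by linear_combination h3
    rcases mul_eq_zero.mp h4 with h5 | h5
    · exact Or.inr (Or.inr (Or.inr (Or.inr (by linarith))))
    · exact Or.inr (Or.inr (Or.inr (Or.inl (by linarith))))


/-- The same statement, with the disjuncts in the order used by `Fermat.Agent.S51.assembly`. -/
theorem E0_points_assembly : ∀ x y : ℚ, y ^ 2 = x * (x + 9) * (x - 16) →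
    x = 0 ∨ x = -9 ∨ x = 16 ∨ x = 36 ∨ x = -4 := by
  intro x y h
  rcases E0_points x y h with h1 | h1 | h1 | h1 | h1
  · exact Or.inl h1
  · exact Or.inr (Or.inl h1)
  · exact Or.inr (Or.inr (Or.inl h1))
  · exact Or.inr (Or.inr (Or.inr (Or.inr h1)))
  · exact Or.inr (Or.inr (Or.inr (Or.inl h1)))

end Fermat.Agent.S51.Descent
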