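import Mathlib
import Fermat.Prelude.Def_FLTPrelim_ModularRep

set_option autoImplicit false

open WeierstrassCurve WeierstrassCurve.Affine

namespace Fermat.Agent.S51

local notation "Qb" => AlgebraicClosure ℚ
local notation "Γ" => (AlgebraicClosure ℚ ≃ₐ[ℚ] AlgebraicClosure ℚ)

theorem isGalois_rat_closure : IsGalois ℚ (AlgebraicClosure ℚ) := by
  have h1 : IsAlgClosure ℚ (AlgebraicClosure ℚ) :=
    (inferInstance : @IsAlgClosure ℚ (AlgebraicClosure ℚ) _ _ (AlgebraicClosure.instAlgebra ℚ) _)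
  have h2 : Algebra.IsAlgebraic ℚ (AlgebraicClosure ℚ) := IsAlgClosure.isAlgebraic
  have : Normal ℚ Qb := IsAlgClosure.normal ℚ Qb
  exact IsGalois.mk

/-- An element of `ℚ̄` fixed by the whole Galois group is rational. -/
theorem exists_rat_of_fixed (x : Qb) (h : ∀ σ : Γ, σ x = x) :
    ∃ q : ℚ, algebraMap ℚ Qb q = x := by
  have := isGalois_rat_closure
  exact (InfiniteGalois.mem_range_algebraMap_iff_fixed (k := ℚ) (K := Qb) x).2 h

variable (E : Affine ℚ)

/-- The Galois action on an affine point is coordinatewise. -/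
theorem smul_some (σ : Γ) {x y : Qb} (h : (E⁄Qb).Nonsingular x y) :
    ∃ h' : (E⁄Qb).Nonsingular (σ x) (σ y),
      σ • (Point.some x y h : (E⁄Qb).Point) = Point.some (σ x) (σ y) h' :=
  ⟨_, rfl⟩

theorem smul_zero_point (σ : Γ) : σ • (0 : (E⁄Qb).Point) = 0 := rfl

theorem coe_smul_torsion (n : ℕ) (σ : Γ) (P : Submodule.torsionBy ℤ (E⁄Qb).Point n) :
    ((σ • P : Submodule.torsionBy ℤ (E⁄Qb).Point n) : (E⁄Qb).Point) = σ • (P : (E⁄Qb).Point) :=
  rfl

end Fermat.Agent.S51
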