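import Mathlib

/-!
# S51, 5-side: pure algebra of the short Weierstrass form

Polynomial identities for the division polynomials of `y² = x³ + A x + B` that are needed to
attach the Fricke parameter of `X₀(5)` to a point of order five.
-/

set_option autoImplicit false

namespace Fermat.Agent.S51.Five

variable {K : Type*} [Field K]

/-- `Ψ₂Sq = 4 (X³ + A X + B)`. -/
def q (X A B : K) : K := 4 * (X ^ 3 + A * X + B)

/-- The third division polynomial. -/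
def ps3 (X A B : K) : K := 3 * X ^ 4 + 6 * A * X ^ 2 + 12 * B * X - A ^ 2

/-- `ψ₄ / ψ₂`. -/
def p (X A B : K) : K :=
  2 * (X ^ 6 + 5 * A * X ^ 4 + 20 * B * X ^ 3 - 5 * A ^ 2 * X ^ 2 - 4 * A * B * X - 8 * B ^ 2 - A ^ 3)

/-- Numerator of the duplication map on `X`-coordinates. -/
def ph2 (X A B : K) : K := X ^ 4 - 2 * A * X ^ 2 - 8 * B * X + A ^ 2

/-- The fifth division polynomial. -/
def ps5 (X A B : K) : K := p X A B * q X A B ^ 2 - ps3 X A B ^ 3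

/-- The duplication map on `X`-coordinates. -/
noncomputable def dbl (X A B : K) : K := ph2 X A B / q X A B

/-- The discriminant, up to the factor `-16`. -/
def d0 (A B : K) : K := 4 * A ^ 3 + 27 * B ^ 2

lemma ph2_sub (X A B : K) : ph2 X A B - X * q X A B = - ps3 X A B := by
  simp only [ph2, q, ps3]; ring

lemma dbl_sub {X A B : K} (hq : q X A B ≠ 0) : dbl X A B - X = - ps3 X A B / q X A B := by
  rw [dbl, ← ph2_sub]; field_simp

lemma q_div (u Q A B : K) (hQ : Q ≠ 0) :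
    q (u / Q) A B * Q ^ 3 = 4 * (u ^ 3 + A * u * Q ^ 2 + B * Q ^ 3) := by
  simp only [q]; field_simp

/-- `Ψ₂Sq(2Q) = (ψ₄/ψ₂)² / Ψ₂Sq(Q)³`. -/
lemma q_dbl {X A B : K} (hq : q X A B ≠ 0) :
    q (dbl X A B) A B * q X A B ^ 3 = p X A B ^ 2 := by
  rw [dbl, q_div _ _ _ _ hq]; simp only [ph2, q, p]; ring

lemma q_dbl_ne_zero {X A B : K} (hq : q X A B ≠ 0) (hp : p X A B ≠ 0) :
    q (dbl X A B) A B ≠ 0 := by
  intro h
  have := q_dbl (A := A) (B := B) hq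
  rw [h, zero_mul] at this
  exact hp (pow_eq_zero_iff (two_ne_zero) |>.mp this.symm)

lemma p_ne_zero_of_q_dbl_ne_zero {X A B : K} (hq : q X A B ≠ 0) (h : q (dbl X A B) A B ≠ 0) :
    p X A B ≠ 0 := by
  intro hp
  have := q_dbl (A := A) (B := B) hq
  rw [hp] at this
  have h0 : q (dbl X A B) A B * q X A B ^ 3 = 0 := by rw [this]; ring
  rcases mul_eq_zero.mp h0 with h1 | h1
  · exact h h1
  · exact hq (pow_eq_zero_iff (by norm_num) |>.mp h1)


lemma ph2_div (u Q A B : K) (hQ : Q ≠ 0) :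
    ph2 (u / Q) A B * Q ^ 4 = u ^ 4 - 2 * A * u ^ 2 * Q ^ 2 - 8 * B * u * Q ^ 3 + A ^ 2 * Q ^ 4 := by
  simp only [ph2]; field_simp

lemma p_div (u Q A B : K) (hQ : Q ≠ 0) :
    p (u / Q) A B * Q ^ 6 = 2 * (u ^ 6 + 5 * A * u ^ 4 * Q ^ 2 + 20 * B * u ^ 3 * Q ^ 3
      - 5 * A ^ 2 * u ^ 2 * Q ^ 4 - 4 * A * B * u * Q ^ 5 - 8 * B ^ 2 * Q ^ 6 - A ^ 3 * Q ^ 6) := by
  simp only [p]; field_simp

/-- `x(4Q) - x(Q) = - ψ₅ ψ₃ / ψ₄²`, in multiplicative form. -/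
lemma ph2_dbl {X A B : K} (hq : q X A B ≠ 0) :
    ph2 (dbl X A B) A B * q X A B ^ 4 - X * p X A B ^ 2 * q X A B
      = - ps5 X A B * ps3 X A B := by
  rw [dbl, ph2_div _ _ _ _ hq]; simp only [ph2, q, p, ps5, ps3]; ring

lemma dbl_dbl_sub {X A B : K} (hq : q X A B ≠ 0) (hp : p X A B ≠ 0) :
    (dbl (dbl X A B) A B - X) * (p X A B ^ 2 * q X A B) = - ps5 X A B * ps3 X A B := by
  have hq2 : q (dbl X A B) A B ≠ 0 := q_dbl_ne_zero hq hp
  have h1 := q_dbl (A := A) (B := B) hq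
  have h2 := ph2_dbl (A := A) (B := B) hq
  have h3 : dbl (dbl X A B) A B * q (dbl X A B) A B = ph2 (dbl X A B) A B :=
    div_mul_cancel₀ _ hq2
  have h4 : (dbl (dbl X A B) A B - X) * (p X A B ^ 2 * q X A B) * q X A B ^ 3
      = (- ps5 X A B * ps3 X A B) * q X A B ^ 3 := by
    rw [← h2, ← h1, ← h3]; ring
  exact mul_right_cancel₀ (pow_ne_zero 3 hq) h4

lemma dbl_dbl_of_ps5 {X A B : K} (hq : q X A B ≠ 0) (hp : p X A B ≠ 0) (h5 : ps5 X A B = 0) :
    dbl (dbl X A B) A B = X := by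
  have h := dbl_dbl_sub (A := A) (B := B) hq hp
  rw [h5, neg_zero, zero_mul] at h
  have hne : p X A B ^ 2 * q X A B ≠ 0 := mul_ne_zero (pow_ne_zero 2 hp) hq
  exact sub_eq_zero.mp ((mul_eq_zero.mp h).resolve_right hne)

lemma ps5_of_dbl_dbl {X A B : K} (hq : q X A B ≠ 0) (hp : p X A B ≠ 0)
    (h3 : ps3 X A B ≠ 0) (h : dbl (dbl X A B) A B = X) : ps5 X A B = 0 := by
  have h' := dbl_dbl_sub (A := A) (B := B) hq hp
  rw [h, sub_self, zero_mul] at h'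
  have : ps5 X A B * ps3 X A B = 0 := by linear_combination h'
  exact (mul_eq_zero.mp this).resolve_right h3

/-- `ψ₈ = - ψ₂ ψ₄⁴` modulo `ψ₅`, in terms of `ψ₄/ψ₂` at `2Q`. -/
lemma p_dbl {X A B : K} (hq : q X A B ≠ 0) (h5 : ps5 X A B = 0) :
    p (dbl X A B) A B * q X A B ^ 4 = - p X A B ^ 3 := by
  have h1 := p_div (ph2 X A B) (q X A B) A B hq
  have h2 : p (ph2 X A B / q X A B) A B * q X A B ^ 6 + p X A B ^ 3 * q X A B ^ 2 = 0 := by
    rw [h1]
    simp only [ps5, ph2, q, p, ps3] at h5 ⊢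
    linear_combination (26*X^12 + 140*X^10*A + 104*X^9*B + 462*X^8*A^2 + 1824*X^7*A*B + 200*X^6*A^3 + 3072*X^6*B^2 + 816*X^5*A^2*B + 86*X^4*A^4 + 3552*X^4*A*B^2 - 352*X^3*A^3*B + 2048*X^3*B^3 + 108*X^2*A^5 + 192*X^2*A^2*B^2 + 168*X*A^4*B + 896*X*A*B^3 + 2*A^6 + 96*A^3*B^2 + 512*B^4) * h5
  have h3 : (p (dbl X A B) A B * q X A B ^ 4 + p X A B ^ 3) * q X A B ^ 2 = 0 := by
    rw [dbl]; linear_combination h2
  have := (mul_eq_zero.mp h3).resolve_right (pow_ne_zero 2 hq)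
  linear_combination this

/-- The key congruence behind `j = (s² + 10 s + 5)³ / s`. -/
lemma fricke_aux {X A B : K} (h5 : ps5 X A B = 0) :
    (-16 * d0 A B) ^ 2 * q X A B ^ 4 + 10 * (-16 * d0 A B) * q X A B ^ 2 * p X A B ^ 2
      + 5 * p X A B ^ 4 = (-48 * A) * ps3 X A B * p X A B ^ 3 := by
  simp only [ps5, q, p, ps3, d0] at h5 ⊢
  linear_combination (16*X^12 + 352*X^10*A + 64*X^9*B + 1968*X^8*A^2 + 5376*X^7*A*B - 448*X^6*A^3 - 21504*X^6*B^2 + 20352*X^5*A^2*B - 22416*X^4*A^4 - 98304*X^4*A*B^2 - 40704*X^3*A^3*B - 198656*X^3*B^3 - 12704*X^2*A^5 - 95232*X^2*A^2*B^2 - 34240*X*A^4*B - 235520*X*A*B^3 + 464*A^6 - 14336*A^3*B^2 - 118784*B^4) * h5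

/-- The Fricke parameter of the subgroup generated by a point of order five with
`X`-coordinate `X`: `s = Δ Ψ₂Sq² / (ψ₄/ψ₂)²`. -/
noncomputable def fricke (X A B : K) : K := (-16 * d0 A B) * q X A B ^ 2 / p X A B ^ 2

lemma fricke_ne_zero {X A B : K} (hd : d0 A B ≠ 0) (hq : q X A B ≠ 0) (hp : p X A B ≠ 0)
    [NeZero (2 : K)] : fricke X A B ≠ 0 := by
  have h16 : (-16 : K) ≠ 0 := by
    have h2 : (2 : K) ≠ 0 := NeZero.ne 2
    have : (-16 : K) = -(2 ^ 4) := by norm_num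
    rw [this]; exact neg_ne_zero.mpr (pow_ne_zero 4 h2)
  exact div_ne_zero (mul_ne_zero (mul_ne_zero h16 hd) (pow_ne_zero 2 hq)) (pow_ne_zero 2 hp)

lemma fricke_dbl {X A B : K} (hq : q X A B ≠ 0) (hp : p X A B ≠ 0) (h5 : ps5 X A B = 0) :
    fricke (dbl X A B) A B = fricke X A B := by
  have h1 := q_dbl (A := A) (B := B) hq
  have h2 := p_dbl (A := A) (B := B) hq h5
  have hq2 : q (dbl X A B) A B ≠ 0 := q_dbl_ne_zero hq hp
  have hp2 : p (dbl X A B) A B ≠ 0 := by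
    intro h0
    rw [h0, zero_mul] at h2
    exact hp (pow_eq_zero_iff (by norm_num) |>.mp (neg_eq_zero.mp h2.symm))
  rw [fricke, fricke, div_eq_div_iff (pow_ne_zero 2 hp2) (pow_ne_zero 2 hp)]
  have e1 : q (dbl X A B) A B ^ 2 * q X A B ^ 6 = p X A B ^ 4 := by
    linear_combination (q (dbl X A B) A B * q X A B ^ 3 + p X A B ^ 2) * h1
  have e2 : p (dbl X A B) A B ^ 2 * q X A B ^ 8 = p X A B ^ 6 := by
    linear_combination (p (dbl X A B) A B * q X A B ^ 4 - p X A B ^ 3) * h2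
  have hq8 : q X A B ^ 8 ≠ 0 := pow_ne_zero 8 hq
  apply mul_right_cancel₀ hq8
  linear_combination (-16 * d0 A B) * p X A B ^ 2 * q X A B ^ 2 * e1
    - (-16 * d0 A B) * q X A B ^ 2 * e2

/-- The `j`-identity: `c₄³ s = (s² + 10 s + 5)³ Δ` with `c₄ = -48 A`, `Δ = -16 (4A³ + 27B²)`. -/
lemma fricke_j {X A B : K} (hp : p X A B ≠ 0) (h5 : ps5 X A B = 0) :
    (-48 * A) ^ 3 * fricke X A B
      = (fricke X A B ^ 2 + 10 * fricke X A B + 5) ^ 3 * (-16 * d0 A B) := by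
  have h3 : ps3 X A B ^ 3 = p X A B * q X A B ^ 2 := by
    rw [ps5] at h5; linear_combination -h5
  have hs2 : fricke X A B ^ 2 + 10 * fricke X A B + 5 = (-48 * A) * ps3 X A B / p X A B := by
    have := fricke_aux (A := A) (B := B) h5
    rw [fricke, eq_div_iff hp]
    field_simp
    linear_combination this
  rw [hs2, fricke, div_pow, mul_pow, mul_pow, h3]
  field_simp

/-- A root of `X³ + A X + B` is not a root of `ψ₃` when the discriminant is nonzero. -/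
lemma ps3_ne_zero_of_q {X A B : K} (hd : d0 A B ≠ 0) (hq : q X A B = 0) [NeZero (2 : K)] :
    ps3 X A B ≠ 0 := by
  intro h3
  have h2 : (2 : K) ≠ 0 := NeZero.ne 2
  have hf : X ^ 3 + A * X + B = 0 := by
    have h4 : (4 : K) ≠ 0 := by
      have : (4 : K) = 2 ^ 2 := by norm_num
      rw [this]; exact pow_ne_zero 2 h2
    rw [q] at hq
    exact (mul_eq_zero.mp hq).resolve_left h4
  have hfp : (3 * X ^ 2 + A) ^ 2 = 0 := by
    rw [ps3] at h3
    linear_combination 12 * X * hf - h3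
  have hfp' : 3 * X ^ 2 + A = 0 := pow_eq_zero_iff (by norm_num) |>.mp hfp
  apply hd
  rw [d0]
  linear_combination (-18 * A * X + 27 * B) * hf + (6 * A * X ^ 2 - 9 * B * X + 4 * A ^ 2) * hfp'

/-- A root of `ψ₄/ψ₂` is not a root of `ψ₃` when the discriminant is nonzero. -/
lemma ps3_ne_zero_of_p {X A B : K} (hd : d0 A B ≠ 0) (hp : p X A B = 0) [NeZero (2 : K)] :
    ps3 X A B ≠ 0 := by
  intro h3
  have h2 : (2 : K) ≠ 0 := NeZero.ne 2
  have h16 : (16 : K) ≠ 0 := by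
    have : (16 : K) = 2 ^ 4 := by norm_num
    rw [this]; exact pow_ne_zero 4 h2
  apply mul_ne_zero h16 (pow_ne_zero 2 hd)
  simp only [p, ps3, d0] at hp h3 ⊢
  linear_combination (-162*X^3*B - 36*X^2*A^2 - 270*X*A*B - 72*A^3 - 729*B^2) * hp
    + (108*X^5*B + 24*X^4*A^2 + 504*X^3*A*B + 120*X^2*A^3 + 2214*X^2*B^2 - 228*X*A^2*B - 112*A^4 - 846*A*B^2) * h3

/-- At a root of `ψ₅` none of `Ψ₂Sq`, `ψ₄/ψ₂`, `ψ₃` vanishes. -/
lemma ne_zero_of_ps5 {X A B : K} (hd : d0 A B ≠ 0) (h5 : ps5 X A B = 0) [NeZero (2 : K)] :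
    q X A B ≠ 0 ∧ p X A B ≠ 0 ∧ ps3 X A B ≠ 0 := by
  have key : ps3 X A B ^ 3 = p X A B * q X A B ^ 2 := by
    rw [ps5] at h5; linear_combination -h5
  have hq : q X A B ≠ 0 := by
    intro hq
    have : ps3 X A B ^ 3 = 0 := by rw [key, hq]; ring
    exact ps3_ne_zero_of_q hd hq (pow_eq_zero_iff (by norm_num) |>.mp this)
  have hp : p X A B ≠ 0 := by
    intro hp
    have : ps3 X A B ^ 3 = 0 := by rw [key, hp]; ring
    exact ps3_ne_zero_of_p hd hp (pow_eq_zero_iff (by norm_num) |>.mp this)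
  refine ⟨hq, hp, ?_⟩
  intro h3
  rw [h3] at key
  have : p X A B * q X A B ^ 2 = 0 := by rw [← key]; ring
  rcases mul_eq_zero.mp this with h | h
  · exact hp h
  · exact hq (pow_eq_zero_iff (by norm_num) |>.mp h)

end Fermat.Agent.S51.Five
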