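import Mathlib
import Fermat.Prelude.Def_FLTPrelim_ModularRep

set_option autoImplicit false

open WeierstrassCurve WeierstrassCurve.Affine

namespace Fermat.Agent.S51

variable {F : Type*} [Field F] (W : Affine F)

/-- The value of the third division polynomial at `x`. -/
def psi3 (x : F) : F :=
  3 * x ^ 4 + W.b₂ * x ^ 3 + 3 * W.b₄ * x ^ 2 + 3 * W.b₆ * x + W.b₈

/-- Key identity: on the curve, the doubling formula numerator equals `-psi3`. -/
theorem psi3_identity {x y : F} (h : W.Equation x y) :
    psi3 W x = -((3 * x ^ 2 + 2 * W.a₂ * x + W.a₄ - W.a₁ * y) ^ 2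
      + W.a₁ * (3 * x ^ 2 + 2 * W.a₂ * x + W.a₄ - W.a₁ * y) * (2 * y + W.a₁ * x + W.a₃)
      - (W.a₂ + 3 * x) * (2 * y + W.a₁ * x + W.a₃) ^ 2) := by
  rw [equation_iff] at h
  simp only [psi3, WeierstrassCurve.b₂, WeierstrassCurve.b₄, WeierstrassCurve.b₆,
    WeierstrassCurve.b₈]
  linear_combination (-(W.a₁ ^ 2 + 4 * W.a₂ + 12 * x)) * h

variable [DecidableEq F]

/-- If `y ≠ negY`, the `x`-coordinate of `2P` equals `x` iff `psi3 x = 0`. -/
theorem addX_self_eq_iff {x y : F} (h : W.Equation x y) (hy : y ≠ W.negY x y) :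
    W.addX x x (W.slope x x y y) = x ↔ psi3 W x = 0 := by
  have hD : 2 * y + W.a₁ * x + W.a₃ ≠ 0 := by
    intro h0
    apply hy
    simp only [negY]
    linear_combination h0
  have hD' : y - W.negY x y = 2 * y + W.a₁ * x + W.a₃ := by
    simp only [negY]; ring
  rw [slope_of_Y_ne rfl hy, psi3_identity W h, addX, hD']
  set N := 3 * x ^ 2 + 2 * W.a₂ * x + W.a₄ - W.a₁ * y with hN
  set D := 2 * y + W.a₁ * x + W.a₃ with hDdef
  set ℓ := N / D with hℓdef
  have hℓ : ℓ * D = N := div_mul_cancel₀ N hD
  constructor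
  · intro h1
    linear_combination (-D ^ 2) * h1 + (N + ℓ * D + W.a₁ * D) * hℓ
  · intro h1
    have h2 : D ^ 2 * (ℓ ^ 2 + W.a₁ * ℓ - W.a₂ - x - x - x) = D ^ 2 * 0 := by
      linear_combination (-1 : F) * h1 + (N + ℓ * D + W.a₁ * D) * hℓ
    have h3 := mul_left_cancel₀ (pow_ne_zero 2 hD) h2
    linear_combination h3

/-- A nonsingular point with `psi3 x = 0` is not a 2-torsion point. -/
theorem y_ne_negY_of_psi3 {x y : F} (h : W.Nonsingular x y) (h3 : psi3 W x = 0) :
    y ≠ W.negY x y := by
  intro hy
  have hD : 2 * y + W.a₁ * x + W.a₃ = 0 := by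
    have := hy
    simp only [negY] at this
    linear_combination this
  have heq := h.1
  rw [nonsingular_iff] at h
  obtain ⟨-, hns⟩ := h
  have hid := psi3_identity W heq
  rw [h3, hD] at hid
  have hN : (3 * x ^ 2 + 2 * W.a₂ * x + W.a₄ - W.a₁ * y) ^ 2 = 0 := by
    linear_combination hid
  have hN' : 3 * x ^ 2 + 2 * W.a₂ * x + W.a₄ - W.a₁ * y = 0 := by
    exact pow_eq_zero_iff (two_ne_zero) |>.1 hN
  rcases hns with h1 | h1
  · apply h1; linear_combination -hN'
  · apply h1; linear_combination hD

/-- A nonzero point `P` satisfies `P + P = -P` iff `psi3 (x P) = 0`. -/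
theorem add_self_eq_neg_iff {x y : F} (h : W.Nonsingular x y) :
    Point.some x y h + Point.some x y h = -Point.some x y h ↔ psi3 W x = 0 := by
  constructor
  · intro h1
    by_cases hy : y = W.negY x y
    · rw [Point.add_self_of_Y_eq hy] at h1
      exact absurd h1.symm (by simp [Point.neg_some, Point.zero_def])
    · rw [Point.add_self_of_Y_ne hy, Point.neg_some] at h1
      have hx : W.addX x x (W.slope x x y y) = x := by
        injection h1
      exact (addX_self_eq_iff W h.1 hy).1 hx
  · intro h3
    have hy := y_ne_negY_of_psi3 W h h3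
    have hx := (addX_self_eq_iff W h.1 hy).2 h3
    rw [Point.add_self_of_Y_ne hy]
    have := (Point.X_eq_iff (h₁ := nonsingular_add h h fun hxy => hy hxy.right) (h₂ := h)).1 hx
    rcases this with h1 | h1
    · -- 2P = P is impossible
      exfalso
      have h2 : Point.some x y h + Point.some x y h = Point.some x y h := by
        rw [Point.add_self_of_Y_ne hy]; exact h1
      have h4 : Point.some x y h = 0 := by
        have := congrArg (fun Q => Q - Point.some x y h) h2
        simpa using this
      exact Point.some_ne_zero h h4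
    · exact h1

/-- A nonzero point is 3-torsion iff `psi3` vanishes at its `x`-coordinate. -/
theorem three_smul_eq_zero_iff {x y : F} (h : W.Nonsingular x y) :
    (3 : ℤ) • Point.some x y h = 0 ↔ psi3 W x = 0 := by
  rw [← add_self_eq_neg_iff W h]
  constructor
  · intro h1
    have : (3 : ℤ) • Point.some x y h = Point.some x y h + Point.some x y h + Point.some x y h := by
      rw [show (3 : ℤ) = 1 + 1 + 1 by norm_num, add_smul, add_smul, one_smul]
    rw [this] at h1
    exact eq_neg_of_add_eq_zero_left h1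
  · intro h1
    have : (3 : ℤ) • Point.some x y h = Point.some x y h + Point.some x y h + Point.some x y h := by
      rw [show (3 : ℤ) = 1 + 1 + 1 by norm_num, add_smul, add_smul, one_smul]
    rw [this, h1]
    exact neg_add_cancel _

end Fermat.Agent.S51
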