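import Mathlib
import Fermat.Agent.S51.Basic
import Fermat.Agent.S51.ThreeAlg

set_option autoImplicit false

open WeierstrassCurve WeierstrassCurve.Affine Polynomial

namespace Fermat.Agent.S51

section general

variable {F : Type*} [Field F] (W : Affine F)

/-- The `x`-coordinate of a point (junk value `0` at infinity). -/
def xOf : W.Point → F
  | .zero => 0
  | .some x _ _ => x

@[simp] theorem xOf_some {x y : F} (h : W.Nonsingular x y) : xOf W (Point.some x y h) = x := rfl

theorem xOf_neg (P : W.Point) : xOf W (-P) = xOf W P := by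
  cases P <;> rfl

theorem eq_or_eq_neg_of_xOf_eq {P Q : W.Point} (hP : P ≠ 0) (hQ : Q ≠ 0)
    (h : xOf W P = xOf W Q) : P = Q ∨ P = -Q := by
  match P, Q, hP, hQ, h with
  | .zero, _, hP, _, _ => exact absurd rfl hP
  | _, .zero, _, hQ, _ => exact absurd rfl hQ
  | .some x₁ y₁ h₁, .some x₂ y₂ h₂, _, _, h =>
    exact Point.X_eq_iff.1 h

theorem psi3_eq_eval (x : F) : psi3 W x = W.Ψ₃.eval x := by
  simp [psi3, WeierstrassCurve.Ψ₃]

variable [DecidableEq F]

theorem psi3_xOf_of_three_smul {P : W.Point} (hP : P ≠ 0) (h3 : (3 : ℤ) • P = 0) :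
    W.Ψ₃.eval (xOf W P) = 0 := by
  match P, hP, h3 with
  | .zero, hP, _ => exact absurd rfl hP
  | .some x y h, _, h3 =>
    have := (three_smul_eq_zero_iff W h).1 h3
    rw [psi3_eq_eval] at this
    exact this

/-- If `P, Q` are independent 3-torsion points, every 3-torsion point is a combination. -/
theorem three_torsion_span (h3F : (3 : F) ≠ 0) {P Q : W.Point} (hP : P ≠ 0) (hQ : Q ≠ 0)
    (hPQ : Q ≠ P) (hPQ' : Q ≠ -P) (h3P : (3 : ℤ) • P = 0) (h3Q : (3 : ℤ) • Q = 0)
    {R : W.Point} (h3R : (3 : ℤ) • R = 0) :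
    R = 0 ∨ R = P ∨ R = -P ∨ R = Q ∨ R = -Q ∨ R = P + Q ∨ R = -(P + Q) ∨ R = P - Q ∨
      R = -(P - Q) := by
  by_cases hR : R = 0
  · exact Or.inl hR
  right
  have hS : P + Q ≠ 0 := fun h => hPQ' (by linear_combination (norm := module) h)
  have hD : P - Q ≠ 0 := fun h => hPQ (by linear_combination (norm := module) -h)
  have h3S : (3 : ℤ) • (P + Q) = 0 := by rw [smul_add, h3P, h3Q, add_zero]
  have h3D : (3 : ℤ) • (P - Q) = 0 := by rw [smul_sub, h3P, h3Q, sub_zero]
  -- the x-coordinates are roots of Ψ₃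
  have hne : W.Ψ₃ ≠ 0 := W.Ψ₃_ne_zero h3F
  have r1 : xOf W P ∈ W.Ψ₃.roots.toFinset := by
    rw [Multiset.mem_toFinset, mem_roots hne]; exact psi3_xOf_of_three_smul W hP h3P
  have r2 : xOf W Q ∈ W.Ψ₃.roots.toFinset := by
    rw [Multiset.mem_toFinset, mem_roots hne]; exact psi3_xOf_of_three_smul W hQ h3Q
  have r3 : xOf W (P + Q) ∈ W.Ψ₃.roots.toFinset := by
    rw [Multiset.mem_toFinset, mem_roots hne]; exact psi3_xOf_of_three_smul W hS h3S
  have r4 : xOf W (P - Q) ∈ W.Ψ₃.roots.toFinset := by
    rw [Multiset.mem_toFinset, mem_roots hne]; exact psi3_xOf_of_three_smul W hD h3D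
  have r5 : xOf W R ∈ W.Ψ₃.roots.toFinset := by
    rw [Multiset.mem_toFinset, mem_roots hne]; exact psi3_xOf_of_three_smul W hR h3R
  -- pairwise distinct
  have d12 : xOf W P ≠ xOf W Q := by
    intro h
    rcases eq_or_eq_neg_of_xOf_eq W hP hQ h with h | h
    · exact hPQ h.symm
    · exact hPQ' (by rw [h, neg_neg])
  have d13 : xOf W P ≠ xOf W (P + Q) := by
    intro h
    rcases eq_or_eq_neg_of_xOf_eq W hP hS h with h | h
    · exact hQ (by linear_combination (norm := module) -h)
    · exact hPQ (by linear_combination (norm := module) -h3P + h)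
  have d14 : xOf W P ≠ xOf W (P - Q) := by
    intro h
    rcases eq_or_eq_neg_of_xOf_eq W hP hD h with h | h
    · exact hQ (by linear_combination (norm := module) h)
    · exact hPQ' (by linear_combination (norm := module) h3P - h)
  have d23 : xOf W Q ≠ xOf W (P + Q) := by
    intro h
    rcases eq_or_eq_neg_of_xOf_eq W hQ hS h with h | h
    · exact hP (by linear_combination (norm := module) -h)
    · exact hPQ (by linear_combination (norm := module) h3Q - h)
  have d24 : xOf W Q ≠ xOf W (P - Q) := by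
    intro h
    rcases eq_or_eq_neg_of_xOf_eq W hQ hD h with h | h
    · exact hPQ' (by linear_combination (norm := module) h3Q - h)
    · exact hP (by linear_combination (norm := module) h)
  have d34 : xOf W (P + Q) ≠ xOf W (P - Q) := by
    intro h
    rcases eq_or_eq_neg_of_xOf_eq W hS hD h with h | h
    · exact hQ (by linear_combination (norm := module) h3Q - h)
    · exact hP (by linear_combination (norm := module) h3P - h)
  have hcard : W.Ψ₃.roots.toFinset.card ≤ 4 := by
    calc W.Ψ₃.roots.toFinset.card ≤ Multiset.card W.Ψ₃.roots := Multiset.toFinset_card_le _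
      _ ≤ W.Ψ₃.natDegree := card_roots' _
      _ ≤ 4 := W.natDegree_Ψ₃_le
  have hmem : xOf W R ∈ ({xOf W P, xOf W Q, xOf W (P + Q), xOf W (P - Q)} : Finset F) := by
    by_contra hnot
    have hsub : insert (xOf W R) ({xOf W P, xOf W Q, xOf W (P + Q), xOf W (P - Q)} : Finset F) ⊆
        W.Ψ₃.roots.toFinset := by
      intro z hz
      simp only [Finset.mem_insert, Finset.mem_singleton] at hz
      rcases hz with rfl | rfl | rfl | rfl | rfl <;> assumption
    have h5 : (insert (xOf W R)
        ({xOf W P, xOf W Q, xOf W (P + Q), xOf W (P - Q)} : Finset F)).card = 5 := by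
      rw [Finset.card_insert_of_notMem hnot, Finset.card_insert_of_notMem,
        Finset.card_insert_of_notMem, Finset.card_insert_of_notMem, Finset.card_singleton]
      · simpa using d34
      · simp only [Finset.mem_insert, Finset.mem_singleton, not_or]; exact ⟨d23, d24⟩
      · simp only [Finset.mem_insert, Finset.mem_singleton, not_or]; exact ⟨d12, d13, d14⟩
    have := Finset.card_le_card hsub
    omega
  simp only [Finset.mem_insert, Finset.mem_singleton] at hmem
  rcases hmem with h | h | h | h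
  · rcases eq_or_eq_neg_of_xOf_eq W hR hP h with h | h
    · exact Or.inl h
    · exact Or.inr (Or.inl h)
  · rcases eq_or_eq_neg_of_xOf_eq W hR hQ h with h | h
    · exact Or.inr (Or.inr (Or.inl h))
    · exact Or.inr (Or.inr (Or.inr (Or.inl h)))
  · rcases eq_or_eq_neg_of_xOf_eq W hR hS h with h | h
    · exact Or.inr (Or.inr (Or.inr (Or.inr (Or.inl h))))
    · exact Or.inr (Or.inr (Or.inr (Or.inr (Or.inr (Or.inl h)))))
  · rcases eq_or_eq_neg_of_xOf_eq W hR hD h with h | h
    · exact Or.inr (Or.inr (Or.inr (Or.inr (Or.inr (Or.inr (Or.inl h))))))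
    · exact Or.inr (Or.inr (Or.inr (Or.inr (Or.inr (Or.inr (Or.inr h))))))

end general

end Fermat.Agent.S51
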