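import Mathlib
import Fermat.Agent.S51.ThreeTorsion

set_option autoImplicit false

open WeierstrassCurve WeierstrassCurve.Affine Polynomial

namespace Fermat.Agent.S51

section line

variable {R : Type*} {S : Type*} {K : Type*} [CommRing R] [CommRing S] [Field K]
  [DecidableEq K] [Algebra R S] [Algebra R K] [Algebra S K] [IsScalarTower R S K]
  (W' : Affine R) (ℓ : ℕ) [Fact ℓ.Prime]

/-- Two torsion points with the same abscissa are equal or opposite (subtype version). -/
theorem torsion_eq_or_eq_neg {w w' : Submodule.torsionBy ℤ (W'⁄K).Point (ℓ : ℕ)} (hw : w ≠ 0) (hw' : w' ≠ 0)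
    (h : xOf (W'⁄K) (w : (W'⁄K).Point) = xOf (W'⁄K) (w' : (W'⁄K).Point)) :
    w = w' ∨ w = -w' := by
  have h1 : (w : (W'⁄K).Point) ≠ 0 := fun h0 => hw (Subtype.ext h0)
  have h2 : (w' : (W'⁄K).Point) ≠ 0 := fun h0 => hw' (Subtype.ext h0)
  rcases eq_or_eq_neg_of_xOf_eq (W'⁄K) h1 h2 h with h | h
  · exact Or.inl (Subtype.ext h)
  · exact Or.inr (Subtype.ext h)

/-- **Span lemma.** Suppose the abscissas of the nonzero `ℓ`-torsion points are roots of a
nonzero polynomial `p` with `2 * deg p < ℓ ^ 2`.  If `v ≠ 0` and `u` is not a multiple of `v`,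
then every `ℓ`-torsion point is a combination of `v` and `u`. -/
theorem torsion_span_of_indep (p : K[X]) (hp : p ≠ 0) (hdeg : 2 * p.natDegree < ℓ ^ 2)
    (hroot : ∀ w : Submodule.torsionBy ℤ (W'⁄K).Point (ℓ : ℕ), w ≠ 0 → p.eval (xOf (W'⁄K) (w : (W'⁄K).Point)) = 0)
    {v u : Submodule.torsionBy ℤ (W'⁄K).Point (ℓ : ℕ)} (hv : v ≠ 0) (hu : ∀ c : ZMod ℓ, u ≠ c • v) (w : Submodule.torsionBy ℤ (W'⁄K).Point (ℓ : ℕ)) :
    ∃ a b : ZMod ℓ, w = a • v + b • u := by
  classical
  by_cases hw : w = 0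
  · exact ⟨0, 0, by simp [hw]⟩
  -- the parametrisation
  set φ : ZMod ℓ × ZMod ℓ → Submodule.torsionBy ℤ (W'⁄K).Point (ℓ : ℕ) := fun q => q.1 • v + q.2 • u with hφ
  have hφneg : ∀ q, φ (-q) = -φ q := by
    intro q
    simp only [hφ, Prod.fst_neg, Prod.snd_neg, neg_smul]
    abel
  have hφinj : Function.Injective φ := by
    rintro ⟨a, b⟩ ⟨a', b'⟩ h
    simp only [hφ] at h
    have h1 : (a - a') • v = (b' - b) • u := by
      rw [sub_smul, sub_smul]
      have := h
      rw [← sub_eq_zero] at this ⊢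
      rw [← this]; abel
    by_cases hb : b' - b = 0
    · rw [hb, zero_smul] at h1
      have ha : a - a' = 0 := by
        by_contra hne
        apply hv
        have := congrArg (fun z => (a - a')⁻¹ • z) h1
        simpa [smul_smul, inv_mul_cancel₀ hne] using this
      rw [sub_eq_zero] at ha hb
      rw [ha, hb]
    · exfalso
      apply hu ((b' - b)⁻¹ * (a - a'))
      have := congrArg (fun z => (b' - b)⁻¹ • z) h1
      simp only [smul_smul, inv_mul_cancel₀ hb, one_smul] at this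
      exact this.symm
  have hφ0 : ∀ q, q ≠ 0 → φ q ≠ 0 := by
    intro q hq h0
    apply hq
    apply hφinj
    rw [h0]
    simp [hφ]
  -- the set of nonzero pairs
  set s : Finset (ZMod ℓ × ZMod ℓ) := Finset.univ.erase 0 with hs
  set g : ZMod ℓ × ZMod ℓ → K := fun q => xOf (W'⁄K) ((φ q : Submodule.torsionBy ℤ (W'⁄K).Point (ℓ : ℕ)) : (W'⁄K).Point) with hg
  have hℓ : Fintype.card (ZMod ℓ) = ℓ := ZMod.card ℓ
  have hscard : s.card = ℓ ^ 2 - 1 := by
    rw [hs, Finset.card_erase_of_mem (Finset.mem_univ _), Finset.card_univ, Fintype.card_prod, hℓ]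
    ring_nf
  have hfiber : ∀ a ∈ s.image g, (s.filter fun x => g x = a).card ≤ 2 := by
    intro a ha
    obtain ⟨q, hq, rfl⟩ := Finset.mem_image.1 ha
    have hq0 : q ≠ 0 := (Finset.mem_erase.1 hq).1
    have hsub : (s.filter fun x => g x = g q) ⊆ {q, -q} := by
      intro q' hq'
      rw [Finset.mem_filter] at hq'
      have hq'0 : q' ≠ 0 := (Finset.mem_erase.1 hq'.1).1
      rcases torsion_eq_or_eq_neg W' ℓ (hφ0 q' hq'0) (hφ0 q hq0) hq'.2 with h | h
      · have := hφinj h
        simp [this]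
      · rw [← hφneg] at h
        have := hφinj h
        simp [this]
    exact (Finset.card_le_card hsub).trans Finset.card_le_two
  have h1 : s.card ≤ 2 * (s.image g).card := Finset.card_le_mul_card_image s 2 hfiber
  have himg : s.image g ⊆ p.roots.toFinset := by
    intro a ha
    obtain ⟨q, hq, rfl⟩ := Finset.mem_image.1 ha
    have hq0 : q ≠ 0 := (Finset.mem_erase.1 hq).1
    rw [Multiset.mem_toFinset, mem_roots hp]
    exact hroot _ (hφ0 q hq0)
  have hrcard : p.roots.toFinset.card ≤ p.natDegree :=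
    (Multiset.toFinset_card_le _).trans (card_roots' _)
  have hℓ2 : 2 ≤ ℓ := (Fact.out : ℓ.Prime).two_le
  have hcard : p.roots.toFinset.card ≤ (s.image g).card := by
    have : 4 ≤ ℓ ^ 2 := by nlinarith
    omega
  have heq : s.image g = p.roots.toFinset := Finset.eq_of_subset_of_card_le himg hcard
  have hwroot : xOf (W'⁄K) (w : (W'⁄K).Point) ∈ s.image g := by
    rw [heq, Multiset.mem_toFinset, mem_roots hp]
    exact hroot w hw
  obtain ⟨q, hq, hgq⟩ := Finset.mem_image.1 hwroot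
  have hq0 : q ≠ 0 := (Finset.mem_erase.1 hq).1
  rcases torsion_eq_or_eq_neg W' ℓ hw (hφ0 q hq0) hgq.symm with h | h
  · exact ⟨q.1, q.2, h⟩
  · rw [← hφneg] at h
    exact ⟨(-q).1, (-q).2, h⟩

variable (S) in
/-- **Line lemma.** Under the same root hypothesis, a proper Galois-stable submodule is
contained in a line: every Galois conjugate of `v ∈ N` is a multiple of `v`. -/
theorem exists_smul_eq_of_stable (p : K[X]) (hp : p ≠ 0) (hdeg : 2 * p.natDegree < ℓ ^ 2)
    (hroot : ∀ w : Submodule.torsionBy ℤ (W'⁄K).Point (ℓ : ℕ), w ≠ 0 → p.eval (xOf (W'⁄K) (w : (W'⁄K).Point)) = 0)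
    (N : Submodule (ZMod ℓ) (Submodule.torsionBy ℤ (W'⁄K).Point (ℓ : ℕ))) (hN : Affine.Point.IsGaloisStable S N) (hNtop : N ≠ ⊤)
    {v : Submodule.torsionBy ℤ (W'⁄K).Point (ℓ : ℕ)} (hvN : v ∈ N) (hv : v ≠ 0) (σ : K ≃ₐ[S] K) :
    ∃ c : ZMod ℓ, σ • v = c • v := by
  by_contra hcon
  push Not at hcon
  apply hNtop
  rw [eq_top_iff]
  intro w _
  obtain ⟨a, b, rfl⟩ := torsion_span_of_indep W' ℓ p hp hdeg hroot hv hcon w
  exact N.add_mem (N.smul_mem a hvN) (N.smul_mem b (hN σ v hvN))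

end line

end Fermat.Agent.S51
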