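import Mathlib
import Fermat.Agent.S51.Basic
import Fermat.Agent.S51.TorsionLine

set_option autoImplicit false

open WeierstrassCurve WeierstrassCurve.Affine Polynomial

namespace Fermat.Agent.S51

section fiveGalois

local notation "Qb" => AlgebraicClosure ℚ
local notation "Γ" => (AlgebraicClosure ℚ ≃ₐ[ℚ] AlgebraicClosure ℚ)

variable (E : Affine ℚ)

theorem fact_prime_five_nat : Fact (Nat.Prime 5) := ⟨by norm_num⟩

/-- The abscissa of a Galois conjugate is the conjugate of the abscissa. -/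
theorem xOf_smul (σ : Γ) (P : (E⁄Qb).Point) (hP : P ≠ 0) :
    xOf (E⁄Qb) (σ • P) = σ (xOf (E⁄Qb) P) := by
  rcases P with _ | ⟨x, y, hxy⟩
  · exact absurd rfl hP
  · rfl

/-- **Rationality of invariants of a stable line in `E[5]`.**
Let `p` be a nonzero polynomial of degree `≤ 12` vanishing at the abscissas of all nonzero
5-torsion points, let `N` be a proper Galois-stable submodule of `E[5]` and `v ∈ N` nonzero.
If `f` is a Galois-equivariant function with `f (x (2 w)) = f (x w)` for every nonzero 5-torsion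
point `w`, then `f (x v)` is rational. -/
theorem exists_rat_of_stable_five (p : Qb[X]) (hp : p ≠ 0) (hdeg : p.natDegree ≤ 12)
    (hroot : ∀ w : Submodule.torsionBy ℤ (E⁄Qb).Point ((5 : ℕ) : ℤ), w ≠ 0 →
      p.eval (xOf (E⁄Qb) (w : (E⁄Qb).Point)) = 0)
    (N : Submodule (ZMod 5) (Submodule.torsionBy ℤ (E⁄Qb).Point ((5 : ℕ) : ℤ)))
    (hN : Affine.Point.IsGaloisStable ℚ N) (hNtop : N ≠ ⊤)
    {v : Submodule.torsionBy ℤ (E⁄Qb).Point ((5 : ℕ) : ℤ)} (hvN : v ∈ N) (hv : v ≠ 0)
    (f : Qb → Qb) (hfσ : ∀ (σ : Γ) (x : Qb), σ (f x) = f (σ x))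
    (hf2 : ∀ w : Submodule.torsionBy ℤ (E⁄Qb).Point ((5 : ℕ) : ℤ), w ≠ 0 →
      f (xOf (E⁄Qb) ((w + w : Submodule.torsionBy ℤ (E⁄Qb).Point ((5 : ℕ) : ℤ)) : (E⁄Qb).Point))
        = f (xOf (E⁄Qb) (w : (E⁄Qb).Point))) :
    ∃ s : ℚ, algebraMap ℚ Qb s = f (xOf (E⁄Qb) (v : (E⁄Qb).Point)) := by
  apply exists_rat_of_fixed
  intro σ
  have hv' : (v : (E⁄Qb).Point) ≠ 0 := fun h0 => hv (Subtype.ext h0)
  obtain ⟨c, hc⟩ : ∃ c : ZMod 5, σ • v = c • v :=
    haveI := fact_prime_five_nat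
    exists_smul_eq_of_stable ℚ E 5 p hp (by omega) hroot N hN hNtop hvN hv σ
  rw [hfσ, ← xOf_smul E σ _ hv']
  have hcoe : σ • (v : (E⁄Qb).Point) =
      ((σ • v : Submodule.torsionBy ℤ (E⁄Qb).Point ((5 : ℕ) : ℤ)) : (E⁄Qb).Point) := rfl
  rw [hcoe, hc]
  -- case analysis on `c`
  have hc0 : c ≠ 0 := by
    rintro rfl
    rw [zero_smul] at hc
    apply hv
    have h1 : σ⁻¹ • (σ • v) = σ⁻¹ • 0 := by rw [hc]
    rwa [inv_smul_smul, smul_zero] at h1
  have h2v : v + v ≠ 0 := by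
    intro h0
    apply hv
    have h5 : (5 : ZMod 5) • v = 0 := by
      have : (5 : ZMod 5) = 0 := by decide
      rw [this, zero_smul]
    have h5' : (5 : ZMod 5) • v = v + v + (v + v) + v := by
      rw [show (5 : ZMod 5) = 1 + 1 + (1 + 1) + 1 by decide]
      simp only [add_smul, one_smul]
    rw [h5', h0, add_zero, zero_add] at h5
    exact h5
  have key : ∀ c : ZMod 5, c ≠ 0 → c • v = v ∨ c • v = -v ∨ c • v = v + v ∨ c • v = -(v + v) := by
    intro c hc
    have h5 : (5 : ZMod 5) • v = 0 := by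
      have : (5 : ZMod 5) = 0 := by decide
      rw [this, zero_smul]
    have hcases : c = 1 ∨ c = 4 ∨ c = 2 ∨ c = 3 := by
      revert hc; revert c; decide
    rcases hcases with rfl | rfl | rfl | rfl
    · left; rw [one_smul]
    · right; left
      have : (4 : ZMod 5) = -1 := by decide
      rw [this, neg_smul, one_smul]
    · right; right; left
      rw [show (2 : ZMod 5) = 1 + 1 by decide, add_smul, one_smul]
    · right; right; right
      have : (3 : ZMod 5) = -(1 + 1) := by decide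
      rw [this, neg_smul, add_smul, one_smul]
  rcases key c hc0 with h | h | h | h
  · rw [h]
  · rw [h, Submodule.coe_neg, xOf_neg]
  · rw [h, hf2 v hv]
  · rw [h, Submodule.coe_neg, xOf_neg, hf2 v hv]

end fiveGalois

end Fermat.Agent.S51
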