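import Mathlib
import Fermat.Agent.S51.ThreeTorsion

set_option autoImplicit false

open WeierstrassCurve WeierstrassCurve.Affine Polynomial

namespace Fermat.Agent.S51

section exist

variable {F : Type*} [Field F] [DecidableEq F] [IsAlgClosed F] (W : Affine F)

/-- Over an algebraically closed field, every `x` is the abscissa of a point of the curve. -/
theorem exists_y_equation (x : F) : ∃ y : F, W.Equation x y := by
  obtain ⟨y, hy⟩ := IsAlgClosed.exists_root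
    (X ^ 2 + C (W.a₁ * x + W.a₃) * X - C (x ^ 3 + W.a₂ * x ^ 2 + W.a₄ * x + W.a₆) : F[X])
    (by
      have : (X ^ 2 + C (W.a₁ * x + W.a₃) * X - C (x ^ 3 + W.a₂ * x ^ 2 + W.a₄ * x + W.a₆)
          : F[X]).degree = 2 := by
        compute_degree!
      rw [this]; norm_num)
  refine ⟨y, ?_⟩
  rw [equation_iff]
  simp only [IsRoot.def, eval_sub, eval_add, eval_pow, eval_X, eval_mul, eval_C] at hy
  linear_combination hy

theorem exists_three_torsion (h3F : (3 : F) ≠ 0) (hΔ : W.Δ ≠ 0) :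
    ∃ P : W.Point, P ≠ 0 ∧ (3 : ℤ) • P = 0 := by
  obtain ⟨x, hx⟩ := IsAlgClosed.exists_root W.Ψ₃ (by
    rw [degree_eq_natDegree (W.Ψ₃_ne_zero h3F), W.natDegree_Ψ₃ h3F]; norm_num)
  obtain ⟨y, hy⟩ := exists_y_equation W x
  have hns : W.Nonsingular x y := (equation_iff_nonsingular_of_Δ_ne_zero hΔ).1 hy
  refine ⟨Point.some x y hns, Point.some_ne_zero hns, ?_⟩
  rw [three_smul_eq_zero_iff, psi3_eq_eval]
  exact hx

end exist

end Fermat.Agent.S51

namespace Fermat.Agent.S51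

section algebra

/-- The explicit parametrisation of `X₀(3)`: a rational root of `ψ₃` gives a rational `t`
with `j = (t + 27) (t + 3)^3 / t`. -/
theorem exists_t_of_psi3_root (E : WeierstrassCurve ℚ) (hΔ : E.Δ ≠ 0) {q : ℚ}
    (hq : psi3 E.toAffine q = 0) :
    ∃ t : ℚ, t ≠ 0 ∧ E.c₄ ^ 3 * t = (t + 27) * (t + 3) ^ 3 * E.Δ := by
  by_cases hc4 : E.c₄ = 0
  · refine ⟨-3, by norm_num, ?_⟩
    rw [hc4]; ring
  set w : ℚ := 12 * q + E.b₂ with hw
  have I1 : w ^ 4 - 6 * E.c₄ * w ^ 2 - 3 * E.c₄ ^ 2 - 8 * E.c₆ * w = 0 := by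
    have : w ^ 4 - 6 * E.c₄ * w ^ 2 - 3 * E.c₄ ^ 2 - 8 * E.c₆ * w = 6912 * psi3 E.toAffine q := by
      simp only [hw, psi3, WeierstrassCurve.c₄, WeierstrassCurve.c₆, WeierstrassCurve.b₂,
        WeierstrassCurve.b₄, WeierstrassCurve.b₆, WeierstrassCurve.b₈]
      ring
    rw [this, hq, mul_zero]
  have I2 : 1728 * E.Δ = E.c₄ ^ 3 - E.c₆ ^ 2 := E.c_relation
  have I3 : -(w ^ 2 - 9 * E.c₄) * (w ^ 2 - E.c₄) ^ 3 = 110592 * w ^ 2 * E.Δ := by
    linear_combination (-(w ^ 4 - 6 * E.c₄ * w ^ 2 - 3 * E.c₄ ^ 2 + 8 * E.c₆ * w)) * I1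
      - 64 * w ^ 2 * I2
  have hw0 : w ≠ 0 := by
    intro h0
    rw [h0] at I3
    have : E.c₄ ^ 4 = 0 := by linear_combination (-1 / 9 : ℚ) * I3
    exact hc4 (pow_eq_zero_iff (by norm_num) |>.1 this)
  have h1 : w ^ 2 - E.c₄ ≠ 0 := by
    intro h0
    rw [h0] at I3
    have : w ^ 2 * E.Δ = 0 := by linear_combination (-1 / 110592 : ℚ) * I3
    rcases mul_eq_zero.1 this with h | h
    · exact hw0 (pow_eq_zero_iff (by norm_num) |>.1 h)
    · exact hΔ h
  have h9 : w ^ 2 - 9 * E.c₄ ≠ 0 := by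
    intro h0
    rw [h0] at I3
    have : w ^ 2 * E.Δ = 0 := by linear_combination (-1 / 110592 : ℚ) * I3
    rcases mul_eq_zero.1 this with h | h
    · exact hw0 (pow_eq_zero_iff (by norm_num) |>.1 h)
    · exact hΔ h
  refine ⟨-3 * (w ^ 2 - 9 * E.c₄) / (w ^ 2 - E.c₄), ?_, ?_⟩
  · exact div_ne_zero (mul_ne_zero (by norm_num) h9) h1
  · have e27 : -3 * (w ^ 2 - 9 * E.c₄) / (w ^ 2 - E.c₄) + 27 = 24 * w ^ 2 / (w ^ 2 - E.c₄) := by
      field_simp; ring
    have e3 : -3 * (w ^ 2 - 9 * E.c₄) / (w ^ 2 - E.c₄) + 3 = 24 * E.c₄ / (w ^ 2 - E.c₄) := by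
      field_simp; ring
    rw [e27, e3]
    clear_value w
    field_simp
    linear_combination 3 * I3

end algebra

end Fermat.Agent.S51

namespace Fermat.Agent.S51

section galois

local notation "Qb" => AlgebraicClosure ℚ
local notation "Γ" => (AlgebraicClosure ℚ ≃ₐ[ℚ] AlgebraicClosure ℚ)

variable (E : Affine ℚ)

theorem psi3_baseChange (q : ℚ) :
    psi3 (E⁄Qb) (algebraMap ℚ Qb q) = algebraMap ℚ Qb (psi3 E q) := by
  simp only [psi3, WeierstrassCurve.baseChange, map_b₂, map_b₄, map_b₆, map_b₈, map_add, map_mul,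
    map_pow, map_ofNat]

theorem baseChange_Δ_ne_zero (hΔ : E.Δ ≠ 0) : (E⁄Qb).Δ ≠ 0 := by
  simp only [WeierstrassCurve.baseChange, map_Δ]
  exact (map_ne_zero (algebraMap ℚ Qb)).2 hΔ

/-- If the mod-3 representation is not irreducible, `ψ₃` has a rational root. -/
theorem exists_rat_root_psi3 (hΔ : E.Δ ≠ 0)
    (h : ¬ Affine.Point.GaloisRepIsIrreducible (K := Qb) ℚ E 3) :
    ∃ q : ℚ, psi3 E q = 0 := by
  have hΔK := baseChange_Δ_ne_zero E hΔ
  have h3F : (3 : Qb) ≠ 0 := by norm_num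
  obtain ⟨P, hP0, hP3⟩ := exists_three_torsion (E⁄Qb) h3F hΔK
  have hPmem : P ∈ Submodule.torsionBy ℤ (E⁄Qb).Point ((3 : ℕ) : ℤ) := by
    rw [Submodule.mem_torsionBy_iff]; exact_mod_cast hP3
  have hnt : Nontrivial (Submodule.torsionBy ℤ (E⁄Qb).Point ((3 : ℕ) : ℤ)) :=
    ⟨⟨⟨P, hPmem⟩, 0, fun h0 => hP0 (congrArg Subtype.val h0)⟩⟩
  unfold Affine.Point.GaloisRepIsIrreducible at h
  push Not at h
  obtain ⟨N, hNstable, hNbot, hNtop⟩ := h hnt
  obtain ⟨v, hvN, hv0⟩ := (Submodule.ne_bot_iff N).1 hNbot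
  have hv0' : (v : (E⁄Qb).Point) ≠ 0 := fun h0 => hv0 (Subtype.ext h0)
  have h3 : ∀ w : Submodule.torsionBy ℤ (E⁄Qb).Point ((3 : ℕ) : ℤ),
      (3 : ℤ) • (w : (E⁄Qb).Point) = 0 := by
    intro w
    have := w.2
    rw [Submodule.mem_torsionBy_iff] at this
    exact_mod_cast this
  have key : ∀ σ : Γ, σ • (v : (E⁄Qb).Point) = v ∨ σ • (v : (E⁄Qb).Point) = -v := by
    intro σ
    by_contra hcon
    push Not at hcon
    apply hNtop
    rw [eq_top_iff]
    intro w _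
    have hσv : σ • v ∈ N := hNstable σ v hvN
    have hσ0 : ((σ • v : Submodule.torsionBy ℤ (E⁄Qb).Point ((3 : ℕ) : ℤ)) : (E⁄Qb).Point) ≠ 0 := by
      intro h0
      apply hv0
      have : σ • v = 0 := Subtype.ext h0
      have h1 : σ⁻¹ • (σ • v) = σ⁻¹ • 0 := by rw [this]
      rwa [inv_smul_smul, smul_zero] at h1
    have := three_torsion_span (E⁄Qb) h3F hv0' hσ0 hcon.1 hcon.2 (h3 v) (h3 (σ • v)) (h3 w)
    rcases this with h | h | h | h | h | h | h | h | h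
    · have : w = 0 := Subtype.ext h
      rw [this]; exact N.zero_mem
    · have : w = v := Subtype.ext h
      rw [this]; exact hvN
    · have : w = -v := Subtype.ext h
      rw [this]; exact N.neg_mem hvN
    · have : w = σ • v := Subtype.ext h
      rw [this]; exact hσv
    · have : w = -(σ • v) := Subtype.ext h
      rw [this]; exact N.neg_mem hσv
    · have : w = v + σ • v := Subtype.ext h
      rw [this]; exact N.add_mem hvN hσv
    · have : w = -(v + σ • v) := Subtype.ext h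
      rw [this]; exact N.neg_mem (N.add_mem hvN hσv)
    · have : w = v - σ • v := Subtype.ext h
      rw [this]; exact N.sub_mem hvN hσv
    · have : w = -(v - σ • v) := Subtype.ext h
      rw [this]; exact N.neg_mem (N.sub_mem hvN hσv)
  -- the x-coordinate of v is rational
  have hx : ∀ σ : Γ, σ (xOf (E⁄Qb) v) = xOf (E⁄Qb) v := by
    intro σ
    have hk := key σ
    have e1 : xOf (E⁄Qb) (σ • (v : (E⁄Qb).Point)) = σ (xOf (E⁄Qb) v) := by
      rcases hv : (v : (E⁄Qb).Point) with _ | ⟨x, y, hxy⟩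
      · exact absurd hv hv0'
      · rfl
    rw [← e1]
    rcases hk with hk | hk
    · rw [hk]
    · rw [hk, xOf_neg]
  obtain ⟨q, hq⟩ := exists_rat_of_fixed _ hx
  refine ⟨q, ?_⟩
  have hroot := psi3_xOf_of_three_smul (E⁄Qb) hv0' (h3 v)
  rw [← psi3_eq_eval, ← hq, psi3_baseChange] at hroot
  exact (map_eq_zero (algebraMap ℚ Qb)).1 hroot

end galois

/-- **3-side of S51.** If the mod-3 representation of `W` is not irreducible, the
`j`-invariant is of the form `(t + 27) (t + 3)^3 / t` with `t` rational and nonzero. -/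
theorem exists_t_of_not_irr_three (W : WeierstrassCurve ℤ) (hΔ : W.Δ ≠ 0)
    (h : ¬ W.ModRepIsIrreducible 3) :
    ∃ t : ℚ, t ≠ 0 ∧ (W.c₄ : ℚ) ^ 3 * t = (t + 27) * (t + 3) ^ 3 * (W.Δ : ℚ) := by
  have hΔ' : (W.map (Int.castRingHom ℚ)).Δ ≠ 0 := by
    rw [map_Δ]
    simpa using hΔ
  obtain ⟨q, hq⟩ := exists_rat_root_psi3 (W.map (Int.castRingHom ℚ)).toAffine hΔ' h
  obtain ⟨t, ht0, ht⟩ := exists_t_of_psi3_root (W.map (Int.castRingHom ℚ)) hΔ' hq
  refine ⟨t, ht0, ?_⟩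
  rw [map_c₄, map_Δ] at ht
  simpa using ht

end Fermat.Agent.S51
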