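import Mathlib
import Fermat.Prelude.Def_FLTPrelim_GaloisRep

set_option autoImplicit false

/-!
# `E[5]` is nontrivial over an algebraically closed field of characteristic zero

Self-contained: only two polynomial identities (modulo `b_relation`) are needed.
-/

namespace Fermat.Agent.S51.T5N

open WeierstrassCurve Polynomial

variable {K : Type*} [Field K] (W : WeierstrassCurve K)

/-- value of `Ψ₂Sq` at `x` -/
def dv (x : K) : K := 4 * x ^ 3 + W.b₂ * x ^ 2 + 2 * W.b₄ * x + W.b₆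

/-- value of `Ψ₃` at `x` -/
def p3 (x : K) : K := 3 * x ^ 4 + W.b₂ * x ^ 3 + 3 * W.b₄ * x ^ 2 + 3 * W.b₆ * x + W.b₈

/-- value of `preΨ₄` at `x` -/
def p4 (x : K) : K :=
  2 * x ^ 6 + W.b₂ * x ^ 5 + 5 * W.b₄ * x ^ 4 + 10 * W.b₆ * x ^ 3 + 10 * W.b₈ * x ^ 2 +
    (W.b₂ * W.b₈ - W.b₄ * W.b₆) * x + (W.b₄ * W.b₈ - W.b₆ ^ 2)

/-- value of `preΨ' 5` at `x` -/
def p5 (x : K) : K := p4 W x * dv W x ^ 2 - p3 W x ^ 3

/-- the `x`-coordinate of `2P` as a function of `x(P)` -/
noncomputable def dblX (x : K) : K := x - p3 W x / dv W x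

lemma eval_Ψ₂Sq (x : K) : W.Ψ₂Sq.eval x = dv W x := by
  simp [Ψ₂Sq, dv]

lemma eval_Ψ₃ (x : K) : W.Ψ₃.eval x = p3 W x := by
  simp [Ψ₃, p3]

lemma eval_preΨ₄ (x : K) : W.preΨ₄.eval x = p4 W x := by
  simp [preΨ₄, p4]

lemma preΨ'_five : W.preΨ' 5 = W.preΨ₄ * W.Ψ₂Sq ^ 2 - W.Ψ₃ ^ 3 := by
  have h := W.preΨ'_odd 0
  simpa using h

lemma eval_preΨ'_five (x : K) : (W.preΨ' 5).eval x = p5 W x := by
  rw [preΨ'_five]
  simp [eval_Ψ₂Sq, eval_Ψ₃, eval_preΨ₄, p5]

lemma dblX_eq {x : K} (hx : dv W x ≠ 0) : dblX W x = (x * dv W x - p3 W x) / dv W x := by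
  rw [dblX]; field_simp

/-- Identity (I1): `D(x)^3 * D(x₂) = preΨ₄(x)^2`. -/
lemma dv_dblX {x : K} (hx : dv W x ≠ 0) :
    dv W x ^ 3 * dv W (dblX W x) = p4 W x ^ 2 := by
  have hrel := W.b_relation
  have key : 4 * (x * dv W x - p3 W x) ^ 3 + W.b₂ * (x * dv W x - p3 W x) ^ 2 * dv W x
      + 2 * W.b₄ * (x * dv W x - p3 W x) * dv W x ^ 2 + W.b₆ * dv W x ^ 3 = p4 W x ^ 2 := by
    simp only [dv, p3, p4]
    linear_combination (-13*x^8 - 8*x^7*W.b₂ - x^6*W.b₂^2 - 28*x^6*W.b₄ - 6*x^5*W.b₂*W.b₄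
      - 38*x^5*W.b₆ - 7*x^4*W.b₂*W.b₆ - 8*x^4*W.b₄^2 - 22*x^4*W.b₈ - 4*x^3*W.b₂*W.b₈
      - 16*x^3*W.b₄*W.b₆ - 8*x^2*W.b₄*W.b₈ - 7*x^2*W.b₆^2 - 6*x*W.b₆*W.b₈ - W.b₈^2) * hrel
  rw [← key, dblX_eq W hx]
  set n := x * dv W x - p3 W x with hn
  set d := dv W x with hd
  rw [dv]
  field_simp

/-- Identity (I2): `D(x)^4 * Ψ₃(x₂) = Ψ₃(x) * (Ψ₅(x) - preΨ₄(x)^2)`. -/
lemma p3_dblX {x : K} (hx : dv W x ≠ 0) :
    dv W x ^ 4 * p3 W (dblX W x) = p3 W x * (p5 W x - p4 W x ^ 2) := by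
  have hrel := W.b_relation
  have key : 3 * (x * dv W x - p3 W x) ^ 4 + W.b₂ * (x * dv W x - p3 W x) ^ 3 * dv W x
      + 3 * W.b₄ * (x * dv W x - p3 W x) ^ 2 * dv W x ^ 2
      + 3 * W.b₆ * (x * dv W x - p3 W x) * dv W x ^ 3 + W.b₈ * dv W x ^ 4
      = p3 W x * (p5 W x - p4 W x ^ 2) := by
    simp only [dv, p3, p4, p5]
    linear_combination (-9*x^12 - 3*x^11*W.b₂ + 27*x^10*W.b₄ + 18*x^9*W.b₂*W.b₄ + 81*x^9*W.b₆ + 2*x^8*W.b₂^2*W.b₄ + 45*x^8*W.b₂*W.b₆ + 48*x^8*W.b₄^2 + 63*x^8*W.b₈ + 5*x^7*W.b₂^2*W.b₆ + 10*x^7*W.b₂*W.b₄^2 + 34*x^7*W.b₂*W.b₈ + 162*x^7*W.b₄*W.b₆ + 4*x^6*W.b₂^2*W.b₈ + 33*x^6*W.b₂*W.b₄*W.b₆ + 12*x^6*W.b₄^3 + 102*x^6*W.b₄*W.b₈ + 108*x^6*W.b₆^2 + 22*x^5*W.b₂*W.b₄*W.b₈ + 21*x^5*W.b₂*W.b₆^2 + 48*x^5*W.b₄^2*W.b₆ + 114*x^5*W.b₆*W.b₈ + 23*x^4*W.b₂*W.b₆*W.b₈ + 28*x^4*W.b₄^2*W.b₈ + 54*x^4*W.b₄*W.b₆^2 + 25*x^4*W.b₈^2 + 5*x^3*W.b₂*W.b₈^2 + 54*x^3*W.b₄*W.b₆*W.b₈ + 18*x^3*W.b₆^3 + 11*x^2*W.b₄*W.b₈^2 + 24*x^2*W.b₆^2*W.b₈ + 9*x*W.b₆*W.b₈^2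 + W.b₈^3) * hrel
  rw [← key, dblX_eq W hx]
  set n := x * dv W x - p3 W x with hn
  set d := dv W x with hd
  rw [p3]
  field_simp

/-- `16 Ψ₃ = 2 D D'' - D'^2` (modulo `b_relation`). -/
lemma sixteen_p3 (x : K) :
    16 * p3 W x = 2 * dv W x * (24 * x + 2 * W.b₂) - (12 * x ^ 2 + 2 * W.b₂ * x + 2 * W.b₄) ^ 2 := by
  have hrel := W.b_relation
  simp only [dv, p3]
  linear_combination 4 * hrel

section Doubling

variable {W}

lemma dv_eq_sq {x y : K} (h : W.toAffine.Equation x y) :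
    dv W x = (y - W.toAffine.negY x y) ^ 2 := by
  rw [Affine.equation_iff] at h
  simp only [dv, Affine.negY, b₂, b₄, b₆]
  linear_combination (-4 : K) * h

lemma dv_ne_zero_iff {x y : K} (h : W.toAffine.Equation x y) :
    dv W x ≠ 0 ↔ y ≠ W.toAffine.negY x y := by
  rw [dv_eq_sq h, ne_eq, pow_eq_zero_iff two_ne_zero, sub_eq_zero]

/-- derivative of `D` in terms of the partial derivative of the Weierstrass equation,
at a point with `2y + a₁x + a₃ = 0`. -/
lemma dv_deriv_of_negY_eq {x y : K} (hy : y = W.toAffine.negY x y) :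
    12 * x ^ 2 + 2 * W.b₂ * x + 2 * W.b₄ =
      -4 * (W.a₁ * y - (3 * x ^ 2 + 2 * W.a₂ * x + W.a₄)) := by
  simp only [Affine.negY] at hy
  simp only [b₂, b₄]
  linear_combination (2 * W.a₁) * hy

variable [DecidableEq K]

/-- the `x`-coordinate of `P + P`. -/
lemma addX_self {x y : K} (h : W.toAffine.Equation x y) (hy : y ≠ W.toAffine.negY x y) :
    W.toAffine.addX x x (W.toAffine.slope x x y y) = dblX W x := by
  have hne : y - W.toAffine.negY x y ≠ 0 := sub_ne_zero.mpr hy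
  rw [Affine.slope_of_Y_ne rfl hy, Affine.addX, dblX, dv_eq_sq h]
  have key : ∀ (s num p a b : K), s ≠ 0 → num ^ 2 + a * num * s - (b + 3 * x) * s ^ 2 + p = 0 →
      (num / s) ^ 2 + a * (num / s) - b - x - x = x - p / s ^ 2 := by
    intro s num p a b hs hrel
    field_simp
    linear_combination hrel
  refine key _ _ _ _ _ hne ?_
  rw [Affine.equation_iff] at h
  simp only [p3, Affine.negY, b₂, b₄, b₆, b₈]
  linear_combination (-12 * x - W.a₁ ^ 2 - 4 * W.a₂) * h

end Doubling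

section Core

/-- If `Ψ₅(x) = 0` at a nonsingular point then `D(x) ≠ 0`. -/
lemma dv_ne_zero_of_p5 [CharZero K] {x y : K} (h5 : p5 W x = 0) (hns : W.toAffine.Nonsingular x y) :
    dv W x ≠ 0 := by
  intro hd
  have h3 : p3 W x = 0 := by
    have : p3 W x ^ 3 = 0 := by
      have := h5
      rw [p5, hd] at this
      linear_combination -this
    exact pow_eq_zero_iff (three_ne_zero) |>.mp this
  have hD' : 12 * x ^ 2 + 2 * W.b₂ * x + 2 * W.b₄ = 0 := by
    have h16 := sixteen_p3 W x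
    rw [h3, hd] at h16
    have : (12 * x ^ 2 + 2 * W.b₂ * x + 2 * W.b₄) ^ 2 = 0 := by linear_combination h16
    exact pow_eq_zero_iff (two_ne_zero) |>.mp this
  have hy : y = W.toAffine.negY x y := by
    have := dv_eq_sq hns.1
    rw [hd] at this
    have h0 : y - W.toAffine.negY x y = 0 := pow_eq_zero_iff (two_ne_zero) |>.mp this.symm
    exact sub_eq_zero.mp h0
  have hX := dv_deriv_of_negY_eq (W := W) hy
  rw [hD'] at hX
  rcases (W.toAffine.nonsingular_iff x y).mp hns with ⟨_, h | h⟩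
  · apply h
    have h4 : (4 : K) ≠ 0 := by norm_num
    have : 4 * (W.a₁ * y - (3 * x ^ 2 + 2 * W.a₂ * x + W.a₄)) = 0 := by linear_combination hX
    have := (mul_eq_zero.mp this).resolve_left h4
    exact sub_eq_zero.mp this
  · exact h hy

/-- The algebraic core: at a root `x` of `Ψ₅` with `D(x) ≠ 0`, doubling twice returns to `x`. -/
lemma core_of_p5 {x : K} (h5 : p5 W x = 0) (hd : dv W x ≠ 0) :
    p3 W x ≠ 0 ∧ p4 W x ≠ 0 ∧ dv W (dblX W x) ≠ 0 ∧ dblX W (dblX W x) = x := by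
  have hI1 := dv_dblX W hd
  have hI2 := p3_dblX W hd
  have h3 : p3 W x ≠ 0 := by
    intro h3
    have hx2 : dblX W x = x := by rw [dblX, h3, zero_div, sub_zero]
    rw [hx2] at hI1
    have h4 : p4 W x ≠ 0 := by
      intro h4
      rw [h4] at hI1
      have : dv W x ^ 4 = 0 := by linear_combination hI1
      exact hd (pow_eq_zero_iff (by norm_num) |>.mp this)
    have := h5
    rw [p5, h3] at this
    have h' : p4 W x * dv W x ^ 2 = 0 := by linear_combination this
    rcases mul_eq_zero.mp h' with h | h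
    · exact h4 h
    · exact hd (pow_eq_zero_iff (two_ne_zero) |>.mp h)
  have h4 : p4 W x ≠ 0 := by
    intro h4
    have := h5
    rw [p5, h4] at this
    have : p3 W x ^ 3 = 0 := by linear_combination -this
    exact h3 (pow_eq_zero_iff (three_ne_zero) |>.mp this)
  have hd2 : dv W (dblX W x) ≠ 0 := by
    intro h
    rw [h, mul_zero] at hI1
    exact h4 (pow_eq_zero_iff (two_ne_zero) |>.mp hI1.symm)
  refine ⟨h3, h4, hd2, ?_⟩
  have hcross : dv W x * p3 W (dblX W x) = - p3 W x * dv W (dblX W x) := by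
    have hd3 : dv W x ^ 3 ≠ 0 := pow_ne_zero _ hd
    apply mul_left_cancel₀ hd3
    rw [h5] at hI2
    linear_combination hI2 + p3 W x * hI1
  have : p3 W (dblX W x) / dv W (dblX W x) = - (p3 W x / dv W x) := by
    field_simp
    linear_combination hcross
  conv_lhs => rw [dblX, this]
  rw [dblX]
  ring

/-- Converse of `core_of_p5` (for the `5`-side): if doubling twice returns to `x`
and `x` is not a root of `Ψ₃`, then `Ψ₅(x) = 0`. -/
lemma p5_eq_zero_of_dblX_dblX {x : K} (hd : dv W x ≠ 0) (hd2 : dv W (dblX W x) ≠ 0)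
    (h3 : p3 W x ≠ 0) (h : dblX W (dblX W x) = x) : p5 W x = 0 := by
  have hI1 := dv_dblX W hd
  have hI2 := p3_dblX W hd
  have hq : p3 W (dblX W x) / dv W (dblX W x) = - (p3 W x / dv W x) := by
    have h' : dblX W x - p3 W (dblX W x) / dv W (dblX W x) = x := h
    have hx2 : dblX W x = x - p3 W x / dv W x := rfl
    linear_combination -h' + hx2
  have hcross : dv W x * p3 W (dblX W x) = - p3 W x * dv W (dblX W x) := by
    field_simp at hq
    linear_combination hq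
  have : p3 W x * p5 W x = 0 := by
    linear_combination -hI2 + dv W x ^ 3 * hcross - p3 W x * hI1
  exact (mul_eq_zero.mp this).resolve_left h3

end Core

section Main

variable {W} [DecidableEq K]

open WeierstrassCurve.Affine

omit [DecidableEq K] in
lemma some_congr {x x' y : K} (h : W.toAffine.Nonsingular x y) (hx : x = x') :
    ∃ h' : W.toAffine.Nonsingular x' y, Point.some x y h = Point.some x' y h' := by
  subst hx
  exact ⟨h, rfl⟩

/-- Doubling a point which is not `2`-torsion: the `x`-coordinate is `dblX`. -/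
lemma exists_add_self {x y : K} (h : W.toAffine.Nonsingular x y)
    (hy : y ≠ W.toAffine.negY x y) :
    ∃ (y' : K) (h' : W.toAffine.Nonsingular (dblX W x) y'),
      Point.some x y h + Point.some x y h = Point.some (dblX W x) y' h' := by
  have hadd := Point.add_self_of_Y_ne (h₁ := h) hy
  have hx := addX_self h.1 hy
  have hns := nonsingular_add h h (fun hxy => hy hxy.right)
  rw [hadd]
  obtain ⟨h', e⟩ := some_congr hns hx
  exact ⟨_, h', e⟩

/-- Over an algebraically closed field of characteristic zero, a Weierstrass curve with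
nonzero discriminant has a point of exact order `5`. -/
theorem exists_point_order_five [IsAlgClosed K] [CharZero K] (hΔ : W.Δ ≠ 0) :
    ∃ P : W.toAffine.Point, P ≠ 0 ∧ (5 : ℤ) • P = 0 := by
  -- a root of `Ψ₅`
  have hdeg : (W.preΨ' 5).degree ≠ 0 := by
    have hpos := W.natDegree_preΨ'_pos (n := 5) (by norm_num) (by exact_mod_cast (by norm_num : (5 : ℕ) ≠ 0))
    intro h0
    have := natDegree_eq_zero_iff_degree_le_zero.mpr h0.le
    omega
  obtain ⟨x, hx⟩ := IsAlgClosed.exists_root (W.preΨ' 5) hdeg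
  rw [IsRoot.def, eval_preΨ'_five] at hx
  -- a point above it
  obtain ⟨r, hr⟩ := IsAlgClosed.exists_pow_nat_eq (dv W x) (n := 2) (by norm_num)
  set y : K := (r - W.a₁ * x - W.a₃) / 2 with hy_def
  have heq : W.toAffine.Equation x y := by
    rw [Affine.equation_iff]
    have h2 : (2 : K) ≠ 0 := two_ne_zero
    have hr' : r ^ 2 = 4 * x ^ 3 + W.b₂ * x ^ 2 + 2 * W.b₄ * x + W.b₆ := hr
    simp only [b₂, b₄, b₆] at hr'
    rw [hy_def]
    field_simp
    linear_combination hr'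
  have hns : W.toAffine.Nonsingular x y := (equation_iff_nonsingular_of_Δ_ne_zero hΔ).mp heq
  have hd : dv W x ≠ 0 := dv_ne_zero_of_p5 W hx hns
  obtain ⟨h3, h4, hd2, hback⟩ := core_of_p5 W hx hd
  have hy : y ≠ W.toAffine.negY x y := (dv_ne_zero_iff heq).mp hd
  obtain ⟨y₂, hns₂, h2P⟩ := exists_add_self hns hy
  have hy₂ : y₂ ≠ W.toAffine.negY (dblX W x) y₂ := (dv_ne_zero_iff hns₂.1).mp hd2
  obtain ⟨y₄, hns₄, h4P⟩ := exists_add_self hns₂ hy₂
  set P : W.toAffine.Point := Point.some x y hns with hP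
  refine ⟨P, Point.some_ne_zero hns, ?_⟩
  have h5 : (5 : ℤ) • P = (P + P) + (P + P) + P := by
    rw [show (5 : ℤ) = 2 + 2 + 1 by norm_num, add_zsmul, add_zsmul, two_zsmul, one_zsmul]
  rw [h5, h2P, h4P]
  -- `4P` has the same `x`-coordinate as `P`
  have hX : dblX W (dblX W x) = x := hback
  rcases (Point.X_eq_iff (h₁ := hns₄) (h₂ := hns)).mp hX with h | h
  · -- `4P = P` forces `3P = 0`, hence `x(2P) = x(P)`, contradiction
    exfalso
    have h3P : Point.some (dblX W x) y₂ hns₂ = -P := by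
      have e1 : Point.some (dblX W x) y₂ hns₂ + Point.some (dblX W x) y₂ hns₂ = P := by
        rw [h4P]; exact h
      rw [← h2P] at e1
      have e2 : P + P + P = 0 := by
        have : P + P + (P + P) = P + 0 := by rw [add_zero]; exact e1
        have := add_left_cancel (a := P) (b := P + (P + P)) (c := 0) (by rw [← add_assoc]; exact this)
        rw [← add_assoc] at this
        exact this
      rw [← h2P]
      exact eq_neg_of_add_eq_zero_left e2
    have hxx : dblX W x = x := by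
      have := (Point.X_eq_iff (h₁ := hns₂) (h₂ := hns)).mpr (Or.inr h3P)
      exact this
    apply h3
    have : p3 W x / dv W x = 0 := by
      rw [dblX] at hxx
      linear_combination -hxx
    rcases div_eq_zero_iff.mp this with h | h
    · exact h
    · exact absurd h hd
  · rw [h]
    exact neg_add_cancel P

/-- `E[5]` is nontrivial (integer-literal form). -/
theorem nontrivial_torsionBy_five [IsAlgClosed K] [CharZero K] (hΔ : W.Δ ≠ 0) :
    Nontrivial (Submodule.torsionBy ℤ W.toAffine.Point (5 : ℤ)) := by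
  obtain ⟨P, hP0, hP5⟩ := exists_point_order_five hΔ
  refine ⟨⟨⟨P, (Submodule.mem_torsionBy_iff _ _).mpr hP5⟩, 0, ?_⟩⟩
  intro h
  exact hP0 (congrArg Subtype.val h)

/-- `E[5]` is nontrivial (cast-of-natural form, as it appears in `GaloisRepIsIrreducible`). -/
theorem nontrivial_torsionBy_five' [IsAlgClosed K] [CharZero K] (hΔ : W.Δ ≠ 0) :
    Nontrivial (Submodule.torsionBy ℤ W.toAffine.Point ((5 : ℕ) : ℤ)) := by
  obtain ⟨P, hP0, hP5⟩ := exists_point_order_five hΔ
  refine ⟨⟨⟨P, (Submodule.mem_torsionBy_iff _ _).mpr (by exact_mod_cast hP5)⟩, 0, ?_⟩⟩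
  intro h
  exact hP0 (congrArg Subtype.val h)

/-- Converse: the `x`-coordinate of a nonzero `5`-torsion point is a root of `Ψ₅`
(so `E[5]` has at most `2 * 12 + 1 = 25` points). -/
theorem p5_eq_zero_of_five_zsmul {x y : K} (h : W.toAffine.Nonsingular x y)
    (h5 : (5 : ℤ) • Point.some x y h = 0) : p5 W x = 0 := by
  set P : W.toAffine.Point := Point.some x y h with hP
  have hP0 : P ≠ 0 := Point.some_ne_zero h
  have h5' : (P + P) + (P + P) + P = 0 := by
    rw [← h5, show (5 : ℤ) = 2 + 2 + 1 by norm_num, add_zsmul, add_zsmul, two_zsmul, one_zsmul]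
  -- `P` is not `2`-torsion
  have hy : y ≠ W.toAffine.negY x y := by
    intro hy
    have h2 : P + P = 0 := Point.add_self_of_Y_eq hy
    rw [h2, zero_add, zero_add] at h5'
    exact hP0 h5'
  have hd : dv W x ≠ 0 := (dv_ne_zero_iff h.1).mpr hy
  obtain ⟨y₂, hns₂, h2P⟩ := exists_add_self h hy
  -- `2P` is not `2`-torsion
  have hy₂ : y₂ ≠ W.toAffine.negY (dblX W x) y₂ := by
    intro hy₂
    have h4 : (P + P) + (P + P) = 0 := by
      rw [h2P]; exact Point.add_self_of_Y_eq hy₂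
    rw [h4, zero_add] at h5'
    exact hP0 h5'
  have hd2 : dv W (dblX W x) ≠ 0 := (dv_ne_zero_iff hns₂.1).mpr hy₂
  obtain ⟨y₄, hns₄, h4P⟩ := exists_add_self hns₂ hy₂
  -- `4P = -P`
  have h4 : Point.some (dblX W (dblX W x)) y₄ hns₄ = -P := by
    rw [← h4P, ← h2P]
    exact eq_neg_of_add_eq_zero_left h5'
  have hback : dblX W (dblX W x) = x :=
    (Point.X_eq_iff (h₁ := hns₄) (h₂ := h)).mpr (Or.inr h4)
  -- `Ψ₃(x) ≠ 0`
  have h3 : p3 W x ≠ 0 := by
    intro h3
    have hx2 : dblX W x = x := by rw [dblX, h3, zero_div, sub_zero]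
    rcases (Point.X_eq_iff (h₁ := hns₂) (h₂ := h)).mp hx2 with e | e
    · -- `2P = P`
      have : P + P = P + 0 := by rw [add_zero, h2P]; exact e
      exact hP0 (add_left_cancel this)
    · -- `2P = -P`, so `3P = 0`, so `2P = 0` using `5P = 0`
      have e' : P + P = -P := by rw [h2P]; exact e
      have h3P : P + P + P = 0 := by rw [e']; exact neg_add_cancel P
      have : P + P = 0 := by
        have := h5'
        rw [show (P + P) + (P + P) + P = (P + P + P) + (P + P) by abel, h3P, zero_add] at this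
        exact this
      rw [this, zero_add, zero_add] at h5'
      exact hP0 h5'
  exact p5_eq_zero_of_dblX_dblX W hd hd2 h3 hback

end Main

section Rat

open WeierstrassCurve.Affine

/-- `E[5]` is nontrivial over `AlgebraicClosure ℚ`, in the exact shape occurring in
`WeierstrassCurve.Affine.Point.GaloisRepIsIrreducible ℚ E 5`. -/
theorem nontrivial_torsion_five (E : WeierstrassCurve ℚ) (hΔ : E.Δ ≠ 0) :
    Nontrivial (Submodule.torsionBy ℤ
      (Affine.baseChange E (AlgebraicClosure ℚ)).Point ((5 : ℕ) : ℤ)) := by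
  apply nontrivial_torsionBy_five' (W := E.baseChange (AlgebraicClosure ℚ))
  rw [WeierstrassCurve.baseChange, WeierstrassCurve.map_Δ]
  exact fun h => hΔ ((map_eq_zero_iff _ (RingHom.injective _)).mp h)

/-- the same with an integer literal. -/
theorem nontrivial_torsion_five_int (E : WeierstrassCurve ℚ) (hΔ : E.Δ ≠ 0) :
    Nontrivial (Submodule.torsionBy ℤ
      (Affine.baseChange E (AlgebraicClosure ℚ)).Point (5 : ℤ)) := by
  apply nontrivial_torsionBy_five (W := E.baseChange (AlgebraicClosure ℚ))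
  rw [WeierstrassCurve.baseChange, WeierstrassCurve.map_Δ]
  exact fun h => hΔ ((map_eq_zero_iff _ (RingHom.injective _)).mp h)

/-- version for an integral model. -/
theorem nontrivial_torsion_five_of_int (W : WeierstrassCurve ℤ) (hΔ : W.Δ ≠ 0) :
    Nontrivial (Submodule.torsionBy ℤ
      (Affine.baseChange (W.map (Int.castRingHom ℚ)) (AlgebraicClosure ℚ)).Point
        ((5 : ℕ) : ℤ)) := by
  apply nontrivial_torsion_five
  rw [WeierstrassCurve.map_Δ]
  exact fun h => hΔ (by simpa using h)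

end Rat

end Fermat.Agent.S51.T5N
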