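import Mathlib
import Fermat.Prelude.Def_FLTPrelim_ModularRep
import Fermat.Agent.S51.Basic
import Fermat.Agent.S51.Three
import Fermat.Agent.S51.FiveAlg
import Fermat.Agent.S51.FiveGalois
import Fermat.Agent.S51.TorsionFive

/-!
# S51, 5-side: a reducible mod-5 representation gives a rational point of `X₀(5)`

Assembly of the landed ingredients: `FiveAlg` (short-form algebra and Fricke parameter),
`TorsionFive` (points of order five and doubling in general Weierstrass form) and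
`FiveGalois` (rationality of invariants of a stable line).
-/

set_option autoImplicit false

open WeierstrassCurve Polynomial

namespace Fermat.Agent.S51.H26

open Fermat.Agent.S51.T5N Fermat.Agent.S51.Five

section bridge

variable {K : Type*} [Field K] [CharZero K] (W : WeierstrassCurve K)

/-- short Weierstrass abscissa -/
noncomputable def sX (x : K) : K := x + W.b₂ / 12

/-- short Weierstrass coefficient `A = -c₄/48` -/
noncomputable def sA : K := -W.c₄ / 48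

/-- short Weierstrass coefficient `B = -c₆/864` -/
noncomputable def sB : K := -W.c₆ / 864

lemma dv_eq_q (x : K) : dv W x = q (sX W x) (sA W) (sB W) := by
  simp only [dv, q, sX, sA, sB, WeierstrassCurve.c₄, WeierstrassCurve.c₆]
  ring

lemma p3_eq_ps3 (x : K) : p3 W x = ps3 (sX W x) (sA W) (sB W) := by
  have hrel := W.b_relation
  simp only [p3, ps3, sX, sA, sB, WeierstrassCurve.c₄, WeierstrassCurve.c₆]
  linear_combination (1 / 4 : K) * hrel

lemma p4_eq_p (x : K) : p4 W x = p (sX W x) (sA W) (sB W) := by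
  have hrel := W.b_relation
  simp only [p4, p, sX, sA, sB, WeierstrassCurve.c₄, WeierstrassCurve.c₆]
  linear_combination (5 / 2 * x ^ 2 + 1 / 4 * W.b₂ * x + 1 / 4 * W.b₄ : K) * hrel

lemma p5_eq_ps5 (x : K) : p5 W x = ps5 (sX W x) (sA W) (sB W) := by
  rw [p5, ps5, dv_eq_q, p3_eq_ps3, p4_eq_p]

lemma sX_dblX {x : K} (hx : dv W x ≠ 0) :
    sX W (dblX W x) = dbl (sX W x) (sA W) (sB W) := by
  have hq : q (sX W x) (sA W) (sB W) ≠ 0 := by rwa [← dv_eq_q]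
  have h1 := dbl_sub (A := sA W) (B := sB W) hq
  rw [← dv_eq_q, ← p3_eq_ps3] at h1
  simp only [sX, dblX] at h1 ⊢
  linear_combination -h1

lemma Δ_eq_d0 : W.Δ = -16 * d0 (sA W) (sB W) := by
  have hrel := W.b_relation
  simp only [d0, sA, sB, WeierstrassCurve.c₄, WeierstrassCurve.c₆, WeierstrassCurve.Δ]
  linear_combination (-1 / 4 * W.b₂ ^ 2 : K) * hrel

lemma c₄_eq_sA : W.c₄ = -48 * sA W := by
  simp only [sA]; ring

/-- The Fricke parameter in general Weierstrass form. -/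
noncomputable def frickeG (x : K) : K := W.Δ * dv W x ^ 2 / p4 W x ^ 2

lemma frickeG_eq (x : K) : frickeG W x = fricke (sX W x) (sA W) (sB W) := by
  rw [frickeG, fricke, ← dv_eq_q, ← p4_eq_p, ← Δ_eq_d0]

end bridge


section main

local notation "Qb" => AlgebraicClosure ℚ
local notation "Γ" => (AlgebraicClosure ℚ ≃ₐ[ℚ] AlgebraicClosure ℚ)

open WeierstrassCurve.Affine

variable (E : Affine ℚ)

/-- The Fricke parameter is Galois-equivariant (the curve is defined over `ℚ`). -/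
lemma frickeG_smul (σ : Γ) (x : Qb) :
    σ (frickeG (E⁄Qb) x) = frickeG (E⁄Qb) (σ x) := by
  simp only [frickeG, dv, p4, WeierstrassCurve.baseChange, map_Δ, map_b₂, map_b₄, map_b₆, map_b₈,
    map_div₀, map_mul, map_pow, map_add, map_sub, AlgEquiv.commutes, map_ofNat]

/-- torsion hypothesis in the form `(5 : ℤ) • P = 0`. -/
lemma five_zsmul_coe (w : Submodule.torsionBy ℤ (E⁄Qb).Point ((5 : ℕ) : ℤ)) :
    (5 : ℤ) • (w : (E⁄Qb).Point) = 0 := by
  have := w.2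
  rw [Submodule.mem_torsionBy_iff] at this
  exact_mod_cast this

/-- data attached to a nonzero point of order five -/
lemma five_data (w : Submodule.torsionBy ℤ (E⁄Qb).Point ((5 : ℕ) : ℤ))
    (hw : w ≠ 0) :
    p5 (E⁄Qb) (xOf (E⁄Qb) (w : (E⁄Qb).Point)) = 0 ∧
    xOf (E⁄Qb) ((w + w : Submodule.torsionBy ℤ (E⁄Qb).Point ((5 : ℕ) : ℤ)) : (E⁄Qb).Point)
      = dblX (E⁄Qb) (xOf (E⁄Qb) (w : (E⁄Qb).Point)) := by
  have hw' : (w : (E⁄Qb).Point) ≠ 0 := fun h0 => hw (Subtype.ext h0)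
  have h5 := five_zsmul_coe E w
  have hcoe : ((w + w : Submodule.torsionBy ℤ (E⁄Qb).Point ((5 : ℕ) : ℤ)) : (E⁄Qb).Point)
      = (w : (E⁄Qb).Point) + (w : (E⁄Qb).Point) := rfl
  rw [hcoe]
  rcases hP : (w : (E⁄Qb).Point) with _ | ⟨x, y, hxy⟩
  · exact absurd hP hw'
  · rw [hP] at h5
    have hp5 : p5 (E⁄Qb) x = 0 := p5_eq_zero_of_five_zsmul hxy h5
    have hdv : dv (E⁄Qb) x ≠ 0 := dv_ne_zero_of_p5 (E⁄Qb) hp5 hxy
    have hy : y ≠ (E⁄Qb).negY x y := (dv_ne_zero_iff hxy.1).1 hdv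
    obtain ⟨y', h', hadd⟩ := exists_add_self hxy hy
    refine ⟨hp5, ?_⟩
    rw [hadd]
    rfl

/-- **5-side of S51 over `ℚ`.** -/
theorem exists_s_of_not_irr_five_rat (hΔ : E.Δ ≠ 0)
    (h : ¬ Affine.Point.GaloisRepIsIrreducible (K := Qb) ℚ E 5) :
    ∃ s : ℚ, s ≠ 0 ∧ E.c₄ ^ 3 * s = (s ^ 2 + 10 * s + 5) ^ 3 * E.Δ := by
  have hΔK : (E⁄Qb).Δ ≠ 0 := baseChange_Δ_ne_zero E hΔ
  have hnt : Nontrivial (Submodule.torsionBy ℤ (E⁄Qb).Point ((5 : ℕ) : ℤ)) :=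
    nontrivial_torsion_five E hΔ
  unfold Affine.Point.GaloisRepIsIrreducible at h
  push Not at h
  obtain ⟨N, hNstable, hNbot, hNtop⟩ := h hnt
  obtain ⟨v, hvN, hv0⟩ := (Submodule.ne_bot_iff N).1 hNbot
  -- the polynomial
  have h5K : ((5 : ℕ) : Qb) ≠ 0 := by norm_num
  have hp : (E⁄Qb).preΨ' 5 ≠ 0 := (E⁄Qb).preΨ'_ne_zero h5K
  have hdeg : ((E⁄Qb).preΨ' 5).natDegree ≤ 12 := by
    have := (E⁄Qb).natDegree_preΨ'_le 5
    have h5 : ¬ Even 5 := by decide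
    simpa [h5] using this
  have hroot : ∀ w : Submodule.torsionBy ℤ (E⁄Qb).Point ((5 : ℕ) : ℤ), w ≠ 0 →
      ((E⁄Qb).preΨ' 5).eval (xOf (E⁄Qb) (w : (E⁄Qb).Point)) = 0 := by
    intro w hw
    rw [eval_preΨ'_five]
    exact (five_data E w hw).1
  have hd0 : d0 (sA (E⁄Qb)) (sB (E⁄Qb)) ≠ 0 := by
    intro h0
    apply hΔK
    rw [Δ_eq_d0, h0, mul_zero]
  have hf2 : ∀ w : Submodule.torsionBy ℤ (E⁄Qb).Point ((5 : ℕ) : ℤ), w ≠ 0 →
      frickeG (E⁄Qb) (xOf (E⁄Qb)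
        ((w + w : Submodule.torsionBy ℤ (E⁄Qb).Point ((5 : ℕ) : ℤ)) : (E⁄Qb).Point))
        = frickeG (E⁄Qb) (xOf (E⁄Qb) (w : (E⁄Qb).Point)) := by
    intro w hw
    obtain ⟨hp5, hx2⟩ := five_data E w hw
    rw [hx2, frickeG_eq, frickeG_eq]
    rw [p5_eq_ps5] at hp5
    obtain ⟨hq, hpp, -⟩ := ne_zero_of_ps5 hd0 hp5
    have hdv : dv (E⁄Qb) (xOf (E⁄Qb) (w : (E⁄Qb).Point)) ≠ 0 := by rwa [dv_eq_q]
    rw [sX_dblX _ hdv]
    exact fricke_dbl hq hpp hp5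
  obtain ⟨s, hs⟩ := exists_rat_of_stable_five E ((E⁄Qb).preΨ' 5) hp hdeg hroot N hNstable hNtop
    hvN hv0 (frickeG (E⁄Qb)) (frickeG_smul E) hf2
  -- properties of `s`
  obtain ⟨hp5, -⟩ := five_data E v hv0
  rw [p5_eq_ps5] at hp5
  obtain ⟨hq, hpp, -⟩ := ne_zero_of_ps5 hd0 hp5
  have hj := fricke_j (A := sA (E⁄Qb)) (B := sB (E⁄Qb)) hpp hp5
  rw [← frickeG_eq, ← Δ_eq_d0, ← c₄_eq_sA, ← hs] at hj
  have hne : frickeG (E⁄Qb) (xOf (E⁄Qb) (v : (E⁄Qb).Point)) ≠ 0 := by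
    rw [frickeG_eq]
    exact fricke_ne_zero hd0 hq hpp
  refine ⟨s, ?_, ?_⟩
  · rintro rfl
    apply hne
    rw [← hs, map_zero]
  · have hc4 : (E⁄Qb).c₄ = algebraMap ℚ Qb E.c₄ := by
      simp only [WeierstrassCurve.baseChange, map_c₄]
    have hΔ' : (E⁄Qb).Δ = algebraMap ℚ Qb E.Δ := by
      simp only [WeierstrassCurve.baseChange, map_Δ]
    rw [hc4, hΔ'] at hj
    apply (algebraMap ℚ Qb).injective
    simp only [map_mul, map_pow, map_add, map_ofNat]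
    exact hj

end main

/-- **5-side of S51.** If the mod-5 representation of `W` is not irreducible, the
`j`-invariant is of the form `(s^2 + 10 s + 5)^3 / s` with `s` rational and nonzero. -/
theorem exists_s_of_not_irr_five_h26 (W : WeierstrassCurve ℤ) (hΔ : W.Δ ≠ 0)
    (h : ¬ W.ModRepIsIrreducible 5) :
    ∃ s : ℚ, s ≠ 0 ∧ (W.c₄ : ℚ) ^ 3 * s = (s ^ 2 + 10 * s + 5) ^ 3 * (W.Δ : ℚ) := by
  have hΔ' : (W.map (Int.castRingHom ℚ)).Δ ≠ 0 := by
    rw [map_Δ]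
    simpa using hΔ
  obtain ⟨s, hs0, hs⟩ :=
    exists_s_of_not_irr_five_rat (W.map (Int.castRingHom ℚ)).toAffine hΔ' h
  refine ⟨s, hs0, ?_⟩
  rw [map_c₄, map_Δ] at hs
  simpa using hs

end Fermat.Agent.S51.H26
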