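import Mathlib
import Fermat.Agent.S51.FiveAlg

/-!
# S51, 5-side: from a general Weierstrass equation to the short form, and points of order five
-/

set_option autoImplicit false

open WeierstrassCurve WeierstrassCurve.Affine Polynomial

namespace Fermat.Agent.S51.Five

section short

variable {F : Type*} [Field F] (W : Affine F)

/-- The coefficient `A` of the short form `Y² = X³ + A X + B`. -/
noncomputable def sA : F := - W.c₄ / 48

/-- The coefficient `B` of the short form. -/
noncomputable def sB : F := - W.c₆ / 864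

/-- The short-form abscissa `X = x + b₂ / 12`. -/
noncomputable def sX (x : F) : F := x + W.b₂ / 12

variable [CharZero F]

lemma c4_short : -48 * sA W = W.c₄ := by
  simp only [sA]; field_simp

lemma delta_short : -16 * d0 (sA W) (sB W) = W.Δ := by
  have h := W.c_relation
  simp only [d0, sA, sB]
  linear_combination (-1 / 1728 : F) * h

lemma q_short (x : F) :
    q (sX W x) (sA W) (sB W) = 4 * x ^ 3 + W.b₂ * x ^ 2 + 2 * W.b₄ * x + W.b₆ := by
  simp only [q, sX, sA, sB, WeierstrassCurve.c₄, WeierstrassCurve.c₆]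
  field_simp
  ring

lemma D_sq {x y : F} (h : W.Equation x y) :
    (2 * y + W.a₁ * x + W.a₃) ^ 2 = q (sX W x) (sA W) (sB W) := by
  rw [q_short]
  rw [equation_iff] at h
  simp only [WeierstrassCurve.b₂, WeierstrassCurve.b₄, WeierstrassCurve.b₆]
  linear_combination 4 * h

omit [CharZero F] in
lemma sub_negY (x y : F) : y - W.negY x y = 2 * y + W.a₁ * x + W.a₃ := by
  simp only [negY]; ring

lemma q_short_eq_zero_iff {x y : F} (h : W.Equation x y) :
    q (sX W x) (sA W) (sB W) = 0 ↔ y = W.negY x y := by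
  rw [← D_sq W h, pow_eq_zero_iff (two_ne_zero), ← sub_negY, sub_eq_zero]

lemma ph2_short {x y : F} (h : W.Equation x y) :
    ph2 (sX W x) (sA W) (sB W)
      = (3 * x ^ 2 + 2 * W.a₂ * x + W.a₄ - W.a₁ * y) ^ 2
        + W.a₁ * (3 * x ^ 2 + 2 * W.a₂ * x + W.a₄ - W.a₁ * y) * (2 * y + W.a₁ * x + W.a₃)
        - (W.a₂ + 2 * x - W.b₂ / 12) * (2 * y + W.a₁ * x + W.a₃) ^ 2 := by
  rw [equation_iff] at h
  simp only [ph2, sX, sA, sB, WeierstrassCurve.c₄, WeierstrassCurve.c₆, WeierstrassCurve.b₂,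
    WeierstrassCurve.b₄, WeierstrassCurve.b₆]
  linear_combination (8 * x + 2 * (W.a₁ ^ 2 + 4 * W.a₂) / 3) * h

variable [DecidableEq F]

/-- The duplication formula in short-form coordinates. -/
lemma dbl_short {x y : F} (h : W.Equation x y) (hy : y ≠ W.negY x y) :
    sX W (W.addX x x (W.slope x x y y)) = dbl (sX W x) (sA W) (sB W) := by
  have hD : 2 * y + W.a₁ * x + W.a₃ ≠ 0 := by
    rw [← sub_negY]; exact sub_ne_zero.mpr hy
  have hq : q (sX W x) (sA W) (sB W) ≠ 0 := by
    rw [← D_sq W h]; exact pow_ne_zero 2 hD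
  rw [dbl, eq_div_iff hq, ph2_short W h, ← D_sq W h, slope_of_Y_ne rfl hy, sub_negY, addX]
  simp only [sX]
  have hℓ : (3 * x ^ 2 + 2 * W.a₂ * x + W.a₄ - W.a₁ * y) / (2 * y + W.a₁ * x + W.a₃)
      * (2 * y + W.a₁ * x + W.a₃) = 3 * x ^ 2 + 2 * W.a₂ * x + W.a₄ - W.a₁ * y :=
    div_mul_cancel₀ _ hD
  linear_combination ((3 * x ^ 2 + 2 * W.a₂ * x + W.a₄ - W.a₁ * y) / (2 * y + W.a₁ * x + W.a₃)
      * (2 * y + W.a₁ * x + W.a₃) + (3 * x ^ 2 + 2 * W.a₂ * x + W.a₄ - W.a₁ * y)
      + W.a₁ * (2 * y + W.a₁ * x + W.a₃)) * hℓ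

end short

section point

variable {F : Type*} [Field F] [CharZero F] (W : Affine F)

/-- The short-form abscissa of a point (junk value `0` at infinity). -/
noncomputable def xs : W.Point → F
  | .zero => 0
  | .some x _ _ => sX W x

omit [CharZero F] in
lemma xs_some {x y : F} (h : W.Nonsingular x y) : xs W (Point.some x y h) = sX W x := rfl

omit [CharZero F] in
lemma xs_neg (P : W.Point) : xs W (-P) = xs W P := by
  cases P <;> rfl

omit [CharZero F] in
lemma eq_or_eq_neg_of_xs_eq {P Q : W.Point} (hP : P ≠ 0) (hQ : Q ≠ 0)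
    (h : xs W P = xs W Q) : P = Q ∨ P = -Q := by
  match P, Q, hP, hQ, h with
  | .zero, _, hP, _, _ => exact absurd rfl hP
  | _, .zero, _, hQ, _ => exact absurd rfl hQ
  | .some x₁ y₁ h₁, .some x₂ y₂ h₂, _, _, h =>
    have hx : x₁ = x₂ := by
      simp only [xs, sX] at h
      exact add_right_cancel h
    exact Point.X_eq_iff.1 hx

variable [DecidableEq F]

lemma add_self_eq_zero_iff {P : W.Point} (hP : P ≠ 0) :
    P + P = 0 ↔ q (xs W P) (sA W) (sB W) = 0 := by
  match P, hP with
  | .zero, hP => exact absurd rfl hP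
  | .some x y h, _ =>
    rw [xs_some, q_short_eq_zero_iff W h.1]
    constructor
    · intro h0
      by_contra hy
      rw [Point.add_self_of_Y_ne hy] at h0
      exact Point.some_ne_zero _ h0
    · intro hy
      exact Point.add_self_of_Y_eq hy

lemma xs_add_self {P : W.Point} (hP : P ≠ 0) (hq : q (xs W P) (sA W) (sB W) ≠ 0) :
    xs W (P + P) = dbl (xs W P) (sA W) (sB W) := by
  match P, hP, hq with
  | .zero, hP, _ => exact absurd rfl hP
  | .some x y h, _, hq =>
    rw [xs_some] at hq ⊢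
    have hy : y ≠ W.negY x y := fun hy => hq ((q_short_eq_zero_iff W h.1).2 hy)
    rw [Point.add_self_of_Y_ne hy, xs_some]
    exact dbl_short W h.1 hy

/-- A nonzero point of order five has `ψ₅(X) = 0`. -/
theorem ps5_of_five_smul {P : W.Point} (hP : P ≠ 0) (h5 : (5 : ℤ) • P = 0) :
    ps5 (xs W P) (sA W) (sB W) = 0 ∧ q (xs W P) (sA W) (sB W) ≠ 0 ∧ p (xs W P) (sA W) (sB W) ≠ 0
      ∧ P + P ≠ 0 ∧ xs W (P + P) = dbl (xs W P) (sA W) (sB W) := by
  have h2 : P + P ≠ 0 := fun h => hP (by linear_combination (norm := module) h5 - (2 : ℤ) • h)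
  have hq : q (xs W P) (sA W) (sB W) ≠ 0 := fun h => h2 ((add_self_eq_zero_iff W hP).2 h)
  have hx2 := xs_add_self W hP hq
  have h4 : (P + P) + (P + P) ≠ 0 := fun h => hP (by linear_combination (norm := module) h5 - h)
  have hq2 : q (xs W (P + P)) (sA W) (sB W) ≠ 0 := fun h => h4 ((add_self_eq_zero_iff W h2).2 h)
  have hx4 := xs_add_self W h2 hq2
  have h4' : (P + P) + (P + P) = -P := by linear_combination (norm := module) h5
  rw [h4', xs_neg, hx2] at hx4
  rw [hx2] at hq2
  have hp := p_ne_zero_of_q_dbl_ne_zero hq hq2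
  have h3 : ps3 (xs W P) (sA W) (sB W) ≠ 0 := by
    intro h3
    have h0 : dbl (xs W P) (sA W) (sB W) - xs W P = 0 := by
      rw [dbl_sub hq, h3, neg_zero, zero_div]
    have hxx : xs W (P + P) = xs W P := by rw [hx2]; exact sub_eq_zero.mp h0
    rcases eq_or_eq_neg_of_xs_eq W h2 hP hxx with h | h
    · exact hP (by linear_combination (norm := module) h)
    · exact hP (by linear_combination (norm := module) (2 : ℤ) • h - h5)
  exact ⟨ps5_of_dbl_dbl hq hp h3 hx4.symm, hq, hp, h2, hx2⟩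

end point

section poly

variable {F : Type*} [Field F]

/-- The fifth division polynomial of the short form, as a polynomial. -/
noncomputable def ps5Poly (A B : F) : F[X] :=
  C 5 * X ^ 12 + C (62 * A) * X ^ 10 + C (380 * B) * X ^ 9 - C (105 * A ^ 2) * X ^ 8
    + C (240 * A * B) * X ^ 7 - C (300 * A ^ 3 + 240 * B ^ 2) * X ^ 6 - C (696 * A ^ 2 * B) * X ^ 5
    - C (125 * A ^ 4 + 1920 * A * B ^ 2) * X ^ 4 - C (80 * A ^ 3 * B + 1600 * B ^ 3) * X ^ 3
    - C (50 * A ^ 5 + 240 * A ^ 2 * B ^ 2) * X ^ 2 - C (100 * A ^ 4 * B + 640 * A * B ^ 3) * X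
    + C (A ^ 6 - 32 * A ^ 3 * B ^ 2 - 256 * B ^ 4)

lemma eval_ps5Poly (x A B : F) : (ps5Poly A B).eval x = ps5 x A B := by
  simp only [ps5Poly, ps5, p, q, ps3, eval_add, eval_sub, eval_mul, eval_pow, eval_C, eval_X]
  ring

lemma natDegree_ps5Poly [CharZero F] (A B : F) : (ps5Poly A B).natDegree = 12 := by
  unfold ps5Poly
  compute_degree!

lemma ps5Poly_ne_zero [CharZero F] (A B : F) : ps5Poly A B ≠ 0 := by
  intro h
  have := natDegree_ps5Poly A B
  rw [h] at this
  simp at this

end poly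

section exist

variable {F : Type*} [Field F] [CharZero F] [DecidableEq F] (W : Affine F)

omit [DecidableEq F] in
lemma d0_ne_zero (hΔ : W.Δ ≠ 0) : d0 (sA W) (sB W) ≠ 0 := by
  intro h
  apply hΔ
  rw [← delta_short, h, mul_zero]

omit [CharZero F] [DecidableEq F] in
/-- Over an algebraically closed field, every `x` is the abscissa of a point of the curve. -/
theorem exists_y_eq [IsAlgClosed F] (x : F) : ∃ y : F, W.Equation x y := by
  obtain ⟨y, hy⟩ := IsAlgClosed.exists_root
    (X ^ 2 + C (W.a₁ * x + W.a₃) * X - C (x ^ 3 + W.a₂ * x ^ 2 + W.a₄ * x + W.a₆) : F[X])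
    (by
      have : (X ^ 2 + C (W.a₁ * x + W.a₃) * X - C (x ^ 3 + W.a₂ * x ^ 2 + W.a₄ * x + W.a₆)
          : F[X]).degree = 2 := by
        compute_degree!
      rw [this]; norm_num)
  refine ⟨y, ?_⟩
  rw [equation_iff]
  simp only [IsRoot.def, eval_sub, eval_add, eval_pow, eval_X, eval_mul, eval_C] at hy
  linear_combination hy

/-- Over an algebraically closed field of characteristic zero there is a point of order five. -/
theorem exists_five_torsion [IsAlgClosed F] (hΔ : W.Δ ≠ 0) :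
    ∃ P : W.Point, P ≠ 0 ∧ (5 : ℤ) • P = 0 := by
  obtain ⟨X₀, hX₀⟩ := IsAlgClosed.exists_root (ps5Poly (sA W) (sB W)) (by
    rw [degree_eq_natDegree (ps5Poly_ne_zero _ _), natDegree_ps5Poly]; norm_num)
  rw [IsRoot.def, eval_ps5Poly] at hX₀
  obtain ⟨y, hy⟩ := exists_y_eq W (X₀ - W.b₂ / 12)
  have hns := (equation_iff_nonsingular_of_Δ_ne_zero hΔ).1 hy
  have hP : (Point.some _ _ hns : W.Point) ≠ 0 := Point.some_ne_zero hns
  have hxs : xs W (Point.some _ _ hns) = X₀ := by
    rw [xs_some, sX]; ring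
  generalize (Point.some _ _ hns : W.Point) = P at hP hxs
  have hd := d0_ne_zero W hΔ
  rw [← hxs] at hX₀
  obtain ⟨hq, hp, h3⟩ := ne_zero_of_ps5 hd hX₀
  have h2 : P + P ≠ 0 := fun h => hq ((add_self_eq_zero_iff W hP).1 h)
  have hx2 := xs_add_self W hP hq
  have hq2 : q (xs W (P + P)) (sA W) (sB W) ≠ 0 := by
    rw [hx2]; exact q_dbl_ne_zero hq hp
  have h4 : (P + P) + (P + P) ≠ 0 := fun h => hq2 ((add_self_eq_zero_iff W h2).1 h)
  have hx4 := xs_add_self W h2 hq2
  rw [hx2, dbl_dbl_of_ps5 hq hp hX₀] at hx4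
  refine ⟨P, hP, ?_⟩
  rcases eq_or_eq_neg_of_xs_eq W h4 hP hx4 with h | h
  · exfalso
    have h' : P + P = -P := by linear_combination (norm := module) h
    have hxx : xs W (P + P) = xs W P := by rw [h', xs_neg]
    rw [hx2] at hxx
    have h0 := dbl_sub (A := sA W) (B := sB W) hq
    rw [hxx, sub_self] at h0
    have h0' := h0.symm
    rw [div_eq_zero_iff] at h0'
    rcases h0' with h0' | h0'
    · exact h3 (neg_eq_zero.mp h0')
    · exact hq h0'
  · linear_combination (norm := module) h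

/-- There are at most `25` points killed by five. -/
theorem card_five_torsion_le (s : Finset W.Point) (hs : ∀ P ∈ s, (5 : ℤ) • P = 0) :
    s.card ≤ 25 := by
  classical
  have hRcard : (ps5Poly (sA W) (sB W)).roots.toFinset.card ≤ 12 := by
    calc (ps5Poly (sA W) (sB W)).roots.toFinset.card
        ≤ Multiset.card (ps5Poly (sA W) (sB W)).roots := Multiset.toFinset_card_le _
      _ ≤ (ps5Poly (sA W) (sB W)).natDegree := card_roots' _
      _ = 12 := natDegree_ps5Poly _ _
  have hmem : ∀ P ∈ s.erase 0, P ≠ 0 ∧ (5 : ℤ) • P = 0 := fun P hP =>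
    ⟨Finset.ne_of_mem_erase hP, hs P (Finset.mem_of_mem_erase hP)⟩
  have himg : (s.erase 0).image (xs W) ⊆ (ps5Poly (sA W) (sB W)).roots.toFinset := by
    intro a ha
    obtain ⟨P, hP, rfl⟩ := Finset.mem_image.1 ha
    obtain ⟨hP0, hP5⟩ := hmem P hP
    rw [Multiset.mem_toFinset, mem_roots (ps5Poly_ne_zero _ _), IsRoot.def, eval_ps5Poly]
    exact (ps5_of_five_smul W hP0 hP5).1
  have hfib : ∀ a ∈ (s.erase 0).image (xs W),
      ((s.erase 0).filter fun P => xs W P = a).card ≤ 2 := by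
    intro a ha
    obtain ⟨P₀, hP₀, rfl⟩ := Finset.mem_image.1 ha
    have hsub : ((s.erase 0).filter fun P => xs W P = xs W P₀) ⊆ {P₀, -P₀} := by
      intro P hP
      rw [Finset.mem_filter] at hP
      rcases eq_or_eq_neg_of_xs_eq W (hmem P hP.1).1 (hmem P₀ hP₀).1 hP.2 with h | h
      · simp [h]
      · simp [h]
    exact (Finset.card_le_card hsub).trans Finset.card_le_two
  have h1 := Finset.card_le_mul_card_image (s.erase 0) 2 hfib
  have h2 : ((s.erase 0).image (xs W)).card ≤ 12 := (Finset.card_le_card himg).trans hRcard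
  have h3 : s.card - 1 ≤ (s.erase 0).card := Finset.pred_card_le_card_erase
  omega

theorem finite_five_torsion :
    Finite (Submodule.torsionBy ℤ W.Point ((5 : ℕ) : ℤ)) ∧
      Nat.card (Submodule.torsionBy ℤ W.Point ((5 : ℕ) : ℤ)) ≤ 25 := by
  classical
  have key : ∀ s : Finset (Submodule.torsionBy ℤ W.Point ((5 : ℕ) : ℤ)), s.card ≤ 25 := by
    intro s
    have h := card_five_torsion_le W (s.map ⟨Subtype.val, Subtype.val_injective⟩) (by
      intro P hP
      rw [Finset.mem_map] at hP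
      obtain ⟨Q, -, rfl⟩ := hP
      have := Q.2
      rw [Submodule.mem_torsionBy_iff] at this
      exact this)
    rwa [Finset.card_map] at h
  have hfin : Finite (Submodule.torsionBy ℤ W.Point ((5 : ℕ) : ℤ)) := by
    by_contra hinf
    rw [not_finite_iff_infinite] at hinf
    obtain ⟨s, hs⟩ := Infinite.exists_subset_card_eq
      (Submodule.torsionBy ℤ W.Point ((5 : ℕ) : ℤ)) 26
    have := key s
    omega
  refine ⟨hfin, ?_⟩
  let _ := Fintype.ofFinite (Submodule.torsionBy ℤ W.Point ((5 : ℕ) : ℤ))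
  rw [Nat.card_eq_fintype_card]
  exact key Finset.univ

end exist

section line

/-- In a vector space over `𝔽₅` with at most `25` elements, a proper subspace is at most a
line. -/
theorem exists_smul_of_card_le {V : Type*} [AddCommGroup V] [Module (ZMod 5) V] [Finite V]
    (hcard : Nat.card V ≤ 25) (N : Submodule (ZMod 5) V) (htop : N ≠ ⊤) {v w : V}
    (hv : v ∈ N) (hv0 : v ≠ 0) (hw : w ∈ N) : ∃ c : ZMod 5, w = c • v := by
  have : Fact (Nat.Prime 5) := ⟨by norm_num⟩
  let _ := Fintype.ofFinite V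
  have h1 : Fintype.card V = 5 ^ Module.finrank (ZMod 5) V := by
    rw [Module.card_eq_pow_finrank (K := ZMod 5), ZMod.card]
  have h2 : Module.finrank (ZMod 5) V ≤ 2 := by
    by_contra h
    push Not at h
    have h' : 5 ^ 3 ≤ 5 ^ Module.finrank (ZMod 5) V := Nat.pow_le_pow_right (by norm_num) h
    rw [Nat.card_eq_fintype_card] at hcard
    omega
  have h3 : Module.finrank (ZMod 5) N < Module.finrank (ZMod 5) V := Submodule.finrank_lt htop
  have h4 : 0 < Module.finrank (ZMod 5) N :=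
    Module.finrank_pos_iff_exists_ne_zero.2 ⟨⟨v, hv⟩, fun h => hv0 (congrArg Subtype.val h)⟩
  have h5 : Module.finrank (ZMod 5) N = 1 := by omega
  obtain ⟨c, hc⟩ := (finrank_eq_one_iff_of_nonzero' (⟨v, hv⟩ : N)
    (fun h => hv0 (congrArg Subtype.val h))).1 h5 ⟨w, hw⟩
  exact ⟨c, (congrArg Subtype.val hc).symm⟩

end line

end Fermat.Agent.S51.Five
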