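import Mathlib
import Fermat.Agent.S51.Basic
import Fermat.Agent.S51.FivePoint

/-!
# S51, 5-side: a reducible mod-5 representation gives a rational point on `X₀(5)`
-/

set_option autoImplicit false

open WeierstrassCurve WeierstrassCurve.Affine Polynomial

namespace Fermat.Agent.S51.Five

section maps

variable {K L : Type*} [Field K] [Field L]

lemma map_fricke (f : K →+* L) (X A B : K) :
    f (fricke X A B) = fricke (f X) (f A) (f B) := by
  simp only [fricke, q, p, d0, map_div₀, map_mul, map_pow, map_add, map_sub, map_neg, map_ofNat]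

end maps

section galois

local notation "Qb" => AlgebraicClosure ℚ
local notation "Γ" => (AlgebraicClosure ℚ ≃ₐ[ℚ] AlgebraicClosure ℚ)

variable (E : Affine ℚ)

lemma bc_Δ_ne_zero (hΔ : E.Δ ≠ 0) : (E⁄Qb).Δ ≠ 0 := by
  simp only [WeierstrassCurve.baseChange, map_Δ]
  exact (map_ne_zero (algebraMap ℚ Qb)).2 hΔ

lemma sigma_b₂ (σ : Γ) : σ ((E⁄Qb).b₂) = (E⁄Qb).b₂ := by
  simp only [WeierstrassCurve.baseChange, map_b₂]
  exact σ.commutes _

lemma sigma_sA (σ : Γ) : σ (sA (E⁄Qb)) = sA (E⁄Qb) := by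
  have h : σ ((E⁄Qb).c₄) = (E⁄Qb).c₄ := by
    simp only [WeierstrassCurve.baseChange, map_c₄]
    exact σ.commutes _
  simp only [sA, map_div₀, map_neg, map_ofNat, h]

lemma sigma_sB (σ : Γ) : σ (sB (E⁄Qb)) = sB (E⁄Qb) := by
  have h : σ ((E⁄Qb).c₆) = (E⁄Qb).c₆ := by
    simp only [WeierstrassCurve.baseChange, map_c₆]
    exact σ.commutes _
  simp only [sB, map_div₀, map_neg, map_ofNat, h]

/-- The short-form abscissa of a Galois conjugate is the conjugate of the abscissa. -/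
lemma xs_smul (σ : Γ) (P : (E⁄Qb).Point) (hP : P ≠ 0) :
    xs (E⁄Qb) (σ • P) = σ (xs (E⁄Qb) P) := by
  rcases P with _ | ⟨x, y, hxy⟩
  · exact absurd rfl hP
  · have h1 : σ • (Point.some x y hxy : (E⁄Qb).Point)
        = Point.some (σ x) (σ y) ((Fermat.Agent.S51.smul_some E σ hxy).choose) :=
      (Fermat.Agent.S51.smul_some E σ hxy).choose_spec
    rw [h1, xs_some, xs_some, sX, sX, map_add, map_div₀, sigma_b₂, map_ofNat]

/-- If the mod-5 representation is not irreducible, the Fricke parameter of a stable line is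
rational and satisfies the `j`-identity. -/
theorem exists_rat_fricke (hΔ : E.Δ ≠ 0)
    (h : ¬ Affine.Point.GaloisRepIsIrreducible (K := Qb) ℚ E 5) :
    ∃ s : ℚ, s ≠ 0 ∧ E.c₄ ^ 3 * s = (s ^ 2 + 10 * s + 5) ^ 3 * E.Δ := by
  have hΔK := bc_Δ_ne_zero E hΔ
  obtain ⟨P, hP0, hP5⟩ := exists_five_torsion (E⁄Qb) hΔK
  have hPmem : P ∈ Submodule.torsionBy ℤ (E⁄Qb).Point ((5 : ℕ) : ℤ) := by
    rw [Submodule.mem_torsionBy_iff]; exact_mod_cast hP5
  have hnt : Nontrivial (Submodule.torsionBy ℤ (E⁄Qb).Point ((5 : ℕ) : ℤ)) :=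
    ⟨⟨⟨P, hPmem⟩, 0, fun h0 => hP0 (congrArg Subtype.val h0)⟩⟩
  unfold Affine.Point.GaloisRepIsIrreducible at h
  push Not at h
  obtain ⟨N, hNstable, hNbot, hNtop⟩ := h hnt
  obtain ⟨v, hvN, hv0⟩ := (Submodule.ne_bot_iff N).1 hNbot
  have hQ0 : (v : (E⁄Qb).Point) ≠ 0 := fun h0 => hv0 (Subtype.ext h0)
  have hQ5 : (5 : ℤ) • (v : (E⁄Qb).Point) = 0 := by
    have := v.2
    rw [Submodule.mem_torsionBy_iff] at this
    exact_mod_cast this
  obtain ⟨hfin, hcard⟩ := finite_five_torsion (E⁄Qb)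
  obtain ⟨h5, hq, hp, h2, hx2⟩ := ps5_of_five_smul (E⁄Qb) hQ0 hQ5
  have hd := d0_ne_zero (E⁄Qb) hΔK
  -- the Fricke parameter is Galois invariant
  have hfix : ∀ σ : Γ, σ (fricke (xs (E⁄Qb) v) (sA (E⁄Qb)) (sB (E⁄Qb)))
      = fricke (xs (E⁄Qb) v) (sA (E⁄Qb)) (sB (E⁄Qb)) := by
    intro σ
    have hσ := map_fricke (σ : Qb →+* Qb) (xs (E⁄Qb) v) (sA (E⁄Qb)) (sB (E⁄Qb))
    simp only [RingHom.coe_coe] at hσ
    rw [hσ, sigma_sA, sigma_sB, ← xs_smul E σ _ hQ0]
    obtain ⟨c, hc⟩ := exists_smul_of_card_le hcard N hNtop hvN hv0 (hNstable σ v hvN)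
    have hc' : σ • (v : (E⁄Qb).Point) = c.val • (v : (E⁄Qb).Point) := by
      have e1 : c • v = c.val • v := by
        rw [← Nat.cast_smul_eq_nsmul (ZMod 5), ZMod.natCast_zmod_val]
      have e2 : σ • (v : (E⁄Qb).Point)
          = ((c.val • v : Submodule.torsionBy ℤ (E⁄Qb).Point ((5 : ℕ) : ℤ)) : (E⁄Qb).Point) := by
        rw [← e1]; exact congrArg Subtype.val hc
      have e3 : ((c.val • v : Submodule.torsionBy ℤ (E⁄Qb).Point ((5 : ℕ) : ℤ)) : (E⁄Qb).Point)
          = c.val • (v : (E⁄Qb).Point) := by simp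
      exact e2.trans e3
    have hlt : c.val < 5 := ZMod.val_lt c
    rw [hc']
    generalize c.val = k at hc' hlt
    interval_cases k
    · exfalso
      rw [zero_smul] at hc'
      apply hQ0
      have h1 : σ⁻¹ • (σ • (v : (E⁄Qb).Point)) = σ⁻¹ • (0 : (E⁄Qb).Point) := by rw [hc']
      rw [inv_smul_smul] at h1
      exact h1.trans (Fermat.Agent.S51.smul_zero_point E σ⁻¹)
    · rw [one_smul]
    · have e : 2 • (v : (E⁄Qb).Point) = v + v := two_nsmul _
      rw [e, hx2]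
      exact fricke_dbl hq hp h5
    · have e : 3 • (v : (E⁄Qb).Point) = -((v : (E⁄Qb).Point) + v) := by
        linear_combination (norm := module) hQ5
      rw [e, xs_neg, hx2]
      exact fricke_dbl hq hp h5
    · have e : 4 • (v : (E⁄Qb).Point) = -(v : (E⁄Qb).Point) := by
        linear_combination (norm := module) hQ5
      rw [e, xs_neg]
  obtain ⟨s, hs⟩ := Fermat.Agent.S51.exists_rat_of_fixed _ hfix
  have hne := fricke_ne_zero (X := xs (E⁄Qb) v) hd hq hp
  have hj := fricke_j (X := xs (E⁄Qb) v) (A := sA (E⁄Qb)) (B := sB (E⁄Qb)) hp h5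
  rw [c4_short, delta_short, ← hs] at hj
  rw [← hs] at hne
  refine ⟨s, fun h0 => hne (by rw [h0, map_zero]), ?_⟩
  apply (algebraMap ℚ Qb).injective
  have hc4 : (E⁄Qb).c₄ = algebraMap ℚ Qb E.c₄ := by
    simp only [WeierstrassCurve.baseChange, map_c₄]
  have hΔ' : (E⁄Qb).Δ = algebraMap ℚ Qb E.Δ := by
    simp only [WeierstrassCurve.baseChange, map_Δ]
  rw [hc4, hΔ'] at hj
  simp only [map_mul, map_pow, map_add, map_ofNat]
  exact hj

end galois

end Fermat.Agent.S51.Five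

namespace Fermat.Agent.S51

/-- **5-side of S51.** If the mod-5 representation of `W` is not irreducible, the
`j`-invariant is of the form `(s² + 10 s + 5)³ / s` with `s` rational and nonzero. -/
theorem exists_s_of_not_irr_five (W : WeierstrassCurve ℤ) (hΔ : W.Δ ≠ 0)
    (h : ¬ W.ModRepIsIrreducible 5) :
    ∃ s : ℚ, s ≠ 0 ∧ (W.c₄ : ℚ) ^ 3 * s = (s ^ 2 + 10 * s + 5) ^ 3 * (W.Δ : ℚ) := by
  have hΔ' : (W.map (Int.castRingHom ℚ)).Δ ≠ 0 := by
    rw [map_Δ]
    simpa using hΔ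
  obtain ⟨s, hs0, hs⟩ := Five.exists_rat_fricke (W.map (Int.castRingHom ℚ)).toAffine hΔ' h
  refine ⟨s, hs0, ?_⟩
  rw [map_c₄, map_Δ] at hs
  simpa using hs

end Fermat.Agent.S51
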