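import Mathlib

/-!
# Square classes on `y² = x (x + 9) (x - 16)`  (helper19, S51 descent, piece (i))

For a rational point `(x, y)` with `y ≠ 0` on the curve `y² = x (x + 9) (x - 16)`, the triple of
square classes of `(x, x + 9, x - 16)` is one of
`(1, 1, 1)`, `(-1, 1, -1)`, `(-1, 5, -5)`, `(1, 5, 5)`.

Main results: `Fermat.Agent.S51.Classes.int_classes` (integral form) and
`Fermat.Agent.S51.Classes.classes` (rational form).
-/

namespace Fermat.Agent.S51.Classes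

/-! ### Elementary helpers -/

/-- A squarefree factor of a product which is a square divides the product of the two gcd
bounds. -/
lemma sf_dvd {a1 a2 a3 w g2 g3 : ℕ} (hsf : Squarefree a1) (h : a1 * a2 * a3 = w ^ 2)
    (h2 : Nat.gcd a1 a2 ∣ g2) (h3 : Nat.gcd a1 a3 ∣ g3) : a1 ∣ g2 * g3 := by
  have h0 : a1 ≠ 0 := hsf.ne_zero
  have hw : a1 ∣ w := by
    rw [← hsf.dvd_pow_iff_dvd (two_ne_zero)]
    exact ⟨a2 * a3, by rw [← h]; ring⟩
  obtain ⟨w', rfl⟩ := hw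
  have h23 : a2 * a3 = a1 * w' ^ 2 := by
    have : a1 * (a2 * a3) = a1 * (a1 * w' ^ 2) := by rw [← mul_assoc, h]; ring
    exact Nat.eq_of_mul_eq_mul_left (Nat.pos_of_ne_zero h0) this
  have hd : a1 ∣ a2 * a3 := ⟨w' ^ 2, h23⟩
  have := Nat.dvd_gcd_mul_gcd_iff_dvd_mul.mpr hd
  exact this.trans (Nat.mul_dvd_mul h2 h3)

lemma coprime_dvd_of_dvd_mul_sq {m e d k : ℤ} (hc : IsCoprime m e) (hd : d ∣ m)
    (hk : d ∣ k * e ^ 2) : d ∣ k := by
  have : IsCoprime d (e ^ 2) := (hc.of_isCoprime_of_dvd_left hd).pow_right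
  exact this.dvd_of_dvd_mul_right hk

lemma not_dvd_of_coprime {p m e : ℤ} (hp : ¬ IsUnit p) (hc : IsCoprime m e) (hm : p ∣ m) :
    ¬ p ∣ e := fun he => hp (hc.isUnit_of_dvd' hm he)

lemma dvd_six {a : ℕ} (h : a ∣ 6) : a = 1 ∨ a = 2 ∨ a = 3 ∨ a = 6 := by
  have : a ≤ 6 := Nat.le_of_dvd (by norm_num) h
  interval_cases a <;> revert h <;> decide

lemma dvd_fifteen {a : ℕ} (h : a ∣ 15) : a = 1 ∨ a = 3 ∨ a = 5 ∨ a = 15 := by
  have : a ≤ 15 := Nat.le_of_dvd (by norm_num) h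
  interval_cases a <;> revert h <;> decide

lemma dvd_ten {a : ℕ} (h : a ∣ 10) : a = 1 ∨ a = 2 ∨ a = 5 ∨ a = 10 := by
  have : a ≤ 10 := Nat.le_of_dvd (by norm_num) h
  interval_cases a <;> revert h <;> decide

lemma triples {a1 a2 a3 w : ℕ} (h1 : a1 ∣ 6) (h2 : a2 ∣ 15) (h3 : a3 ∣ 10)
    (hw : a1 * a2 * a3 = w ^ 2) :
    (a1 = 1 ∧ a2 = 1 ∧ a3 = 1) ∨ (a1 = 1 ∧ a2 = 5 ∧ a3 = 5) ∨
    (a1 = 2 ∧ a2 = 1 ∧ a3 = 2) ∨ (a1 = 2 ∧ a2 = 5 ∧ a3 = 10) ∨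
    (a1 = 3 ∧ a2 = 3 ∧ a3 = 1) ∨ (a1 = 3 ∧ a2 = 15 ∧ a3 = 5) ∨
    (a1 = 6 ∧ a2 = 3 ∧ a3 = 2) ∨ (a1 = 6 ∧ a2 = 15 ∧ a3 = 10) := by
  have hsq : IsSquare (a1 * a2 * a3) := ⟨w, by rw [hw, sq]⟩
  rcases dvd_six h1 with rfl | rfl | rfl | rfl <;>
  rcases dvd_fifteen h2 with rfl | rfl | rfl | rfl <;>
  rcases dvd_ten h3 with rfl | rfl | rfl | rfl <;>
  first
  | (exfalso; revert hsq; norm_num; done)
  | simp

lemma pos_int_decomp {n : ℤ} (hn : 0 < n) :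
    ∃ a b : ℕ, Squarefree a ∧ b ≠ 0 ∧ n = (a : ℤ) * (b : ℤ) ^ 2 := by
  obtain ⟨a, b, hab, hsf⟩ := Nat.sq_mul_squarefree n.toNat
  have hcast : ((n.toNat : ℕ) : ℤ) = n := Int.toNat_of_nonneg hn.le
  refine ⟨a, b, hsf, ?_, ?_⟩
  · rintro rfl
    simp at hab
    omega
  · rw [← hcast, ← hab]; push_cast; ring

lemma signs {m e u : ℤ} (hu : u ≠ 0)
    (h : u ^ 2 = m * (m + 9 * e ^ 2) * (m - 16 * e ^ 2)) :
    (0 < m ∧ 0 < m + 9 * e ^ 2 ∧ 0 < m - 16 * e ^ 2) ∨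
    (m < 0 ∧ 0 < m + 9 * e ^ 2 ∧ m - 16 * e ^ 2 < 0) := by
  have hpos : 0 < m * (m + 9 * e ^ 2) * (m - 16 * e ^ 2) := by rw [← h]; positivity
  have he : 0 ≤ e ^ 2 := sq_nonneg e
  rcases lt_trichotomy m 0 with hm | hm | hm
  · right
    have hB : m - 16 * e ^ 2 < 0 := by linarith
    refine ⟨hm, ?_, hB⟩
    by_contra hA
    rw [not_lt] at hA
    have h1 : 0 ≤ m * (m + 9 * e ^ 2) := mul_nonneg_of_nonpos_of_nonpos hm.le hA
    have h2 : m * (m + 9 * e ^ 2) * (m - 16 * e ^ 2) ≤ 0 :=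
      mul_nonpos_of_nonneg_of_nonpos h1 hB.le
    linarith
  · subst hm; simp at hpos
  · left
    have hA : 0 < m + 9 * e ^ 2 := by linarith
    refine ⟨hm, hA, ?_⟩
    exact (mul_pos_iff_of_pos_left (mul_pos hm hA)).mp hpos

/-! ### Local exclusions -/

lemma three_dvd_of_zmod9 {e : ℤ} (h : (3 : ZMod 9) * (e : ZMod 9) = 0) : (3 : ℤ) ∣ e := by
  have h' : (((3 * e : ℤ)) : ZMod 9) = 0 := by push_cast; exact h
  rw [ZMod.intCast_zmod_eq_zero_iff_dvd] at h'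
  have h9 : ((9 : ℕ) : ℤ) = 9 := by norm_num
  rw [h9] at h'
  omega

lemma zmod9_of_three_dvd {b : ℤ} (h : (3 : ℤ) ∣ b) : (3 : ZMod 9) * (b : ZMod 9) = 0 := by
  obtain ⟨c, rfl⟩ := h
  push_cast
  rw [← mul_assoc]
  have : (3 : ZMod 9) * 3 = 0 := by decide
  rw [this, zero_mul]

lemma zmod_ne_zero_of_not_dvd (n : ℕ) [NeZero n] {b : ℤ} (h : ¬ (n : ℤ) ∣ b) :
    (b : ZMod n) ≠ 0 := fun h0 => h ((ZMod.intCast_zmod_eq_zero_iff_dvd b n).mp h0)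

/-- The classes with `3 ∣ d₁` do not occur. -/
lemma excl_three {ε a1' a2' : ℤ} (hε : ε = 1 ∨ ε = -1) (h1 : a1' = 1 ∨ a1' = 2)
    (h2 : a2' = 1 ∨ a2' = 5) {m e b1 b2 b3 : ℤ} (hc : IsCoprime m e)
    (hM : m = ε * (3 * a1') * b1 ^ 2) (hA : m + 9 * e ^ 2 = 3 * a2' * b2 ^ 2)
    (hB : m - 16 * e ^ 2 = ε * (a1' * a2') * b3 ^ 2) : False := by
  have h3 : ¬ IsUnit (3 : ℤ) := by decide
  have he : ¬ (3 : ℤ) ∣ e :=
    not_dvd_of_coprime h3 hc ⟨ε * a1' * b1 ^ 2, by rw [hM]; ring⟩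
  have E1 : a2' * b2 ^ 2 - ε * a1' * b1 ^ 2 = 3 * e ^ 2 := by
    rw [hM] at hA; linarith
  have E2 : ε * (3 * a1') * b1 ^ 2 - ε * (a1' * a2') * b3 ^ 2 = 16 * e ^ 2 := by
    rw [hM] at hB; linarith
  have hb1 : ¬ (3 : ℤ) ∣ b1 := by
    intro hb
    apply he
    apply three_dvd_of_zmod9
    have hb' := zmod9_of_three_dvd hb
    have E1' := congrArg (Int.cast : ℤ → ZMod 9) E1
    rcases hε with rfl | rfl <;> rcases h1 with rfl | rfl <;> rcases h2 with rfl | rfl <;>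
    · push_cast at E1'
      revert E1' hb'
      generalize (b1 : ZMod 9) = B1
      generalize (b2 : ZMod 9) = B2
      generalize (e : ZMod 9) = E
      revert B1 B2 E
      decide
  have he3 : (e : ZMod 3) ≠ 0 := zmod_ne_zero_of_not_dvd 3 (by exact_mod_cast he)
  have hb3 : (b1 : ZMod 3) ≠ 0 := zmod_ne_zero_of_not_dvd 3 (by exact_mod_cast hb1)
  have E1' := congrArg (Int.cast : ℤ → ZMod 3) E1
  have E2' := congrArg (Int.cast : ℤ → ZMod 3) E2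
  rcases hε with rfl | rfl <;> rcases h1 with rfl | rfl <;> rcases h2 with rfl | rfl <;>
  · push_cast at E1' E2'
    revert E1' E2' he3 hb3
    generalize (b1 : ZMod 3) = B1
    generalize (b2 : ZMod 3) = B2
    generalize (b3 : ZMod 3) = B3
    generalize (e : ZMod 3) = E
    revert B1 B2 B3 E
    decide

/-- The class `d₁ = ±2`, `d₂ = 5` does not occur. -/
lemma excl_two_five {ε : ℤ} (hε : ε = 1 ∨ ε = -1) {m e b1 b2 : ℤ} (hc : IsCoprime m e)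
    (hM : m = ε * 2 * b1 ^ 2) (hA : m + 9 * e ^ 2 = 5 * b2 ^ 2) : False := by
  have E1 : 5 * b2 ^ 2 - ε * 2 * b1 ^ 2 = 9 * e ^ 2 := by
    rw [hM] at hA; linarith
  have E1' := congrArg (Int.cast : ℤ → ZMod 5) E1
  have key : (b1 : ZMod 5) = 0 ∧ (e : ZMod 5) = 0 := by
    rcases hε with rfl | rfl <;>
    · push_cast at E1'
      revert E1'
      generalize (b1 : ZMod 5) = B1
      generalize (b2 : ZMod 5) = B2
      generalize (e : ZMod 5) = E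
      revert B1 B2 E
      decide
  have hb : (5 : ℤ) ∣ b1 := by
    have := (ZMod.intCast_zmod_eq_zero_iff_dvd b1 5).mp key.1
    exact_mod_cast this
  have he : (5 : ℤ) ∣ e := by
    have := (ZMod.intCast_zmod_eq_zero_iff_dvd e 5).mp key.2
    exact_mod_cast this
  have h5 : ¬ IsUnit (5 : ℤ) := by decide
  refine not_dvd_of_coprime h5 hc ?_ he
  rw [hM]
  exact Dvd.dvd.mul_left (dvd_pow hb two_ne_zero) _

/-- The class `d₁ = ±2`, `d₂ = 1` does not occur. -/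
lemma excl_two_one {ε : ℤ} (hε : ε = 1 ∨ ε = -1) {m e b1 b2 b3 : ℤ} (hc : IsCoprime m e)
    (hM : m = ε * 2 * b1 ^ 2) (hA : m + 9 * e ^ 2 = 1 * b2 ^ 2)
    (hB : m - 16 * e ^ 2 = ε * 2 * b3 ^ 2) : False := by
  have h2 : ¬ IsUnit (2 : ℤ) := by decide
  have he : ¬ (2 : ℤ) ∣ e :=
    not_dvd_of_coprime h2 hc ⟨ε * b1 ^ 2, by rw [hM]; ring⟩
  have E1 : b2 ^ 2 - ε * 2 * b1 ^ 2 = 9 * e ^ 2 := by
    rw [hM] at hA; linarith
  have E2 : b1 ^ 2 - b3 ^ 2 = 8 * ε * e ^ 2 := by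
    rw [hM] at hB
    rcases hε with rfl | rfl <;> linarith
  -- `b1` is even
  have he8 : (4 : ZMod 8) * (e : ZMod 8) ≠ 0 := by
    intro h
    apply he
    have h' : (((4 * e : ℤ)) : ZMod 8) = 0 := by push_cast; exact h
    rw [ZMod.intCast_zmod_eq_zero_iff_dvd] at h'
    have h8 : ((8 : ℕ) : ℤ) = 8 := by norm_num
    rw [h8] at h'
    omega
  have hb8 : (4 : ZMod 8) * (b1 : ZMod 8) = 0 := by
    have E1' := congrArg (Int.cast : ℤ → ZMod 8) E1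
    rcases hε with rfl | rfl <;>
    · push_cast at E1'
      revert E1' he8
      generalize (b1 : ZMod 8) = B1
      generalize (b2 : ZMod 8) = B2
      generalize (e : ZMod 8) = E
      revert B1 B2 E
      decide
  have hb : (2 : ℤ) ∣ b1 := by
    have h' : (((4 * b1 : ℤ)) : ZMod 8) = 0 := by push_cast; exact hb8
    rw [ZMod.intCast_zmod_eq_zero_iff_dvd] at h'
    have h8 : ((8 : ℕ) : ℤ) = 8 := by norm_num
    rw [h8] at h'
    omega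
  -- now work modulo 16
  have he16 : (8 : ZMod 16) * (e : ZMod 16) ≠ 0 := by
    intro h
    apply he
    have h' : (((8 * e : ℤ)) : ZMod 16) = 0 := by push_cast; exact h
    rw [ZMod.intCast_zmod_eq_zero_iff_dvd] at h'
    have h16 : ((16 : ℕ) : ℤ) = 16 := by norm_num
    rw [h16] at h'
    omega
  have hb16 : (8 : ZMod 16) * (b1 : ZMod 16) = 0 := by
    obtain ⟨c, rfl⟩ := hb
    push_cast
    rw [← mul_assoc]
    have : (8 : ZMod 16) * 2 = 0 := by decide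
    rw [this, zero_mul]
  have E2' := congrArg (Int.cast : ℤ → ZMod 16) E2
  rcases hε with rfl | rfl <;>
  · push_cast at E2'
    revert E2' he16 hb16
    generalize (b1 : ZMod 16) = B1
    generalize (b3 : ZMod 16) = B3
    generalize (e : ZMod 16) = E
    revert B1 B3 E
    decide

/-! ### The integral statement -/

/-- Integral form of the square-class lemma: if `u² = m (m + 9e²) (m - 16e²)` with `u ≠ 0` and
`m, e` coprime, then `m = ε r²`, `m + 9 e² = δ s²`, `m - 16 e² = ε δ t²` with `ε = ±1` and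
`δ ∈ {1, 5}`. -/
theorem int_classes {m e u : ℤ} (hc : IsCoprime m e) (hu : u ≠ 0)
    (h : u ^ 2 = m * (m + 9 * e ^ 2) * (m - 16 * e ^ 2)) :
    ∃ ε δ r s t : ℤ, (ε = 1 ∨ ε = -1) ∧ (δ = 1 ∨ δ = 5) ∧ m = ε * r ^ 2 ∧
      m + 9 * e ^ 2 = δ * s ^ 2 ∧ m - 16 * e ^ 2 = ε * δ * t ^ 2 := by
  obtain ⟨ε, hε, hMpos, hApos, hCpos⟩ : ∃ ε : ℤ, (ε = 1 ∨ ε = -1) ∧ 0 < ε * m ∧
      0 < m + 9 * e ^ 2 ∧ 0 < ε * (m - 16 * e ^ 2) := by
    rcases signs hu h with ⟨h1, h2, h3⟩ | ⟨h1, h2, h3⟩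
    · exact ⟨1, Or.inl rfl, by linarith, h2, by linarith⟩
    · exact ⟨-1, Or.inr rfl, by linarith, h2, by linarith⟩
  have hεε : ε * ε = 1 := by rcases hε with rfl | rfl <;> norm_num
  obtain ⟨a1, b1, hsf1, hb1, hM⟩ := pos_int_decomp hMpos
  obtain ⟨a2, b2, hsf2, hb2, hA⟩ := pos_int_decomp hApos
  obtain ⟨a3, b3, hsf3, hb3, hC⟩ := pos_int_decomp hCpos
  -- the product of the squarefree parts is a square
  have hprod : ((u.natAbs : ℤ)) ^ 2 = ((a1 * a2 * a3 * (b1 * b2 * b3) ^ 2 : ℕ) : ℤ) := by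
    rw [Int.natAbs_sq, h]
    push_cast
    calc m * (m + 9 * e ^ 2) * (m - 16 * e ^ 2)
        = (ε * ε) * (m * (m + 9 * e ^ 2) * (m - 16 * e ^ 2)) := by rw [hεε, one_mul]
      _ = (ε * m) * (m + 9 * e ^ 2) * (ε * (m - 16 * e ^ 2)) := by ring
      _ = _ := by rw [hM, hA, hC]; ring
  have hprodN : u.natAbs ^ 2 = a1 * a2 * a3 * (b1 * b2 * b3) ^ 2 := by exact_mod_cast hprod
  have hdvd : b1 * b2 * b3 ∣ u.natAbs :=
    (Nat.pow_dvd_pow_iff two_ne_zero).mp ⟨a1 * a2 * a3, by rw [hprodN]; ring⟩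
  obtain ⟨w, hw⟩ := hdvd
  have hw2 : a1 * a2 * a3 = w ^ 2 := by
    have hb : 0 < (b1 * b2 * b3) ^ 2 := by positivity
    have : a1 * a2 * a3 * (b1 * b2 * b3) ^ 2 = w ^ 2 * (b1 * b2 * b3) ^ 2 := by
      rw [← hprodN, hw]; ring
    exact Nat.eq_of_mul_eq_mul_right hb this
  -- equations in terms of `m`
  have hm_eq : m = ε * a1 * (b1 : ℤ) ^ 2 := by
    have : m = ε * (ε * m) := by rw [← mul_assoc, hεε, one_mul]
    rw [this, hM]; ring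
  have hB_eq : m - 16 * e ^ 2 = ε * a3 * (b3 : ℤ) ^ 2 := by
    have : m - 16 * e ^ 2 = ε * (ε * (m - 16 * e ^ 2)) := by rw [← mul_assoc, hεε, one_mul]
    rw [this, hC]; ring
  -- divisibility facts
  have hm1 : (a1 : ℤ) ∣ m := ⟨ε * (b1 : ℤ) ^ 2, by rw [hm_eq]; ring⟩
  have hA2 : (a2 : ℤ) ∣ m + 9 * e ^ 2 := ⟨(b2 : ℤ) ^ 2, hA⟩
  have hB3 : (a3 : ℤ) ∣ m - 16 * e ^ 2 := ⟨ε * (b3 : ℤ) ^ 2, by rw [hB_eq]; ring⟩
  have hcA : IsCoprime (m + 9 * e ^ 2) e := by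
    have := hc.add_mul_right_left (9 * e)
    rwa [show m + 9 * e * e = m + 9 * e ^ 2 by ring] at this
  have g12 : Nat.gcd a1 a2 ∣ 9 := by
    have hd1 : ((Nat.gcd a1 a2 : ℕ) : ℤ) ∣ m :=
      (Int.natCast_dvd_natCast.mpr (Nat.gcd_dvd_left a1 a2)).trans hm1
    have hd2 : ((Nat.gcd a1 a2 : ℕ) : ℤ) ∣ m + 9 * e ^ 2 :=
      (Int.natCast_dvd_natCast.mpr (Nat.gcd_dvd_right a1 a2)).trans hA2
    have hd3 : ((Nat.gcd a1 a2 : ℕ) : ℤ) ∣ 9 * e ^ 2 := by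
      have := dvd_sub hd2 hd1
      rwa [show m + 9 * e ^ 2 - m = 9 * e ^ 2 by ring] at this
    have := coprime_dvd_of_dvd_mul_sq hc hd1 hd3
    exact_mod_cast this
  have g13 : Nat.gcd a1 a3 ∣ 16 := by
    have hd1 : ((Nat.gcd a1 a3 : ℕ) : ℤ) ∣ m :=
      (Int.natCast_dvd_natCast.mpr (Nat.gcd_dvd_left a1 a3)).trans hm1
    have hd2 : ((Nat.gcd a1 a3 : ℕ) : ℤ) ∣ m - 16 * e ^ 2 :=
      (Int.natCast_dvd_natCast.mpr (Nat.gcd_dvd_right a1 a3)).trans hB3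
    have hd3 : ((Nat.gcd a1 a3 : ℕ) : ℤ) ∣ 16 * e ^ 2 := by
      have := dvd_sub hd1 hd2
      rwa [show m - (m - 16 * e ^ 2) = 16 * e ^ 2 by ring] at this
    have := coprime_dvd_of_dvd_mul_sq hc hd1 hd3
    exact_mod_cast this
  have g23 : Nat.gcd a2 a3 ∣ 25 := by
    have hd1 : ((Nat.gcd a2 a3 : ℕ) : ℤ) ∣ m + 9 * e ^ 2 :=
      (Int.natCast_dvd_natCast.mpr (Nat.gcd_dvd_left a2 a3)).trans hA2
    have hd2 : ((Nat.gcd a2 a3 : ℕ) : ℤ) ∣ m - 16 * e ^ 2 :=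
      (Int.natCast_dvd_natCast.mpr (Nat.gcd_dvd_right a2 a3)).trans hB3
    have hd3 : ((Nat.gcd a2 a3 : ℕ) : ℤ) ∣ 25 * e ^ 2 := by
      have := dvd_sub hd1 hd2
      rwa [show m + 9 * e ^ 2 - (m - 16 * e ^ 2) = 25 * e ^ 2 by ring] at this
    have := coprime_dvd_of_dvd_mul_sq hcA hd1 hd3
    exact_mod_cast this
  have h1 : a1 ∣ 6 := by
    have := sf_dvd (g2 := 9) (g3 := 16) hsf1 hw2 g12 g13
    rw [← hsf1.dvd_pow_iff_dvd (n := 4) (by norm_num)]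
    exact this.trans (by norm_num)
  have h2 : a2 ∣ 15 := by
    have g21 : Nat.gcd a2 a1 ∣ 9 := by rwa [Nat.gcd_comm]
    have := sf_dvd (g2 := 9) (g3 := 25) hsf2 (by rw [← hw2]; ring : a2 * a1 * a3 = w ^ 2)
      g21 g23
    rw [← hsf2.dvd_pow_iff_dvd (n := 2) two_ne_zero]
    exact this.trans (by norm_num)
  have h3 : a3 ∣ 10 := by
    have g31 : Nat.gcd a3 a1 ∣ 16 := by rwa [Nat.gcd_comm]
    have g32 : Nat.gcd a3 a2 ∣ 25 := by rwa [Nat.gcd_comm]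
    have := sf_dvd (g2 := 16) (g3 := 25) hsf3 (by rw [← hw2]; ring : a3 * a1 * a2 = w ^ 2)
      g31 g32
    rw [← hsf3.dvd_pow_iff_dvd (n := 4) (by norm_num)]
    exact this.trans (by norm_num)
  rcases triples h1 h2 h3 hw2 with ⟨rfl, rfl, rfl⟩ | ⟨rfl, rfl, rfl⟩ | ⟨rfl, rfl, rfl⟩ |
    ⟨rfl, rfl, rfl⟩ | ⟨rfl, rfl, rfl⟩ | ⟨rfl, rfl, rfl⟩ | ⟨rfl, rfl, rfl⟩ | ⟨rfl, rfl, rfl⟩
  · exact ⟨ε, 1, b1, b2, b3, hε, Or.inl rfl, by rw [hm_eq]; push_cast; ring,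
      by rw [hA]; push_cast; ring, by rw [hB_eq]; push_cast; ring⟩
  · exact ⟨ε, 5, b1, b2, b3, hε, Or.inr rfl, by rw [hm_eq]; push_cast; ring,
      by rw [hA]; push_cast; ring, by rw [hB_eq]; push_cast; ring⟩
  · exact (excl_two_one hε hc (b1 := b1) (b2 := b2) (b3 := b3)
      (by rw [hm_eq]; push_cast; ring) (by rw [hA]; push_cast; ring)
      (by rw [hB_eq]; push_cast; ring)).elim
  · exact (excl_two_five hε hc (b1 := b1) (b2 := b2)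
      (by rw [hm_eq]; push_cast; ring) (by rw [hA]; push_cast; ring)).elim
  · exact (excl_three hε (a1' := 1) (a2' := 1) (Or.inl rfl) (Or.inl rfl) hc
      (b1 := b1) (b2 := b2) (b3 := b3)
      (by rw [hm_eq]; push_cast; ring) (by rw [hA]; push_cast; ring)
      (by rw [hB_eq]; push_cast; ring)).elim
  · exact (excl_three hε (a1' := 1) (a2' := 5) (Or.inl rfl) (Or.inr rfl) hc
      (b1 := b1) (b2 := b2) (b3 := b3)
      (by rw [hm_eq]; push_cast; ring) (by rw [hA]; push_cast; ring)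
      (by rw [hB_eq]; push_cast; ring)).elim
  · exact (excl_three hε (a1' := 2) (a2' := 1) (Or.inr rfl) (Or.inl rfl) hc
      (b1 := b1) (b2 := b2) (b3 := b3)
      (by rw [hm_eq]; push_cast; ring) (by rw [hA]; push_cast; ring)
      (by rw [hB_eq]; push_cast; ring)).elim
  · exact (excl_three hε (a1' := 2) (a2' := 5) (Or.inr rfl) (Or.inr rfl) hc
      (b1 := b1) (b2 := b2) (b3 := b3)
      (by rw [hm_eq]; push_cast; ring) (by rw [hA]; push_cast; ring)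
      (by rw [hB_eq]; push_cast; ring)).elim

/-! ### From rational points to the integral statement -/

/-- A rational point with `y ≠ 0` has `x = m / e²` in lowest terms, and
`m (m + 9 e²) (m - 16 e²)` is a nonzero integer square. -/
theorem exists_int_model {x y : ℚ} (h : y ^ 2 = x * (x + 9) * (x - 16)) (hy : y ≠ 0) :
    ∃ m e u : ℤ, e ≠ 0 ∧ IsCoprime m e ∧ x = (m : ℚ) / (e : ℚ) ^ 2 ∧ u ≠ 0 ∧
      u ^ 2 = m * (m + 9 * e ^ 2) * (m - 16 * e ^ 2) := by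
  obtain ⟨a, b, hbpos, hcop, hx⟩ : ∃ a b : ℤ, 0 < b ∧ IsCoprime a b ∧ x = (a : ℚ) / (b : ℚ) := by
    refine ⟨x.num, (x.den : ℤ), by exact_mod_cast x.den_pos, ?_, ?_⟩
    · rw [Int.isCoprime_iff_gcd_eq_one]
      simpa [Int.gcd] using x.reduced
    · simpa using (Rat.num_div_den x).symm
  have hb0 : (b : ℚ) ≠ 0 := by exact_mod_cast hbpos.ne'
  -- `b * (a (a + 9 b) (a - 16 b))` is a square
  have hsq : IsSquare (b * (a * (a + 9 * b) * (a - 16 * b))) := by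
    rw [← Rat.isSquare_intCast_iff]
    refine ⟨y * (b : ℚ) ^ 2, ?_⟩
    push_cast
    have : (y * (b : ℚ) ^ 2) * (y * (b : ℚ) ^ 2) = y ^ 2 * (b : ℚ) ^ 4 := by ring
    rw [this, h, hx]
    field_simp
  obtain ⟨v, hv⟩ := hsq
  have hcopb : IsCoprime b (a * (a + 9 * b) * (a - 16 * b)) := by
    have h1 : IsCoprime b a := hcop.symm
    have h2 : IsCoprime b (a + 9 * b) := by
      have := (hcop.add_mul_right_left 9).symm
      exact this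
    have h3 : IsCoprime b (a - 16 * b) := by
      have := (hcop.add_mul_right_left (-16)).symm
      rwa [show a + -16 * b = a - 16 * b by ring] at this
    exact (h1.mul_right h2).mul_right h3
  obtain ⟨e, he | he⟩ := Int.sq_of_gcd_eq_one (Int.isCoprime_iff_gcd_eq_one.mp hcopb)
    (by rw [hv]; ring : b * (a * (a + 9 * b) * (a - 16 * b)) = v ^ 2)
  swap
  · exfalso
    have : 0 ≤ e ^ 2 := sq_nonneg e
    linarith
  have he0 : e ≠ 0 := by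
    rintro rfl
    simp at he
    omega
  have heq : (e : ℚ) ≠ 0 := by exact_mod_cast he0
  have hx' : x = (a : ℚ) / (e : ℚ) ^ 2 := by
    rw [hx, he]; push_cast; rfl
  have hcop' : IsCoprime a e := by
    have : IsCoprime a (e ^ 2) := he ▸ hcop
    exact (IsCoprime.pow_right_iff (by norm_num : 0 < 2)).mp this
  -- the integral square
  have hsq2 : IsSquare (a * (a + 9 * e ^ 2) * (a - 16 * e ^ 2)) := by
    rw [← Rat.isSquare_intCast_iff]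
    refine ⟨y * (e : ℚ) ^ 3, ?_⟩
    push_cast
    have : (y * (e : ℚ) ^ 3) * (y * (e : ℚ) ^ 3) = y ^ 2 * (e : ℚ) ^ 6 := by ring
    rw [this, h, hx']
    field_simp
  obtain ⟨u, hu⟩ := hsq2
  refine ⟨a, e, u, he0, hcop', hx', ?_, by rw [hu]; ring⟩
  rintro rfl
  -- then `y = 0`
  apply hy
  have h0 : (a : ℚ) * ((a : ℚ) + 9 * (e : ℚ) ^ 2) * ((a : ℚ) - 16 * (e : ℚ) ^ 2) = 0 := by
    have := congrArg (Int.cast : ℤ → ℚ) hu
    push_cast at this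
    exact this
  have hy2 : y ^ 2 = 0 := by
    rw [h, hx']
    have : (a : ℚ) / (e : ℚ) ^ 2 * ((a : ℚ) / (e : ℚ) ^ 2 + 9) * ((a : ℚ) / (e : ℚ) ^ 2 - 16)
        = ((a : ℚ) * ((a : ℚ) + 9 * (e : ℚ) ^ 2) * ((a : ℚ) - 16 * (e : ℚ) ^ 2)) /
          (e : ℚ) ^ 6 := by
      field_simp
    rw [this, h0, zero_div]
  exact pow_eq_zero_iff (two_ne_zero) |>.mp hy2

/-- **Square classes** on `y² = x (x + 9) (x - 16)`: for a rational point with `y ≠ 0` the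
triple of square classes of `(x, x + 9, x - 16)` is one of `(1, 1, 1)`, `(-1, 1, -1)`,
`(-1, 5, -5)`, `(1, 5, 5)`. -/
theorem classes (x y : ℚ) (h : y ^ 2 = x * (x + 9) * (x - 16)) (hy : y ≠ 0) :
    (IsSquare x ∧ IsSquare (x + 9) ∧ IsSquare (x - 16)) ∨
    (IsSquare (-x) ∧ IsSquare (x + 9) ∧ IsSquare (-(x - 16))) ∨
    (IsSquare (-x) ∧ IsSquare (5 * (x + 9)) ∧ IsSquare (-5 * (x - 16))) ∨
    (IsSquare x ∧ IsSquare (5 * (x + 9)) ∧ IsSquare (5 * (x - 16))) := by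
  obtain ⟨m, e, u, he0, hc, hx, hu, hu2⟩ := exists_int_model h hy
  obtain ⟨ε, δ, r, s, t, hε, hδ, hm, hA, hB⟩ := int_classes hc hu hu2
  have heq : (e : ℚ) ≠ 0 := by exact_mod_cast he0
  have hmq : (m : ℚ) = ε * r ^ 2 := by exact_mod_cast hm
  have hAq : (m : ℚ) + 9 * (e : ℚ) ^ 2 = δ * s ^ 2 := by exact_mod_cast hA
  have hBq : (m : ℚ) - 16 * (e : ℚ) ^ 2 = ε * δ * t ^ 2 := by exact_mod_cast hB
  have hx1 : x = ε * ((r : ℚ) / e) ^ 2 := by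
    rw [hx, hmq]; field_simp
  have hx2 : x + 9 = δ * ((s : ℚ) / e) ^ 2 := by
    have : x + 9 = ((m : ℚ) + 9 * (e : ℚ) ^ 2) / (e : ℚ) ^ 2 := by
      rw [hx]; field_simp
    rw [this, hAq]; field_simp
  have hx3 : x - 16 = ε * δ * ((t : ℚ) / e) ^ 2 := by
    have : x - 16 = ((m : ℚ) - 16 * (e : ℚ) ^ 2) / (e : ℚ) ^ 2 := by
      rw [hx]; field_simp
    rw [this, hBq]; field_simp
  rcases hε with rfl | rfl <;> rcases hδ with rfl | rfl
  · left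
    refine ⟨⟨(r : ℚ) / e, ?_⟩, ⟨(s : ℚ) / e, ?_⟩, ⟨(t : ℚ) / e, ?_⟩⟩
    · rw [hx1]; push_cast; ring
    · rw [hx2]; push_cast; ring
    · rw [hx3]; push_cast; ring
  · right; right; right
    refine ⟨⟨(r : ℚ) / e, ?_⟩, ⟨5 * ((s : ℚ) / e), ?_⟩, ⟨5 * ((t : ℚ) / e), ?_⟩⟩
    · rw [hx1]; push_cast; ring
    · rw [hx2]; push_cast; ring
    · rw [hx3]; push_cast; ring
  · right; left
    refine ⟨⟨(r : ℚ) / e, ?_⟩, ⟨(s : ℚ) / e, ?_⟩, ⟨(t : ℚ) / e, ?_⟩⟩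
    · rw [hx1]; push_cast; ring
    · rw [hx2]; push_cast; ring
    · rw [hx3]; push_cast; ring
  · right; right; left
    refine ⟨⟨(r : ℚ) / e, ?_⟩, ⟨5 * ((s : ℚ) / e), ?_⟩, ⟨5 * ((t : ℚ) / e), ?_⟩⟩
    · rw [hx1]; push_cast; ring
    · rw [hx2]; push_cast; ring
    · rw [hx3]; push_cast; ring

end Fermat.Agent.S51.Classes
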